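import Fermat.Agent.S53.Good

set_option autoImplicit false
set_option linter.unusedSectionVars false

namespace Fermat.Agent.S53

open IsLocalRing GaloisRep

variable {𝒪 : Type} [CommRing 𝒪] [IsLocalRing 𝒪] [IsNoetherianRing 𝒪] {ι : Type}
  [Finite (ResidueField 𝒪)] {F : TupleFunctor 𝒪 ι} (hF : IsProRepFunctor 𝒪 F)
  {x0 : ι → ResidueField 𝒪} (hx0 : F (ResidueField 𝒪) x0)
  (huniq : ∀ x y, F (ResidueField 𝒪) x → F (ResidueField 𝒪) y → x = y)
  {d : ℕ} (t : Fin d → MvPolynomial ι 𝒪) (ht : ∀ i, t i ∈ baseIdeal x0)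
  (hgen : ∀ I, Good F I → baseIdeal x0 ≤ Ideal.span (Set.range t) ⊔ baseIdeal x0 ^ 2 ⊔
        (maximalIdeal 𝒪).map (algebraMap 𝒪 (MvPolynomial ι 𝒪)) ⊔ I)

section approx

variable (x0) (I : Ideal (MvPolynomial ι 𝒪))

/-- The elements of the base ideal which are, modulo `M ^ 2 ⊔ I`, polynomials in the `t i`. -/
noncomputable def approxIdeal : Ideal (MvPolynomial ι 𝒪) where
  carrier := {p | p ∈ baseIdeal x0 ∧ ∃ q : MvPolynomial (Fin d) 𝒪,
    p - MvPolynomial.aeval t q ∈ baseIdeal x0 ^ 2 ⊔ I}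
  zero_mem' := ⟨zero_mem _, 0, by simp⟩
  add_mem' := by
    rintro a b ⟨ha, qa, hqa⟩ ⟨hb, qb, hqb⟩
    refine ⟨add_mem ha hb, qa + qb, ?_⟩
    have : a + b - MvPolynomial.aeval t (qa + qb)
        = (a - MvPolynomial.aeval t qa) + (b - MvPolynomial.aeval t qb) := by
      rw [map_add]; ring
    rw [this]
    exact add_mem hqa hqb
  smul_mem' := by
    rintro c a ⟨ha, qa, hqa⟩
    obtain ⟨o, ho⟩ := exists_sub_algebraMap_mem_baseIdeal x0 c
    refine ⟨Ideal.mul_mem_left _ _ ha, algebraMap 𝒪 _ o * qa, ?_⟩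
    have : c • a - MvPolynomial.aeval t (algebraMap 𝒪 _ o * qa)
        = algebraMap 𝒪 _ o * (a - MvPolynomial.aeval t qa) + (c - algebraMap 𝒪 _ o) * a := by
      rw [map_mul, AlgHom.commutes, smul_eq_mul]; ring
    rw [this]
    refine add_mem (Ideal.mul_mem_left _ _ hqa) (Ideal.mem_sup_left ?_)
    rw [pow_two]
    exact Ideal.mul_mem_mul ho ha

end approx

include ht in
theorem approx_one {I : Ideal (MvPolynomial ι 𝒪)} (hIM : I ≤ baseIdeal x0)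
    (hgenI : baseIdeal x0 ≤ Ideal.span (Set.range t) ⊔ baseIdeal x0 ^ 2 ⊔
        (maximalIdeal 𝒪).map (algebraMap 𝒪 (MvPolynomial ι 𝒪)) ⊔ I)
    {p : MvPolynomial ι 𝒪} (hp : p ∈ baseIdeal x0) :
    ∃ q : MvPolynomial (Fin d) 𝒪, p - MvPolynomial.aeval t q ∈ baseIdeal x0 ^ 2 ⊔ I := by
  have h : baseIdeal x0 ≤ approxIdeal x0 t I := by
    refine hgenI.trans (sup_le (sup_le (sup_le ?_ ?_) ?_) ?_)
    · rw [Ideal.span_le]
      rintro _ ⟨i, rfl⟩
      exact ⟨ht i, MvPolynomial.X i, by simp⟩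
    · intro a ha
      exact ⟨Ideal.pow_le_self two_ne_zero ha, 0, by simpa using Ideal.mem_sup_left ha⟩
    · rw [Ideal.map_le_iff_le_comap]
      intro o ho
      exact ⟨(algebraMap_mem_baseIdeal_iff x0 o).mpr ho, algebraMap 𝒪 _ o, by simp⟩
    · intro a ha
      exact ⟨hIM ha, 0, by simpa using Ideal.mem_sup_right ha⟩
  exact (h hp).2

include ht in
theorem approx_pow {I : Ideal (MvPolynomial ι 𝒪)} (hIM : I ≤ baseIdeal x0)
    (hgenI : baseIdeal x0 ≤ Ideal.span (Set.range t) ⊔ baseIdeal x0 ^ 2 ⊔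
        (maximalIdeal 𝒪).map (algebraMap 𝒪 (MvPolynomial ι 𝒪)) ⊔ I) (j : ℕ) :
    ∀ p ∈ baseIdeal x0 ^ j, ∃ q : MvPolynomial (Fin d) 𝒪,
      p - MvPolynomial.aeval t q ∈ baseIdeal x0 ^ (j + 1) ⊔ I := by
  induction j with
  | zero =>
    intro p _
    obtain ⟨o, ho⟩ := exists_sub_algebraMap_mem_baseIdeal x0 p
    refine ⟨algebraMap 𝒪 _ o, Ideal.mem_sup_left ?_⟩
    rw [AlgHom.commutes]
    simpa using ho
  | succ j ih =>
    intro p hp
    rw [pow_succ] at hp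
    induction hp using Submodule.mul_induction_on' with
    | mem_mul_mem b hb c hc =>
      obtain ⟨qb, hqb⟩ := ih b hb
      obtain ⟨qc, hqc⟩ := approx_one t ht hIM hgenI hc
      refine ⟨qb * qc, ?_⟩
      have hqcM : MvPolynomial.aeval t qc ∈ baseIdeal x0 := by
        have h1 : c - MvPolynomial.aeval t qc ∈ baseIdeal x0 :=
          (sup_le (Ideal.pow_le_self two_ne_zero) hIM) hqc
        have := sub_mem hc h1
        simpa using this
      have : b * c - MvPolynomial.aeval t (qb * qc)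
          = b * (c - MvPolynomial.aeval t qc)
            + (b - MvPolynomial.aeval t qb) * MvPolynomial.aeval t qc := by
        rw [map_mul]; ring
      rw [this]
      refine add_mem ?_ ?_
      · have h1 : baseIdeal x0 ^ j * (baseIdeal x0 ^ 2 ⊔ I) ≤ baseIdeal x0 ^ (j + 1 + 1) ⊔ I := by
          rw [Ideal.mul_sup]
          refine sup_le_sup ?_ Ideal.mul_le_right
          rw [← pow_add]
        exact h1 (Ideal.mul_mem_mul hb hqc)
      · have h1 : (baseIdeal x0 ^ (j + 1) ⊔ I) * baseIdeal x0 ≤ baseIdeal x0 ^ (j + 1 + 1) ⊔ I := by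
          rw [Ideal.sup_mul]
          refine sup_le_sup ?_ Ideal.mul_le_left
          rw [← pow_succ]
        exact h1 (Ideal.mul_mem_mul hqb hqcM)
    | add a _ b _ iha ihb =>
      obtain ⟨qa, hqa⟩ := iha
      obtain ⟨qb, hqb⟩ := ihb
      refine ⟨qa + qb, ?_⟩
      have : a + b - MvPolynomial.aeval t (qa + qb)
          = (a - MvPolynomial.aeval t qa) + (b - MvPolynomial.aeval t qb) := by
        rw [map_add]; ring
      rw [this]
      exact add_mem hqa hqb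

include ht in
theorem approx_all {I : Ideal (MvPolynomial ι 𝒪)} (hIM : I ≤ baseIdeal x0)
    (hgenI : baseIdeal x0 ≤ Ideal.span (Set.range t) ⊔ baseIdeal x0 ^ 2 ⊔
        (maximalIdeal 𝒪).map (algebraMap 𝒪 (MvPolynomial ι 𝒪)) ⊔ I) (j : ℕ)
    (p : MvPolynomial ι 𝒪) :
    ∃ q : MvPolynomial (Fin d) 𝒪, p - MvPolynomial.aeval t q ∈ baseIdeal x0 ^ j ⊔ I := by
  induction j with
  | zero => exact ⟨0, by simp⟩
  | succ j ih =>
    obtain ⟨q, hq⟩ := ih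
    obtain ⟨u, hu, z, hz, huz⟩ := Submodule.mem_sup.mp hq
    obtain ⟨q', hq'⟩ := approx_pow t ht hIM hgenI j u hu
    refine ⟨q + q', ?_⟩
    have : p - MvPolynomial.aeval t (q + q') = (u - MvPolynomial.aeval t q') + z := by
      rw [map_add]
      linear_combination -huz
    rw [this]
    exact add_mem hq' (Ideal.mem_sup_right hz)

include hF hx0 huniq ht hgen in
/-- (L-a) -/
theorem surjective_of_generators {I : Ideal (MvPolynomial ι 𝒪)} (hI : Good F I) :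
    Function.Surjective ((Ideal.Quotient.mkₐ 𝒪 I).comp
      (MvPolynomial.aeval t : MvPolynomial (Fin d) 𝒪 →ₐ[𝒪] MvPolynomial ι 𝒪)) := by
  obtain ⟨n, hn⟩ := hI.exists_pow_le hF hx0 huniq
  intro c
  obtain ⟨p, rfl⟩ := Ideal.Quotient.mk_surjective c
  obtain ⟨q, hq⟩ := approx_all t ht (hI.le_baseIdeal hF hx0 huniq) (hgen I hI) n p
  refine ⟨q, ?_⟩
  have h1 : p - MvPolynomial.aeval t q ∈ I := (sup_le hn le_rfl) hq
  exact (Ideal.Quotient.eq.mpr h1).symm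

include hF hx0 huniq ht hgen in
/-- (L-b) -/
theorem exists_level (n : ℕ) :
    ∃ I, Good F I ∧ baseIdeal x0 ^ (n + 1) ≤ I ∧
      ∀ J, Good F J → baseIdeal x0 ^ (n + 1) ≤ J → I ≤ J := by
  classical
  let ψ : MvPolynomial (Fin d) 𝒪 →ₐ[𝒪] ResidueField 𝒪 :=
    (MvPolynomial.aeval x0 : MvPolynomial ι 𝒪 →ₐ[𝒪] ResidueField 𝒪).comp (MvPolynomial.aeval t)
  let 𝔮 : Ideal (MvPolynomial (Fin d) 𝒪) := RingHom.ker ψ
  have hfin0 : Finite (MvPolynomial (Fin d) 𝒪 ⧸ 𝔮) :=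
    Finite.of_injective _ (Ideal.kerLiftAlg_injective ψ)
  have hfin : Finite (MvPolynomial (Fin d) 𝒪 ⧸ 𝔮 ^ (n + 1)) :=
    Ideal.finite_quotient_pow (IsNoetherian.noetherian _) _
  have h𝔮0 : 𝔮 ≤ (baseIdeal x0).comap
      (MvPolynomial.aeval t : MvPolynomial (Fin d) 𝒪 →ₐ[𝒪] MvPolynomial ι 𝒪) := fun a ha => ha
  have h𝔮 : 𝔮 ^ (n + 1) ≤ (baseIdeal x0 ^ (n + 1)).comap
      (MvPolynomial.aeval t : MvPolynomial (Fin d) 𝒪 →ₐ[𝒪] MvPolynomial ι 𝒪) :=
    (Ideal.pow_right_mono h𝔮0 _).trans (Ideal.le_comap_pow _ _)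
  have hbound : ∀ J, Good F J → baseIdeal x0 ^ (n + 1) ≤ J →
      Nat.card (MvPolynomial ι 𝒪 ⧸ J) ≤ Nat.card (MvPolynomial (Fin d) 𝒪 ⧸ 𝔮 ^ (n + 1)) := by
    intro J hJ hMJ
    have hs := surjective_of_generators hF hx0 huniq t ht hgen hJ
    have hk : ∀ a ∈ 𝔮 ^ (n + 1), (((Ideal.Quotient.mkₐ 𝒪 J).comp
      (MvPolynomial.aeval t : MvPolynomial (Fin d) 𝒪 →ₐ[𝒪] MvPolynomial ι 𝒪) :
        MvPolynomial (Fin d) 𝒪 →ₐ[𝒪] MvPolynomial ι 𝒪 ⧸ J) :
        MvPolynomial (Fin d) 𝒪 →+* MvPolynomial ι 𝒪 ⧸ J) a = 0 := by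
      intro a ha
      exact Ideal.Quotient.eq_zero_iff_mem.mpr (hMJ (h𝔮 ha))
    exact Nat.card_le_card_of_surjective _
      (Ideal.Quotient.lift_surjective_of_surjective (𝔮 ^ (n + 1)) hk hs)
  let Pr : ℕ → Prop := fun m => ∃ J, Good F J ∧ baseIdeal x0 ^ (n + 1) ≤ J ∧
    Nat.card (MvPolynomial ι 𝒪 ⧸ J) = m
  have hM : baseIdeal x0 ^ (n + 1) ≤ baseIdeal x0 := Ideal.pow_le_self (Nat.succ_ne_zero n)
  have h0 : Pr (Nat.card (MvPolynomial ι 𝒪 ⧸ baseIdeal x0)) :=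
    ⟨baseIdeal x0, good_baseIdeal hF hx0, hM, rfl⟩
  obtain ⟨I, hI, hMI, hcard⟩ :=
    Nat.findGreatest_spec (P := Pr) (hbound _ (good_baseIdeal hF hx0) hM) h0
  refine ⟨I, hI, hMI, fun J hJ hMJ => ?_⟩
  have hIJ := hI.inf hF hx0 huniq hJ
  have hle : Nat.card (MvPolynomial ι 𝒪 ⧸ I ⊓ J) ≤ Nat.card (MvPolynomial ι 𝒪 ⧸ I) := by
    rw [hcard]
    exact Nat.le_findGreatest (P := Pr) (hbound _ hIJ (le_inf hMI hMJ))
      ⟨I ⊓ J, hIJ, le_inf hMI hMJ, rfl⟩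
  have := hIJ.finite
  have hbij := (Ideal.Quotient.factor_surjective
    (inf_le_left : I ⊓ J ≤ I)).bijective_of_nat_card_le hle
  intro p hp
  have h1 : Ideal.Quotient.mk (I ⊓ J) p = 0 := by
    apply hbij.1
    rw [map_zero]
    exact Ideal.Quotient.eq_zero_iff_mem.mpr hp
  exact (Ideal.Quotient.eq_zero_iff_mem.mp h1).2

include hF hx0 huniq in
/-- (L-c) formal consequence of minimality. -/
theorem level_eq_sup (I : ℕ → Ideal (MvPolynomial ι 𝒪))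
    (hI : ∀ n, Good F (I n) ∧ baseIdeal x0 ^ (n + 1) ≤ I n ∧
      ∀ J, Good F J → baseIdeal x0 ^ (n + 1) ≤ J → I n ≤ J) (n : ℕ) :
    I n = I (n + 1) ⊔ baseIdeal x0 ^ (n + 1) := by
  apply le_antisymm
  · refine (hI n).2.2 _ ?_ le_sup_right
    refine (hI (n + 1)).1.of_le hF hx0 huniq le_sup_left (sup_le ?_ ?_)
    · exact (hI (n + 1)).1.le_baseIdeal hF hx0 huniq
    · exact Ideal.pow_le_self (Nat.succ_ne_zero n)
  · refine sup_le ?_ (hI n).2.1
    exact (hI (n + 1)).2.2 _ (hI n).1 ((Ideal.pow_le_pow_right (Nat.le_succ _)).trans (hI n).2.1)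

end Fermat.Agent.S53
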