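import Fermat.Agent.S53.LimitAux

set_option autoImplicit false

namespace Fermat.Agent.S53

open IsLocalRing

variable {𝒪 : Type} [CommRing 𝒪] [IsLocalRing 𝒪]

/-- Construction of the limit ring as a quotient of a power series ring. -/
theorem exists_limit_ring [IsNoetherianRing 𝒪] [IsAdicComplete (maximalIdeal 𝒪) 𝒪]
    {S : Type} [CommRing S] [Algebra 𝒪 S] (M : Ideal S) (I : ℕ → Ideal S)
    (hM : ∀ s : S, ∃ o : 𝒪, s - algebraMap 𝒪 S o ∈ M)
    (hM' : ∀ o : 𝒪, algebraMap 𝒪 S o ∈ M ↔ o ∈ maximalIdeal 𝒪)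
    (hI1 : ∀ n, M ^ (n + 1) ≤ I n) (hI2 : ∀ n, I n ≤ M)
    (hI3 : ∀ n, I n = I (n + 1) ⊔ M ^ (n + 1))
    {d : ℕ} (t : Fin d → S) (ht : ∀ i, t i ∈ M)
    (hsurj : ∀ n, Function.Surjective ((Ideal.Quotient.mkₐ 𝒪 (I n)).comp
      (MvPolynomial.aeval t : MvPolynomial (Fin d) 𝒪 →ₐ[𝒪] S))) :
    ∃ (R : Type) (_ : CommRing R) (_ : IsLocalRing R) (_ : IsNoetherianRing R)
      (_ : IsAdicComplete (maximalIdeal R) R) (_ : Algebra 𝒪 R)
      (_ : IsLocalHom (algebraMap 𝒪 R)),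
      Function.Surjective (residue R ∘ algebraMap 𝒪 R) ∧
      ∃ Ψ : S →ₐ[𝒪] R,
        (∀ n, (maximalIdeal R ^ (n + 1)).comap Ψ = I n) ∧
        (∀ (n : ℕ) (r : R), ∃ s : S, r - Ψ s ∈ maximalIdeal R ^ (n + 1)) := by
  classical
  have hMne : M ≠ ⊤ := by
    intro h
    have h1 : algebraMap 𝒪 S 1 ∈ M := by rw [h]; trivial
    rw [hM'] at h1
    exact (maximalIdeal.isMaximal 𝒪).ne_top ((Ideal.eq_top_iff_one _).mpr h1)
  have hIle : ∀ n, I (n + 1) ≤ I n := fun n => by rw [hI3 n]; exact le_sup_left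
  -- the images of the generators
  let b : (n : ℕ) → Fin d → S ⧸ I n := fun n i => Ideal.Quotient.mk (I n) (t i)
  let Mb : (n : ℕ) → Ideal (S ⧸ I n) := fun n => M.map (Ideal.Quotient.mk (I n))
  have hMb : ∀ n, Mb n ^ (n + 1) = ⊥ := by
    intro n
    rw [← Ideal.map_pow, Ideal.map_eq_bot_iff_le_ker, Ideal.mk_ker]
    exact hI1 n
  have hbMb : ∀ n, Ideal.span (Set.range (b n)) ≤ Mb n := by
    intro n
    rw [Ideal.span_le]
    rintro _ ⟨i, rfl⟩
    exact Ideal.mem_map_of_mem _ (ht i)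
  have hb : ∀ n, (Ideal.span (Set.range (b n))) ^ (n + 1) = ⊥ := by
    intro n
    rw [eq_bot_iff, ← hMb n]
    exact Ideal.pow_right_mono (hbMb n) _
  have hMbne : ∀ n, Mb n ≠ ⊤ := by
    intro n h
    have h1 : (M.map (Ideal.Quotient.mk (I n))).comap (Ideal.Quotient.mk (I n)) = ⊤ := by
      rw [show M.map (Ideal.Quotient.mk (I n)) = Mb n from rfl, h, Ideal.comap_top]
    rw [Ideal.comap_map_of_surjective' _ Ideal.Quotient.mk_surjective, Ideal.mk_ker,
      sup_eq_left.mpr (hI2 n)] at h1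
    exact hMne h1
  let π : (n : ℕ) → MvPowerSeries (Fin d) 𝒪 →ₐ[𝒪] S ⧸ I n := fun n => evalNilp (b n) (hb n)
  have hπX : ∀ n i, π n (MvPowerSeries.X i) = b n i := fun n i => evalNilp_X (b n) (hb n) i
  have hπsurj : ∀ n, Function.Surjective (π n) := by
    intro n y
    obtain ⟨p, hp⟩ := hsurj n y
    refine ⟨(p : MvPowerSeries (Fin d) 𝒪), ?_⟩
    rw [← hp]
    change evalNilp (b n) (hb n) _ = _
    rw [evalNilp_coe]
    have := MvPolynomial.comp_aeval_apply (R := 𝒪) t (Ideal.Quotient.mkₐ 𝒪 (I n)) p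
    exact this.symm
  have hπcompat : ∀ n, π n = (Ideal.Quotient.factorₐ 𝒪 (hIle n)).comp (π (n + 1)) := by
    intro n
    refine algHom_ext_of_nilp (n := n + 1) _ _ ?_ ?_
    · simp only [hπX]
      exact hb n
    · intro i
      rw [AlgHom.comp_apply, hπX, hπX]
      rfl
  have hπm : ∀ n, maximalIdeal (MvPowerSeries (Fin d) 𝒪) ≤ (Mb n).comap (π n) := by
    intro n
    refine maximalIdeal_mvPowerSeries_le_comap (π n) (Mb n) ?_ ?_
    · intro o ho
      exact Ideal.mem_map_of_mem (Ideal.Quotient.mk (I n)) ((hM' o).mpr ho)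
    · intro i
      rw [hπX]
      exact Ideal.mem_map_of_mem _ (ht i)
  let K : ℕ → Ideal (MvPowerSeries (Fin d) 𝒪) := fun n => RingHom.ker (π n)
  have hK1 : ∀ n, maximalIdeal (MvPowerSeries (Fin d) 𝒪) ^ (n + 1) ≤ K n := by
    intro n f hf
    have h1 := Ideal.le_comap_pow (π n) (K := Mb n) (n + 1) (Ideal.pow_right_mono (hπm n) _ hf)
    rw [hMb n] at h1
    exact h1
  have hK2 : ∀ n, K n ≠ ⊤ := by
    intro n h
    have h1 : (1 : MvPowerSeries (Fin d) 𝒪) ∈ K n := by rw [h]; trivial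
    have h2 : π n 1 = 0 := h1
    rw [map_one] at h2
    apply hMbne n
    rw [Ideal.eq_top_iff_one, h2]
    exact Ideal.zero_mem _
  have hK3 : ∀ n, K (n + 1) ≤ K n := by
    intro n f hf
    have h1 : π (n + 1) f = 0 := hf
    change π n f = 0
    rw [hπcompat n, AlgHom.comp_apply, h1, map_zero]
  -- preimages of elements of `Mb` lie in the maximal ideal
  have hπm' : ∀ n, Mb n ≤ (maximalIdeal (MvPowerSeries (Fin d) 𝒪)).map (π n) := by
    intro n y hy
    obtain ⟨f, rfl⟩ := hπsurj n y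
    refine Ideal.mem_map_of_mem _ ?_
    rw [mem_maximalIdeal, mem_nonunits_iff]
    intro hu
    exact hMbne n (Ideal.eq_top_of_isUnit_mem _ hy (hu.map (π n)))
  have hK4 : ∀ n, K n = K (n + 1) ⊔ maximalIdeal (MvPowerSeries (Fin d) 𝒪) ^ (n + 1) := by
    intro n
    refine le_antisymm ?_ (sup_le (hK3 n) (hK1 n))
    intro f hf
    have h1 : π n f = 0 := hf
    rw [hπcompat n, AlgHom.comp_apply] at h1
    obtain ⟨s, hs⟩ := Ideal.Quotient.mk_surjective (π (n + 1) f)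
    rw [← hs] at h1
    have h2 : s ∈ I n := by
      rw [← Ideal.Quotient.eq_zero_iff_mem]
      exact h1
    rw [hI3 n] at h2
    obtain ⟨u, hu, v, hv, huv⟩ := Submodule.mem_sup.mp h2
    have h3 : π (n + 1) f = Ideal.Quotient.mk (I (n + 1)) v := by
      rw [← hs, ← huv, map_add, Ideal.Quotient.eq_zero_iff_mem.mpr hu, zero_add]
    have h4 : Ideal.Quotient.mk (I (n + 1)) v ∈
        (maximalIdeal (MvPowerSeries (Fin d) 𝒪) ^ (n + 1)).map (π (n + 1)) := by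
      rw [Ideal.map_pow]
      refine Ideal.pow_right_mono (hπm' (n + 1)) _ ?_
      rw [← Ideal.map_pow]
      exact Ideal.mem_map_of_mem _ hv
    obtain ⟨g, hg, hgv⟩ := (Ideal.mem_map_iff_of_surjective (π (n + 1)) (hπsurj (n + 1))).mp h4
    have h5 : f - g ∈ K (n + 1) := by
      change π (n + 1) (f - g) = 0
      rw [map_sub, h3, hgv, sub_self]
    have : f = (f - g) + g := by ring
    rw [this]
    exact Ideal.add_mem _ (Ideal.mem_sup_left h5) (Ideal.mem_sup_right hg)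
  let J : Ideal (MvPowerSeries (Fin d) 𝒪) := ⨅ j, K j
  have hKJ : ∀ n, K n = J ⊔ maximalIdeal (MvPowerSeries (Fin d) 𝒪) ^ (n + 1) :=
    chain_eq_iInf_sup _ K hK4
  have hJne : J ≠ ⊤ := by
    intro h
    apply hK2 0
    rw [eq_top_iff, ← h]
    exact iInf_le K 0
  obtain ⟨hloc, hcomp, hmax⟩ := quotient_complete J hJne
  -- membership criterion
  have hQ : ∀ n (f : MvPowerSeries (Fin d) 𝒪),
      Ideal.Quotient.mk J f ∈ maximalIdeal (MvPowerSeries (Fin d) 𝒪 ⧸ J) ^ (n + 1) ↔ f ∈ K n := by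
    intro n f
    rw [hmax, ← Ideal.map_pow, ← Ideal.mem_comap,
      Ideal.comap_map_of_surjective' _ Ideal.Quotient.mk_surjective, Ideal.mk_ker, hKJ n, sup_comm]
  have hlocO : IsLocalHom (algebraMap 𝒪 (MvPowerSeries (Fin d) 𝒪 ⧸ J)) := by
    constructor
    intro o ho
    by_contra hno
    have h1 : o ∈ maximalIdeal 𝒪 := (mem_maximalIdeal o).mpr hno
    have h2 : algebraMap 𝒪 (MvPowerSeries (Fin d) 𝒪) o ∈ maximalIdeal (MvPowerSeries (Fin d) 𝒪) := by
      rw [mem_maximalIdeal_mvPowerSeries_iff, ← MvPowerSeries.c_eq_algebraMap]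
      simpa using h1
    have h3 : algebraMap 𝒪 (MvPowerSeries (Fin d) 𝒪 ⧸ J) o ∈
        maximalIdeal (MvPowerSeries (Fin d) 𝒪 ⧸ J) := by
      rw [hmax]
      exact Ideal.mem_map_of_mem (Ideal.Quotient.mk J) h2
    exact ((mem_maximalIdeal _).mp h3) ho
  have hres : Function.Surjective (residue (MvPowerSeries (Fin d) 𝒪 ⧸ J) ∘
      algebraMap 𝒪 (MvPowerSeries (Fin d) 𝒪 ⧸ J)) := by
    intro y
    obtain ⟨r, rfl⟩ := residue_surjective y
    obtain ⟨f, rfl⟩ := Ideal.Quotient.mk_surjective r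
    refine ⟨MvPowerSeries.constantCoeff f, ?_⟩
    rw [Function.comp_apply, ← sub_eq_zero, ← map_sub, residue_eq_zero_iff, hmax]
    have h1 : algebraMap 𝒪 (MvPowerSeries (Fin d) 𝒪) (MvPowerSeries.constantCoeff f) - f ∈
        maximalIdeal (MvPowerSeries (Fin d) 𝒪) := by
      rw [mem_maximalIdeal_mvPowerSeries_iff, ← MvPowerSeries.c_eq_algebraMap]
      simp
    exact Ideal.mem_map_of_mem (Ideal.Quotient.mk J) h1
  -- the map `Ψ`
  obtain ⟨Ψ, hΨ⟩ := exists_algHom_of_approx (𝒪 := 𝒪) (X := S)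
    (A := MvPowerSeries (Fin d) 𝒪 ⧸ J) (maximalIdeal (MvPowerSeries (Fin d) 𝒪 ⧸ J))
    (fun n s r => ∃ f : MvPowerSeries (Fin d) 𝒪, π n f = Ideal.Quotient.mk (I n) s ∧
      r = Ideal.Quotient.mk J f)
    (fun n s => by
      obtain ⟨f, hf⟩ := hπsurj n (Ideal.Quotient.mk (I n) s)
      exact ⟨_, f, hf, rfl⟩)
    (fun n s r r' => by
      rintro ⟨f, hf, rfl⟩ ⟨f', hf', rfl⟩
      rw [← map_sub, hQ]
      change π n (f - f') = 0
      rw [map_sub, hf, hf', sub_self])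
    (fun n s r => by
      rintro ⟨f, hf, rfl⟩
      refine ⟨f, ?_, rfl⟩
      rw [hπcompat n, AlgHom.comp_apply, hf]
      rfl)
    (fun n s s' r r' => by
      rintro ⟨f, hf, rfl⟩ ⟨f', hf', rfl⟩
      exact ⟨f + f', by rw [map_add, map_add, hf, hf'], (map_add _ _ _).symm⟩)
    (fun n s s' r r' => by
      rintro ⟨f, hf, rfl⟩ ⟨f', hf', rfl⟩
      exact ⟨f * f', by rw [map_mul, map_mul, hf, hf'], (map_mul _ _ _).symm⟩)
    (fun n o => ⟨algebraMap 𝒪 _ o, by rw [AlgHom.commutes]; rfl, rfl⟩)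
  refine ⟨MvPowerSeries (Fin d) 𝒪 ⧸ J, inferInstance, hloc, inferInstance, hcomp, inferInstance,
    hlocO, hres, Ψ, ?_, ?_⟩
  · intro n
    ext s
    obtain ⟨f, hf⟩ := hπsurj n (Ideal.Quotient.mk (I n) s)
    have h1 := hΨ n s _ ⟨f, hf, rfl⟩
    rw [Ideal.mem_comap]
    have h2 : Ψ s ∈ maximalIdeal (MvPowerSeries (Fin d) 𝒪 ⧸ J) ^ (n + 1) ↔
        Ideal.Quotient.mk J f ∈ maximalIdeal (MvPowerSeries (Fin d) 𝒪 ⧸ J) ^ (n + 1) := by
      constructor
      · intro h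
        have : Ideal.Quotient.mk J f = Ψ s - (Ψ s - Ideal.Quotient.mk J f) := by ring
        rw [this]
        exact Ideal.sub_mem _ h h1
      · intro h
        have : Ψ s = (Ψ s - Ideal.Quotient.mk J f) + Ideal.Quotient.mk J f := by ring
        rw [this]
        exact Ideal.add_mem _ h1 h
    rw [h2, hQ]
    change π n f = 0 ↔ _
    rw [hf, Ideal.Quotient.eq_zero_iff_mem]
  · intro n r
    obtain ⟨f, rfl⟩ := Ideal.Quotient.mk_surjective r
    obtain ⟨s, hs⟩ := Ideal.Quotient.mk_surjective (π n f)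
    refine ⟨s, ?_⟩
    have h1 := hΨ n s _ ⟨f, hs.symm, rfl⟩
    rw [← Ideal.neg_mem_iff]
    simpa using h1

section lift
variable {S : Type} [CommRing S] [Algebra 𝒪 S] {I : ℕ → Ideal S}
  {R : Type} [CommRing R] [IsLocalRing R] [Algebra 𝒪 R]
  (Ψ : S →ₐ[𝒪] R) (h1 : ∀ n, (maximalIdeal R ^ (n + 1)).comap Ψ = I n)
  (h2 : ∀ (n : ℕ) (r : R), ∃ s : S, r - Ψ s ∈ maximalIdeal R ^ (n + 1))
  {A : Type} [CommRing A] [IsLocalRing A] [Algebra 𝒪 A]

include h1 h2 in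
/-- existence of lifts to complete targets -/
theorem exists_lift_of_le_comap [IsAdicComplete (maximalIdeal A) A]
    (g : S →ₐ[𝒪] A) (hg : ∀ n, I n ≤ (maximalIdeal A ^ (n + 1)).comap g) :
    ∃ φ : R →ₐ[𝒪] A, φ.comp Ψ = g := by
  obtain ⟨φ, hφ⟩ := exists_algHom_of_approx (𝒪 := 𝒪) (X := R) (A := A) (maximalIdeal A)
    (fun n r a => ∃ s : S, r - Ψ s ∈ maximalIdeal R ^ (n + 1) ∧ a = g s)
    (fun n r => by
      obtain ⟨s, hs⟩ := h2 n r
      exact ⟨g s, s, hs, rfl⟩)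
    (fun n r a a' => by
      rintro ⟨s, hs, rfl⟩ ⟨s', hs', rfl⟩
      have h3 : s - s' ∈ I n := by
        rw [← h1 n, Ideal.mem_comap, map_sub]
        have : Ψ s - Ψ s' = (r - Ψ s') - (r - Ψ s) := by ring
        rw [this]
        exact Ideal.sub_mem _ hs' hs
      have := hg n h3
      rwa [Ideal.mem_comap, map_sub] at this)
    (fun n r a => by
      rintro ⟨s, hs, rfl⟩
      exact ⟨s, Ideal.pow_le_pow_right (Nat.le_succ _) hs, rfl⟩)
    (fun n r r' a a' => by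
      rintro ⟨s, hs, rfl⟩ ⟨s', hs', rfl⟩
      refine ⟨s + s', ?_, (map_add g s s').symm⟩
      have : r + r' - Ψ (s + s') = (r - Ψ s) + (r' - Ψ s') := by rw [map_add]; ring
      rw [this]
      exact Ideal.add_mem _ hs hs')
    (fun n r r' a a' => by
      rintro ⟨s, hs, rfl⟩ ⟨s', hs', rfl⟩
      refine ⟨s * s', ?_, (map_mul g s s').symm⟩
      have : r * r' - Ψ (s * s') = (r - Ψ s) * r' + Ψ s * (r' - Ψ s') := by rw [map_mul]; ring
      rw [this]
      exact Ideal.add_mem _ (Ideal.mul_mem_right _ _ hs) (Ideal.mul_mem_left _ _ hs'))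
    (fun n o => ⟨algebraMap 𝒪 S o, by simp, by simp⟩)
  refine ⟨φ, ?_⟩
  ext s
  rw [AlgHom.comp_apply, ← sub_eq_zero]
  refine IsHausdorff.haus (I := maximalIdeal A) (M := A) inferInstance _ fun n => ?_
  rw [SModEq.zero, smul_eq_mul, Ideal.mul_top]
  exact Ideal.pow_le_pow_right (Nat.le_succ n) (hφ n (Ψ s) (g s) ⟨s, by simp, rfl⟩)

include h2 in
/-- uniqueness of lifts -/
theorem lift_unique [IsHausdorff (maximalIdeal A) A] (φ φ' : R →ₐ[𝒪] A)
    (hφ : IsLocalHom (φ : R →+* A)) (hφ' : IsLocalHom (φ' : R →+* A))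
    (h : φ.comp Ψ = φ'.comp Ψ) : φ = φ' := by
  have hmap : ∀ (ψ : R →ₐ[𝒪] A), IsLocalHom (ψ : R →+* A) →
      ∀ (m : ℕ) (r : R), r ∈ maximalIdeal R ^ m → ψ r ∈ maximalIdeal A ^ m := by
    intro ψ hψ m r hr
    have h3 : (maximalIdeal R).map (ψ : R →+* A) ≤ maximalIdeal A := by
      rw [Ideal.map_le_iff_le_comap]
      intro a ha
      exact map_nonunit (ψ : R →+* A) a ha
    have h4 : (ψ : R →+* A) r ∈ ((maximalIdeal R) ^ m).map (ψ : R →+* A) :=
      Ideal.mem_map_of_mem _ hr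
    rw [Ideal.map_pow] at h4
    exact Ideal.pow_right_mono h3 m h4
  ext r
  rw [← sub_eq_zero]
  refine IsHausdorff.haus (I := maximalIdeal A) (M := A) inferInstance _ fun n => ?_
  rw [SModEq.zero, smul_eq_mul, Ideal.mul_top]
  obtain ⟨s, hs⟩ := h2 n r
  have h5 : φ (Ψ s) = φ' (Ψ s) := congrArg (fun f => f s) h
  have : φ r - φ' r = φ (r - Ψ s) - φ' (r - Ψ s) := by
    rw [map_sub, map_sub, h5]; ring
  rw [this]
  exact Ideal.pow_le_pow_right (Nat.le_succ n)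
    (Ideal.sub_mem _ (hmap φ hφ _ _ hs) (hmap φ' hφ' _ _ hs))

end lift

end Fermat.Agent.S53
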