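import Fermat.Agent.S53.Tangent
import Fermat.Agent.S53.Levels
import Fermat.Agent.S53.Limit

set_option autoImplicit false

namespace Fermat.Agent.S53

open IsLocalRing GaloisRep

/-- Abstract pro-representability theorem. -/
theorem proRepresentable {𝒪 : Type} [CommRing 𝒪] [IsLocalRing 𝒪] [IsNoetherianRing 𝒪]
    [IsAdicComplete (maximalIdeal 𝒪) 𝒪] [Finite (ResidueField 𝒪)]
    {ι : Type} (F : TupleFunctor 𝒪 ι) (hF : IsProRepFunctor 𝒪 F)
    (hne : ∃ x, F (ResidueField 𝒪) x)
    (huniq : ∀ x y, F (ResidueField 𝒪) x → F (ResidueField 𝒪) y → x = y)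
    (hfin : Finite {x : ι → DualNumber (ResidueField 𝒪) // @F _ _ _ (dualAlg 𝒪) x}) :
    ProRepresentable 𝒪 F := by
  obtain ⟨x0, hx0⟩ := hne
  obtain ⟨d, t, ht, hgen⟩ := exists_generators hF hx0 huniq hfin
  choose I hI using exists_level hF hx0 huniq t ht hgen
  obtain ⟨R, i1, i2, i3, i4, i5, i6, hsurj, Ψ, h1, h2⟩ := exists_limit_ring (baseIdeal x0) I
     (exists_sub_algebraMap_mem_baseIdeal x0) (algebraMap_mem_baseIdeal_iff x0)
     (fun n => (hI n).2.1) (fun n => (hI n).1.le_baseIdeal hF hx0 huniq)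
     (level_eq_sup hF hx0 huniq I hI) t ht
     (fun n => surjective_of_generators hF hx0 huniq t ht hgen (hI n).1)
  refine ⟨R, i1, i2, i3, i4, i5, i6, hsurj, fun i => Ψ (MvPolynomial.X i), ?_, ?_⟩
  · intro B _ _ _ hB q
    obtain ⟨n, hn⟩ := exists_pow_maximalIdeal_eq_bot hB
    have := hB.isLocalHom
    have hq : IsLocalHom (q : R →+* B) := isLocalHom_of_algHom hsurj hB.residue_surjective q
    have hmap : ∀ (m : ℕ) (r : R), r ∈ maximalIdeal R ^ m → q r ∈ maximalIdeal B ^ m := by
      intro m r hr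
      have h3 : (maximalIdeal R).map (q : R →+* B) ≤ maximalIdeal B := by
        rw [Ideal.map_le_iff_le_comap]
        intro a ha
        exact map_nonunit (q : R →+* B) a ha
      have h4 : (q : R →+* B) r ∈ ((maximalIdeal R) ^ m).map (q : R →+* B) :=
        Ideal.mem_map_of_mem _ hr
      rw [Ideal.map_pow] at h4
      exact Ideal.pow_right_mono h3 m h4
    have hk : ∀ p ∈ I n, (q.comp Ψ) p = 0 := by
      intro p hp
      rw [← h1 n] at hp
      have h5 := hmap (n + 1) (Ψ p) hp
      have h6 : maximalIdeal B ^ (n + 1) = ⊥ := by rw [pow_succ, hn, Ideal.bot_mul]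
      rw [h6] at h5
      exact h5
    obtain ⟨_, hT, hFI⟩ := (hI n).1
    have h7 := hF.map hT hB (Ideal.Quotient.liftₐ (I n) (q.comp Ψ) hk) _ hFI
    have h8 : (⇑(Ideal.Quotient.liftₐ (I n) (q.comp Ψ) hk) ∘ fun i =>
        (Ideal.Quotient.mk (I n)) (MvPolynomial.X i)) = (⇑q ∘ fun i => Ψ (MvPolynomial.X i)) := by
      funext i
      simp
    rwa [h8] at h7
  · intro A _ _ _ _ _ _ hA y hy
    have hg : ∀ n, I n ≤ (maximalIdeal A ^ (n + 1)).comap
        (MvPolynomial.aeval y : MvPolynomial ι 𝒪 →ₐ[𝒪] A) := by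
      intro n
      obtain ⟨_, hBn⟩ := quotient_pow_isArtinianTestAlgebra (𝒪 := 𝒪) A hA n
      have hyn := hy (A ⧸ maximalIdeal A ^ (n + 1)) hBn (Ideal.Quotient.mkₐ 𝒪 _)
        (Ideal.Quotient.mkₐ_surjective 𝒪 _)
      have hgood := good_ker_aeval hF hBn _ hyn
      have hcomp : ∀ p : MvPolynomial ι 𝒪,
          MvPolynomial.aeval (⇑(Ideal.Quotient.mkₐ 𝒪 (maximalIdeal A ^ (n + 1))) ∘ y) p
            = Ideal.Quotient.mk (maximalIdeal A ^ (n + 1)) (MvPolynomial.aeval y p) := by
        intro p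
        have := MvPolynomial.comp_aeval_apply (R := 𝒪) y
          (Ideal.Quotient.mkₐ 𝒪 (maximalIdeal A ^ (n + 1))) p
        exact this.symm
      have hpow : baseIdeal x0 ^ (n + 1) ≤ RingHom.ker (MvPolynomial.aeval
          (⇑(Ideal.Quotient.mkₐ 𝒪 (maximalIdeal A ^ (n + 1))) ∘ y) :
            MvPolynomial ι 𝒪 →ₐ[𝒪] A ⧸ maximalIdeal A ^ (n + 1)) := by
        have h3 : baseIdeal x0 ≤ (maximalIdeal A).comap
            (MvPolynomial.aeval y : MvPolynomial ι 𝒪 →ₐ[𝒪] A) := by
          intro p hp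
          have h4 := aeval_mem_maximalIdeal hF hx0 huniq hBn _ hyn hp
          rw [hcomp] at h4
          by_contra h5
          have h6 : IsUnit (MvPolynomial.aeval y p) := by
            by_contra h7
            exact h5 ((mem_maximalIdeal _).mpr h7)
          exact ((mem_maximalIdeal _).mp h4) (h6.map _)
        intro p hp
        have h4 : p ∈ (maximalIdeal A ^ (n + 1)).comap
            (MvPolynomial.aeval y : MvPolynomial ι 𝒪 →ₐ[𝒪] A) :=
          (Ideal.pow_right_mono h3 (n + 1)).trans (Ideal.le_comap_pow _ _) hp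
        rw [RingHom.mem_ker]
        change MvPolynomial.aeval _ p = 0
        rw [hcomp, Ideal.Quotient.eq_zero_iff_mem]
        exact h4
      intro p hp
      have h3 := (hI n).2.2 _ hgood hpow hp
      rw [RingHom.mem_ker] at h3
      change MvPolynomial.aeval _ p = 0 at h3
      rw [hcomp, Ideal.Quotient.eq_zero_iff_mem] at h3
      exact h3
    obtain ⟨φ, hφ⟩ := exists_lift_of_le_comap Ψ h1 h2 _ hg
    refine ⟨φ, ?_, ?_⟩
    · funext i
      have := congrArg (fun f => f (MvPolynomial.X i)) hφ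
      simpa using this
    · intro φ' hφ'
      apply lift_unique Ψ h2 φ' φ (isLocalHom_of_algHom hsurj hA φ')
        (isLocalHom_of_algHom hsurj hA φ)
      rw [hφ]
      apply MvPolynomial.algHom_ext
      intro i
      have := congrFun hφ' i
      simpa using this

end Fermat.Agent.S53
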