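import Fermat.Agent.S53.MatDefs

set_option autoImplicit false

namespace Fermat.Agent.S53

open IsLocalRing GaloisRep Module

/-- `2 × 2` matrices. -/
abbrev M2 (A : Type) : Type := Matrix (Fin 2) (Fin 2) A

section General

variable {R : Type} [CommRing R] {G : Type} [Monoid G]
variable {V₁ V₂ : Type} [AddCommGroup V₁] [Module R V₁] [AddCommGroup V₂] [Module R V₂]

/-- Intertwiners between two actions on free modules with bases, in matrix terms. -/
theorem exists_intertwiner_iff (b₁ : Basis (Fin 2) R V₁) (b₂ : Basis (Fin 2) R V₂)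
    (ρ₁ : G →* Module.End R V₁) (ρ₂ : G →* Module.End R V₂) :
    (∃ e : V₁ ≃ₗ[R] V₂, ∀ (σ : G) (x : V₁), e (ρ₁ σ x) = ρ₂ σ (e x)) ↔
      ∃ P : (M2 R)ˣ, ∀ σ : G,
        (P : M2 R) * LinearMap.toMatrix b₁ b₁ (ρ₁ σ) =
          LinearMap.toMatrix b₂ b₂ (ρ₂ σ) * (P : M2 R) := by
  constructor
  · rintro ⟨e, he⟩
    refine ⟨⟨LinearMap.toMatrix b₁ b₂ (e : V₁ →ₗ[R] V₂),
      LinearMap.toMatrix b₂ b₁ (e.symm : V₂ →ₗ[R] V₁), ?_, ?_⟩, fun σ => ?_⟩
    · rw [← LinearMap.toMatrix_comp, LinearEquiv.comp_coe, LinearEquiv.symm_trans_self,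
        LinearEquiv.refl_toLinearMap, LinearMap.toMatrix_id]
    · rw [← LinearMap.toMatrix_comp, LinearEquiv.comp_coe, LinearEquiv.self_trans_symm,
        LinearEquiv.refl_toLinearMap, LinearMap.toMatrix_id]
    · show LinearMap.toMatrix b₁ b₂ (e : V₁ →ₗ[R] V₂) * _ =
        _ * LinearMap.toMatrix b₁ b₂ (e : V₁ →ₗ[R] V₂)
      rw [← LinearMap.toMatrix_comp, ← LinearMap.toMatrix_comp]
      congr 1
      ext x
      exact he σ x
  · rintro ⟨P, hP⟩
    have h1 : (Matrix.toLin b₂ b₁ ((P⁻¹ : (M2 R)ˣ) : M2 R)) ∘ₗ (Matrix.toLin b₁ b₂ (P : M2 R)) =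
        LinearMap.id := by
      rw [← Matrix.toLin_mul, Units.inv_mul, Matrix.toLin_one]
    have h2 : (Matrix.toLin b₁ b₂ (P : M2 R)) ∘ₗ (Matrix.toLin b₂ b₁ ((P⁻¹ : (M2 R)ˣ) : M2 R)) =
        LinearMap.id := by
      rw [← Matrix.toLin_mul, Units.mul_inv, Matrix.toLin_one]
    refine ⟨LinearEquiv.ofLinearMap _ _ h2 h1, fun σ x => ?_⟩
    show Matrix.toLin b₁ b₂ (P : M2 R) (ρ₁ σ x) = ρ₂ σ (Matrix.toLin b₁ b₂ (P : M2 R) x)
    have h3 : (Matrix.toLin b₁ b₂ (P : M2 R)) ∘ₗ (ρ₁ σ) =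
        (ρ₂ σ) ∘ₗ (Matrix.toLin b₁ b₂ (P : M2 R)) := by
      apply (LinearMap.toMatrix b₁ b₂).injective
      rw [LinearMap.toMatrix_comp b₁ b₁ b₂, LinearMap.toMatrix_comp b₁ b₂ b₂,
        LinearMap.toMatrix_toLin]
      exact hP σ
    exact LinearMap.congr_fun h3 x

theorem repr_mem_of_mem_smul_top (b : Basis (Fin 2) R V₁) (I : Ideal R) {x : V₁}
    (hx : x ∈ I • (⊤ : Submodule R V₁)) (i : Fin 2) : b.repr x i ∈ I := by
  refine Submodule.smul_induction_on (p := fun x => b.repr x i ∈ I) hx ?_ ?_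
  · intro a ha w _
    rw [map_smul, Finsupp.smul_apply, smul_eq_mul]
    exact I.mul_mem_right _ ha
  · intro x y hx hy
    rw [map_add, Finsupp.add_apply]
    exact I.add_mem hx hy

end General

section Adic

variable {A : Type} [CommRing A] [IsLocalRing A]

/-- The matrices of an adic representation in a basis. -/
noncomputable def matOf (ρ : GaloisRepAdic A) (b : Basis (Fin 2) A ρ.V) (σ : Gal) : M2 A :=
  LinearMap.toMatrix b b (ρ.ρ σ)

/-- The tuple of matrix entries of an adic representation in a basis. -/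
noncomputable def tupleOf (ρ : GaloisRepAdic A) (b : Basis (Fin 2) A ρ.V) : Idx → A :=
  fun p => matOf ρ b p.1 p.2.1 p.2.2

theorem mat_tupleOf (ρ : GaloisRepAdic A) (b : Basis (Fin 2) A ρ.V) (σ : Gal) :
    mat (tupleOf ρ b) σ = matOf ρ b σ := rfl

theorem isMatRep_tupleOf (ρ : GaloisRepAdic A) (b : Basis (Fin 2) A ρ.V) :
    IsMatRep (tupleOf ρ b) where
  map_one := by
    rw [mat_tupleOf, matOf, map_one]
    exact LinearMap.toMatrix_one b
  map_mul σ τ := by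
    rw [mat_tupleOf, mat_tupleOf, mat_tupleOf, matOf, map_mul]
    exact LinearMap.toMatrix_mul b _ _
  cont n := by
    obtain ⟨L, hL, h⟩ := ρ.isAdicContinuous n
    refine ⟨L, hL, fun σ hσ i j => ?_⟩
    have h1 := repr_mem_of_mem_smul_top b _ (h σ hσ (b j)) i
    rw [mat_tupleOf, matOf, Matrix.sub_apply, LinearMap.toMatrix_apply, Matrix.one_apply]
    rw [map_sub, Finsupp.sub_apply, Basis.repr_self, Finsupp.single_apply] at h1
    simpa [eq_comm] using h1

/-- A basis of the underlying module of an adic representation. -/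
noncomputable def stdBasis (ρ : GaloisRepAdic A) : Basis (Fin 2) A ρ.V :=
  Module.finBasisOfFinrankEq A ρ.V ρ.finrank_eq

/-- The standard basis of `ofMat`. -/
noncomputable def ofMatBasis (x : Idx → A) (h : IsMatRep x) : Basis (Fin 2) A (ofMat x h).V :=
  Pi.basisFun A (Fin 2)

theorem matOf_ofMat (x : Idx → A) (h : IsMatRep x) (σ : Gal) :
    matOf (ofMat x h) (ofMatBasis x h) σ = mat x σ := by
  have h1 : LinearMap.toMatrix (Pi.basisFun A (Fin 2)) (Pi.basisFun A (Fin 2))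
      (Matrix.toLin' (mat x σ)) = mat x σ := by
    rw [LinearMap.toMatrix_eq_toMatrix', LinearMap.toMatrix'_toLin']
  exact h1

theorem isEquiv_iff (ρ₁ ρ₂ : GaloisRepAdic A) (b₁ : Basis (Fin 2) A ρ₁.V)
    (b₂ : Basis (Fin 2) A ρ₂.V) :
    ρ₁.IsEquiv ρ₂ ↔
      ∃ P : (M2 A)ˣ, ∀ σ : Gal, (P : M2 A) * matOf ρ₁ b₁ σ = matOf ρ₂ b₂ σ * (P : M2 A) := by
  refine Iff.trans ?_ (exists_intertwiner_iff b₁ b₂ ρ₁.ρ ρ₂.ρ)
  constructor
  · rintro ⟨e⟩
    exact ⟨e.toLinearEquiv, e.map_apply⟩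
  · rintro ⟨e, he⟩
    exact ⟨⟨e, he⟩⟩

theorem isEquiv_of_matOf_eq (ρ₁ ρ₂ : GaloisRepAdic A) (b₁ : Basis (Fin 2) A ρ₁.V)
    (b₂ : Basis (Fin 2) A ρ₂.V) (h : ∀ σ, matOf ρ₁ b₁ σ = matOf ρ₂ b₂ σ) : ρ₁.IsEquiv ρ₂ :=
  (isEquiv_iff ρ₁ ρ₂ b₁ b₂).mpr ⟨1, fun σ => by rw [h]; simp⟩

/-- Every adic representation is equivalent to the matrix representation it defines in a basis. -/
theorem isEquiv_ofMat_tupleOf (ρ : GaloisRepAdic A) (b : Basis (Fin 2) A ρ.V) :
    ρ.IsEquiv (ofMat (tupleOf ρ b) (isMatRep_tupleOf ρ b)) :=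
  isEquiv_of_matOf_eq _ _ b (ofMatBasis _ _) fun σ => by
    rw [matOf_ofMat, mat_tupleOf]

/-- Equivalence of matrix representations is conjugacy. -/
theorem ofMat_isEquiv_iff (x y : Idx → A) (hx : IsMatRep x) (hy : IsMatRep y) :
    (ofMat x hx).IsEquiv (ofMat y hy) ↔
      ∃ P : (M2 A)ˣ, ∀ σ : Gal, (P : M2 A) * mat x σ = mat y σ * (P : M2 A) := by
  rw [isEquiv_iff _ _ (ofMatBasis x hx) (ofMatBasis y hy)]
  simp only [matOf_ofMat]

end Adic

section ringhom
variable {A B C : Type} [CommRing A] [IsLocalRing A] [CommRing B] [IsLocalRing B]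
  [CommRing C] [IsLocalRing C]

theorem map_mem_maximalIdeal_pow (φ : A →+* B) (hφ : IsLocalHom φ) (n : ℕ) {a : A}
    (ha : a ∈ maximalIdeal A ^ n) : φ a ∈ maximalIdeal B ^ n := by
  have hmap : (maximalIdeal A ^ n).map φ ≤ maximalIdeal B ^ n := by
    rw [Ideal.map_pow]
    exact Ideal.pow_right_mono (Ideal.map_le_iff_le_comap.mpr fun a ha =>
      Ideal.mem_comap.mpr (haveI := hφ; map_nonunit φ a ha)) n
  exact hmap (Ideal.mem_map_of_mem φ ha)

/-- (M2) -/
theorem IsMatRep.comp (φ : A →+* B) (hφ : IsLocalHom φ) {x : Idx → A} (h : IsMatRep x) :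
    IsMatRep (φ ∘ x) where
  map_one := by
    rw [mat_comp, h.map_one]
    exact Matrix.map_one φ (_root_.map_zero φ) (_root_.map_one φ)
  map_mul σ τ := by
    rw [mat_comp, mat_comp, mat_comp, h.map_mul]
    exact Matrix.map_mul
  cont n := by
    obtain ⟨L, hL, h1⟩ := h.cont n
    refine ⟨L, hL, fun σ hσ i j => ?_⟩
    have h2 := map_mem_maximalIdeal_pow φ hφ n (h1 σ hσ i j)
    rw [Matrix.sub_apply, map_sub, Matrix.one_apply] at h2
    rw [Matrix.sub_apply, mat_comp, Matrix.map_apply, Matrix.one_apply]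
    split_ifs at h2 ⊢ <;> simpa using h2

/-- The induced basis on a base change. -/
noncomputable def bcBasis (φ : A →+* B) (hφ : IsLocalHom φ) (ρ : GaloisRepAdic A)
    (b : Basis (Fin 2) A ρ.V) : Basis (Fin 2) B (ρ.baseChangeAlong φ hφ).V :=
  letI : Algebra A B := φ.toAlgebra
  Algebra.TensorProduct.basis B b

theorem matOf_baseChangeAlong (φ : A →+* B) (hφ : IsLocalHom φ) (ρ : GaloisRepAdic A)
    (b : Basis (Fin 2) A ρ.V) (σ : Gal) :
    matOf (ρ.baseChangeAlong φ hφ) (bcBasis φ hφ ρ b) σ = (matOf ρ b σ).map φ := by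
  let _ : Algebra A B := φ.toAlgebra
  exact LinearMap.toMatrix_baseChange B (ρ.ρ σ) b b

/-- (M1) -/
theorem ofMat_baseChangeAlong_isEquiv (φ : A →+* B) (hφ : IsLocalHom φ) (x : Idx → A)
    (h : IsMatRep x) (h' : IsMatRep (φ ∘ x)) :
    ((ofMat x h).baseChangeAlong φ hφ).IsEquiv (ofMat (φ ∘ x) h') :=
  isEquiv_of_matOf_eq _ _ (bcBasis φ hφ _ (ofMatBasis x h)) (ofMatBasis _ _) fun σ => by
    rw [matOf_baseChangeAlong, matOf_ofMat, matOf_ofMat, mat_comp]

/-- (M3) -/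
theorem IsMatRep.of_pair (hA : ∃ n, maximalIdeal A ^ n = ⊥) (hB : ∃ n, maximalIdeal B ^ n = ⊥)
    (pA : C →+* A) (pB : C →+* B) (hinj : Function.Injective fun c => (pA c, pB c))
    {z : Idx → C} (h1 : IsMatRep (pA ∘ z)) (h2 : IsMatRep (pB ∘ z)) : IsMatRep z := by
  have key : ∀ M N : M2 C, M.map pA = N.map pA → M.map pB = N.map pB → M = N := by
    intro M N hA' hB'
    ext i j
    apply hinj
    exact Prod.ext (congrFun (congrFun hA' i) j) (congrFun (congrFun hB' i) j)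
  refine ⟨?_, fun σ τ => ?_, fun n => ?_⟩
  · apply key
    · rw [← mat_comp, h1.map_one]
      exact (Matrix.map_one pA (_root_.map_zero pA) (_root_.map_one pA)).symm
    · rw [← mat_comp, h2.map_one]
      exact (Matrix.map_one pB (_root_.map_zero pB) (_root_.map_one pB)).symm
  · apply key
    · rw [← mat_comp, h1.map_mul, mat_comp, mat_comp]
      exact Matrix.map_mul.symm
    · rw [← mat_comp, h2.map_mul, mat_comp, mat_comp]
      exact Matrix.map_mul.symm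
  · obtain ⟨nA, hnA⟩ := hA
    obtain ⟨nB, hnB⟩ := hB
    obtain ⟨L₁, hL₁, hc₁⟩ := h1.cont nA
    obtain ⟨L₂, hL₂, hc₂⟩ := h2.cont nB
    refine ⟨L₁ ⊔ L₂, IntermediateField.finiteDimensional_sup L₁ L₂, fun σ hσ i j => ?_⟩
    have e1 : mat (pA ∘ z) σ = 1 := by
      ext i j
      have := hc₁ σ (fun a ha => hσ a ((le_sup_left : L₁ ≤ L₁ ⊔ L₂) ha)) i j
      rw [hnA, Ideal.mem_bot, Matrix.sub_apply, sub_eq_zero] at this
      exact this
    have e2 : mat (pB ∘ z) σ = 1 := by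
      ext i j
      have := hc₂ σ (fun a ha => hσ a ((le_sup_right : L₂ ≤ L₁ ⊔ L₂) ha)) i j
      rw [hnB, Ideal.mem_bot, Matrix.sub_apply, sub_eq_zero] at this
      exact this
    have e : mat z σ = 1 := by
      apply key
      · rw [← mat_comp, e1]
        exact (Matrix.map_one pA (_root_.map_zero pA) (_root_.map_one pA)).symm
      · rw [← mat_comp, e2]
        exact (Matrix.map_one pB (_root_.map_zero pB) (_root_.map_one pB)).symm
    rw [e, sub_self]
    exact Ideal.zero_mem _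

/-- composition of base changes -/
theorem baseChangeAlong_comp_isEquiv (φ : A →+* B) (hφ : IsLocalHom φ) (ψ : B →+* C)
    (hψ : IsLocalHom ψ) (hψφ : IsLocalHom (ψ.comp φ)) (ρ : GaloisRepAdic A) :
    ((ρ.baseChangeAlong φ hφ).baseChangeAlong ψ hψ).IsEquiv
      (ρ.baseChangeAlong (ψ.comp φ) hψφ) :=
  isEquiv_of_matOf_eq _ _ (bcBasis ψ hψ _ (bcBasis φ hφ ρ (stdBasis ρ)))
    (bcBasis (ψ.comp φ) hψφ ρ (stdBasis ρ)) fun σ => by
      rw [matOf_baseChangeAlong, matOf_baseChangeAlong, matOf_baseChangeAlong, Matrix.map_map]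
      rfl

/-- base change along the identity -/
theorem baseChangeAlong_id_isEquiv (hid : IsLocalHom (RingHom.id A)) (ρ : GaloisRepAdic A) :
    (ρ.baseChangeAlong (RingHom.id A) hid).IsEquiv ρ :=
  isEquiv_of_matOf_eq _ _ (bcBasis _ hid ρ (stdBasis ρ)) (stdBasis ρ) fun σ => by
    rw [matOf_baseChangeAlong]
    ext i j
    rfl

end ringhom

end Fermat.Agent.S53
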