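import Fermat.Agent.S53.TestAlg
import Fermat.Agent.S53.MatRep

set_option autoImplicit false
set_option linter.style.haveILetI false
set_option linter.unusedSectionVars false
set_option linter.unusedVariables false

namespace Fermat.Agent.S53

open IsLocalRing GaloisRep

/-- Two `𝒪`-algebra maps from an Artinian test algebra to the residue field of `𝒪` agree. -/
theorem algHom_residueField_ext {𝒪 : Type} [CommRing 𝒪] [IsLocalRing 𝒪]
    {C : Type} [CommRing C] [IsLocalRing C] [Algebra 𝒪 C] (hC : IsArtinianTestAlgebra 𝒪 C)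
    (f g : C →ₐ[𝒪] ResidueField 𝒪) : f = g := by
  obtain ⟨n, hn⟩ := exists_pow_maximalIdeal_eq_bot hC
  have key : ∀ (h : C →ₐ[𝒪] ResidueField 𝒪) (m : C), m ∈ maximalIdeal C → h m = 0 := by
    intro h m hm
    have h1 : m ^ n = 0 := by
      have := Ideal.pow_mem_pow hm n
      rwa [hn] at this
    have h2 : h m ^ n = 0 := by rw [← map_pow, h1, map_zero]
    exact eq_zero_of_pow_eq_zero h2
  ext c
  obtain ⟨o, ho⟩ := exists_algebraMap_sub_mem hC.residue_surjective c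
  have h1 := key f _ ho
  have h2 := key g _ ho
  rw [map_sub, AlgHom.commutes, sub_eq_zero] at h1 h2
  rw [h1, h2]

theorem condition_congr_ringHom {𝒪 : Type} [CommRing 𝒪] [IsLocalRing 𝒪]
    {𝒟 : ∀ ⦃A : Type⦄ [CommRing A] [IsLocalRing A] [Algebra 𝒪 A], GaloisRepAdic A → Prop}
    {A C : Type} [CommRing A] [IsLocalRing A] [Algebra 𝒪 A] [CommRing C] [IsLocalRing C]
    (ρ : GaloisRepAdic C) (φ φ' : C →+* A) (h : φ = φ') (hφ : IsLocalHom φ) (hφ' : IsLocalHom φ')
    (h1 : 𝒟 (ρ.baseChangeAlong φ hφ)) : 𝒟 (ρ.baseChangeAlong φ' hφ') := by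
  subst h
  exact h1

/-- (M8) -/
theorem condition_pair {𝒪 : Type} [CommRing 𝒪] [IsLocalRing 𝒪] [Finite (ResidueField 𝒪)]
    {𝒟 : ∀ ⦃A : Type⦄ [CommRing A] [IsLocalRing A] [Algebra 𝒪 A], GaloisRepAdic A → Prop}
    (h𝒟 : IsDeformationCondition 𝒪 𝒟)
    {A B C : Type} [CommRing A] [IsLocalRing A] [Algebra 𝒪 A]
    [CommRing B] [IsLocalRing B] [Algebra 𝒪 B] [CommRing C] [IsLocalRing C] [Algebra 𝒪 C]
    (hA : IsArtinianTestAlgebra 𝒪 A) (hB : IsArtinianTestAlgebra 𝒪 B)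
    (hC : IsArtinianTestAlgebra 𝒪 C)
    (pA : C →ₐ[𝒪] A) (pB : C →ₐ[𝒪] B) (hpA : IsLocalHom (pA : C →+* A))
    (hpB : IsLocalHom (pB : C →+* B)) (hinj : Function.Injective fun c => (pA c, pB c))
    (ρ : GaloisRepAdic C) (h1 : 𝒟 (ρ.baseChangeAlong (pA : C →+* A) hpA))
    (h2 : 𝒟 (ρ.baseChangeAlong (pB : C →+* B) hpB)) : 𝒟 ρ := by
  haveI := hA.isLocalHom
  haveI := hB.isLocalHom
  haveI : Finite A := finite_of_isArtinianTestAlgebra hA
  haveI : Finite B := finite_of_isArtinianTestAlgebra hB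
  obtain ⟨fA, hfA⟩ := exists_resHom (𝒪 := 𝒪) (A := A) hA.residue_surjective
  obtain ⟨fB, hfB⟩ := exists_resHom (𝒪 := 𝒪) (A := B) hB.residue_surjective
  obtain ⟨nA, hnA⟩ := exists_pow_maximalIdeal_eq_bot hA
  obtain ⟨nB, hnB⟩ := exists_pow_maximalIdeal_eq_bot hB
  -- the fibre product
  let P : Subalgebra 𝒪 (A × B) :=
    AlgHom.equalizer (fA.comp (AlgHom.fst 𝒪 A B)) (fB.comp (AlgHom.snd 𝒪 A B))
  have hPmem : ∀ x : A × B, x ∈ P ↔ fA x.1 = fB x.2 := fun x => Iff.rfl
  let qA : P →ₐ[𝒪] A := (AlgHom.fst 𝒪 A B).comp P.val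
  let qB : P →ₐ[𝒪] B := (AlgHom.snd 𝒪 A B).comp P.val
  let f : P →ₐ[𝒪] ResidueField 𝒪 := fA.comp qA
  have hnil : ∀ c : P, f c = 0 → IsNilpotent c := by
    intro c hc
    have hc1 : fA c.1.1 = 0 := hc
    have hc2 : fB c.1.2 = 0 := by rw [← (hPmem c.1).mp c.2]; exact hc1
    have m1 : c.1.1 ∈ maximalIdeal A := by rw [← hfA]; exact hc1
    have m2 : c.1.2 ∈ maximalIdeal B := by rw [← hfB]; exact hc2
    have e1 : c.1.1 ^ nA = 0 := by
      have := Ideal.pow_mem_pow m1 nA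
      rwa [hnA] at this
    have e2 : c.1.2 ^ nB = 0 := by
      have := Ideal.pow_mem_pow m2 nB
      rwa [hnB] at this
    refine ⟨nA + nB, ?_⟩
    apply Subtype.ext
    apply Prod.ext
    · change c.1.1 ^ (nA + nB) = 0
      rw [pow_add, e1, zero_mul]
    · change c.1.2 ^ (nA + nB) = 0
      rw [pow_add, e2, mul_zero]
  obtain ⟨hloc, hP⟩ := isArtinianTestAlgebra_of_nilpotent_ker f hnil
  haveI := hP.isLocalHom
  have hqA : IsLocalHom (qA : P →+* A) :=
    isLocalHom_of_algHom hP.residue_surjective hA.residue_surjective qA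
  have hqB : IsLocalHom (qB : P →+* B) :=
    isLocalHom_of_algHom hP.residue_surjective hB.residue_surjective qB
  -- the map `C → P`
  have hcomp : fA.comp pA = fB.comp pB := algHom_residueField_ext hC _ _
  let ι : C →ₐ[𝒪] P :=
    (AlgHom.prod pA pB).codRestrict P (fun c => (hPmem _).mpr (DFunLike.congr_fun hcomp c))
  have hι : IsLocalHom (ι : C →+* P) :=
    isLocalHom_of_algHom hC.residue_surjective hP.residue_surjective ι
  have hιinj : Function.Injective ι := by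
    intro c c' h
    apply hinj
    exact congrArg Subtype.val h
  refine h𝒟.of_baseChangeAlong_injective hC hP ι hι hιinj ?_
  refine h𝒟.of_fibreProduct hA hB isArtinianTestAlgebra_residueField hP fA fB qA qB hqA hqB
    ?_ ?_ ?_ ?_ ?_
  · ext x
    exact (hPmem x.1).mp x.2
  · intro x y h
    apply Subtype.ext
    exact h
  · intro a b h
    exact ⟨⟨(a, b), (hPmem _).mpr h⟩, rfl, rfl⟩
  · have hc : IsLocalHom ((qA : P →+* A).comp (ι : C →+* P)) := by
      have : ((qA : P →+* A).comp (ι : C →+* P)) = (pA : C →+* A) := rfl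
      rw [this]; exact hpA
    refine h𝒟.of_isEquiv hA
      (isEquiv_symm (baseChangeAlong_comp_isEquiv (ι : C →+* P) hι (qA : P →+* A) hqA hc ρ)) ?_
    exact condition_congr_ringHom ρ _ _ rfl hpA hc h1
  · have hc : IsLocalHom ((qB : P →+* B).comp (ι : C →+* P)) := by
      have : ((qB : P →+* B).comp (ι : C →+* P)) = (pB : C →+* B) := rfl
      rw [this]; exact hpB
    refine h𝒟.of_isEquiv hB
      (isEquiv_symm (baseChangeAlong_comp_isEquiv (ι : C →+* P) hι (qB : P →+* B) hqB hc ρ)) ?_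
    exact condition_congr_ringHom ρ _ _ rfl hpB hc h2

end Fermat.Agent.S53
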