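import Fermat.Agent.S53.MatDefs

set_option autoImplicit false

open scoped TensorProduct

namespace Fermat.Agent.S53

open IsLocalRing GaloisRep

section aux

variable {A : Type} [CommRing A]

lemma piScalarRight_baseChange_mulVecLin {B : Type} [CommRing B] [Algebra A B]
    (M : Matrix (Fin 2) (Fin 2) A) (x : B ⊗[A] (Fin 2 → A)) :
    TensorProduct.piScalarRight A B B (Fin 2) ((Matrix.mulVecLin M).baseChange B x) =
      ((algebraMap A B).mapMatrix M).mulVec (TensorProduct.piScalarRight A B B (Fin 2) x) := by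
  induction x using TensorProduct.induction_on with
  | zero => simp only [map_zero, Matrix.mulVec_zero]
  | tmul b v =>
    rw [LinearMap.baseChange_tmul, TensorProduct.piScalarRight_apply,
      TensorProduct.piScalarRight_apply]
    ext i
    simp only [TensorProduct.piScalarRightHom_tmul, Matrix.mulVecLin_apply, Matrix.mulVec,
      dotProduct, RingHom.mapMatrix_apply, Matrix.map_apply, Algebra.smul_def, Finset.sum_mul,
      map_sum, map_mul]
    refine Finset.sum_congr rfl fun j _ => ?_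
    ring
  | add x y hx hy => simp only [map_add, hx, hy, Matrix.mulVec_add]

lemma repr_mem_of_mem_smul_top_res {V : Type} [AddCommGroup V] [Module A V]
    (b : Module.Basis (Fin 2) A V) {I : Ideal A} {x : V} (hx : x ∈ I • (⊤ : Submodule A V))
    (i : Fin 2) : b.repr x i ∈ I := by
  refine Submodule.smul_induction_on hx ?_ ?_
  · intro a ha w _
    simpa using I.mul_mem_right _ ha
  · intro x y hx hy
    simpa using I.add_mem hx hy

variable [IsLocalRing A]

/-- The tuple of matrix entries of a `GaloisRepAdic` in a basis. -/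
noncomputable def tupleOfBasis (ρ : GaloisRepAdic A) (b : Module.Basis (Fin 2) A ρ.V) : Idx → A :=
  fun p => LinearMap.toMatrix b b (ρ.ρ p.1) p.2.1 p.2.2

lemma mat_tupleOfBasis (ρ : GaloisRepAdic A) (b : Module.Basis (Fin 2) A ρ.V) (σ : Gal) :
    mat (tupleOfBasis ρ b) σ = LinearMap.toMatrix b b (ρ.ρ σ) := rfl

theorem isMatRep_tupleOfBasis (ρ : GaloisRepAdic A) (b : Module.Basis (Fin 2) A ρ.V) :
    IsMatRep (tupleOfBasis ρ b) where
  map_one := by
    rw [mat_tupleOfBasis, map_one]
    exact LinearMap.toMatrix_one b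
  map_mul σ τ := by
    rw [mat_tupleOfBasis, mat_tupleOfBasis, mat_tupleOfBasis, map_mul]
    exact LinearMap.toMatrix_mul b _ _
  cont n := by
    obtain ⟨L, hL, h⟩ := ρ.isAdicContinuous n
    refine ⟨L, hL, fun σ hσ i j => ?_⟩
    have h1 : (mat (tupleOfBasis ρ b) σ - 1) i j = b.repr (ρ.ρ σ (b j) - b j) i := by
      rw [Matrix.sub_apply, mat_tupleOfBasis, LinearMap.toMatrix_apply, map_sub,
        Finsupp.sub_apply, Module.Basis.repr_self, Matrix.one_apply, Finsupp.single_apply]
      simp only [eq_comm]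
    rw [h1]
    exact repr_mem_of_mem_smul_top_res b (h σ hσ (b j)) i

theorem isEquiv_ofMat_tupleOfBasis (ρ : GaloisRepAdic A) (b : Module.Basis (Fin 2) A ρ.V) :
    ρ.IsEquiv (ofMat (tupleOfBasis ρ b) (isMatRep_tupleOfBasis ρ b)) := by
  refine ⟨{ toLinearEquiv := b.equivFun, map_apply := fun σ x => ?_ }⟩
  show b.equivFun (ρ.ρ σ x) = (mat (tupleOfBasis ρ b) σ).mulVec (b.equivFun x)
  rw [mat_tupleOfBasis]
  exact (LinearMap.toMatrix_mulVec_repr b b (ρ.ρ σ) x).symm

theorem exists_basis_lift {k : Type} [Field k] (ψ : k →+* ResidueField A)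
    (ρbar : ResidualGaloisRep k) (bbar : Module.Basis (Fin 2) k ρbar.V) (ρA : GaloisRepAdic A)
    (h : ρA.residual.IsEquiv (ρbar.baseChangeAlong ψ)) :
    ∃ b : Module.Basis (Fin 2) A ρA.V, ∀ σ i j,
      residue A (LinearMap.toMatrix b b (ρA.ρ σ) i j) =
        ψ (LinearMap.toMatrix bbar bbar (ρbar.ρ σ) i j) := by
  obtain ⟨e⟩ := h
  let algk : Algebra k (ResidueField A) := ψ.toAlgebra
  let f : (ResidueField A ⊗[A] ρA.V) ≃ₗ[ResidueField A]
      (ResidueField A ⊗[k] ρbar.V) := e.toLinearEquiv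
  have hf : ∀ (σ : Gal) (x : ResidueField A ⊗[A] ρA.V),
      f ((ρA.ρ σ).baseChange (ResidueField A) x) =
        (ρbar.ρ σ).baseChange (ResidueField A) (f x) := fun σ x => e.map_apply σ x
  let B := bbar.baseChange (ResidueField A)
  let c : Module.Basis (Fin 2) (ResidueField A) (ResidueField A ⊗[A] ρA.V) := B.map f.symm
  have hsurj := TensorProduct.mk_surjective A ρA.V (ResidueField A) residue_surjective
  choose v hv using fun i => hsurj (c i)
  have hv' : ∀ i, (1 : ResidueField A) ⊗ₜ[A] v i = c i := hv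
  have hspan := span_eq_top_of_tmul_eq_basis v c hv'
  let b := basisOfTopLeSpanOfCardEqFinrank v hspan.ge (by simp [ρA.finrank_eq])
  have hb : ∀ i, b i = v i := fun i => by simp [b]
  refine ⟨b, fun σ i j => ?_⟩
  rw [LinearMap.toMatrix_apply, LinearMap.toMatrix_apply]
  have h1 : (b.baseChange (ResidueField A)) = c := by
    apply Module.Basis.eq_of_apply_eq
    intro i
    rw [Module.Basis.baseChange_apply, hb, hv']
  have h2 : (b.baseChange (ResidueField A)).repr
      ((1 : ResidueField A) ⊗ₜ[A] (ρA.ρ σ (b j))) i =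
      residue A (b.repr (ρA.ρ σ (b j)) i) := by
    rw [Module.Basis.baseChange_repr_tmul, Algebra.smul_def, mul_one]
    rfl
  rw [← h2, h1]
  have h3 : (1 : ResidueField A) ⊗ₜ[A] (ρA.ρ σ (b j)) =
      (ρA.ρ σ).baseChange (ResidueField A) (c j) := by
    rw [← hv', LinearMap.baseChange_tmul, hb]
  rw [h3]
  show B.repr (f _) i = _
  rw [hf]
  have h4 : f (c j) = 1 ⊗ₜ bbar j := by
    simp [c, B]
  rw [h4, LinearMap.baseChange_tmul, Module.Basis.baseChange_repr_tmul, Algebra.smul_def, mul_one]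
  rfl

theorem residual_isEquiv_of_lift {k : Type} [Field k] (ψ : k →+* ResidueField A)
    (ρbar : ResidualGaloisRep k) (bbar : Module.Basis (Fin 2) k ρbar.V)
    (x : Idx → A) (hx : IsMatRep x)
    (h : ∀ σ i j, residue A (x (σ, i, j)) = ψ (LinearMap.toMatrix bbar bbar (ρbar.ρ σ) i j)) :
    (ofMat x hx).residual.IsEquiv (ρbar.baseChangeAlong ψ) := by
  let algk : Algebra k (ResidueField A) := ψ.toAlgebra
  let B := Algebra.TensorProduct.basis (ResidueField A) bbar
  let f1 : (ResidueField A ⊗[A] (Fin 2 → A)) ≃ₗ[ResidueField A] (Fin 2 → ResidueField A) :=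
    TensorProduct.piScalarRight A (ResidueField A) (ResidueField A) (Fin 2)
  let f2 : (ResidueField A ⊗[k] ρbar.V) ≃ₗ[ResidueField A] (Fin 2 → ResidueField A) :=
    B.equivFun
  have key : ∀ (σ : Gal) (y : ResidueField A ⊗[A] (Fin 2 → A)),
      (f1.trans f2.symm) ((Matrix.mulVecLin (mat x σ)).baseChange (ResidueField A) y) =
        (ρbar.ρ σ).baseChange (ResidueField A) ((f1.trans f2.symm) y) := by
    intro σ y
    apply f2.injective
    rw [LinearEquiv.trans_apply, LinearEquiv.apply_symm_apply, LinearEquiv.trans_apply]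
    rw [show f1 ((Matrix.mulVecLin (mat x σ)).baseChange (ResidueField A) y) = _ from
      piScalarRight_baseChange_mulVecLin (mat x σ) y]
    have h1 := LinearMap.toMatrix_mulVec_repr B B
      ((ρbar.ρ σ).baseChange (ResidueField A)) (f2.symm (f1 y))
    rw [LinearMap.toMatrix_baseChange] at h1
    have h2 : (⇑(B.repr (f2.symm (f1 y))) : Fin 2 → ResidueField A) = f1 y := by
      have : f2 (f2.symm (f1 y)) = f1 y := LinearEquiv.apply_symm_apply _ _
      exact this
    rw [h2] at h1
    have h3 : ((algebraMap A (ResidueField A)).mapMatrix (mat x σ)) =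
        ((LinearMap.toMatrix bbar bbar) (ρbar.ρ σ)).map (algebraMap k (ResidueField A)) := by
      ext i j
      exact h σ i j
    rw [h3]
    exact h1
  exact ⟨{ toLinearEquiv := f1.trans f2.symm, map_apply := key }⟩

end aux

section residual
variable {𝒪 : Type} [CommRing 𝒪] [IsLocalRing 𝒪] (D : RigidDatum 𝒪)
  (ρbar : ResidualGaloisRep (ResidueField 𝒪)) (hD : D.IsDatumFor ρbar)
  {A : Type} [CommRing A] [IsLocalRing A] [Algebra 𝒪 A]
  (ψ : ResidueField 𝒪 →+* ResidueField A)
  (hψ : ∀ o, ψ (residue 𝒪 o) = residue A (algebraMap 𝒪 A o))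

include hD hψ

/-- (M5a) -/
theorem exists_matLift (ρA : GaloisRepAdic A) (e : ρA.residual.IsEquiv (ρbar.baseChangeAlong ψ)) :
    ∃ (x : Idx → A) (hx : IsMatRep x), IsLiftOf D x ∧ (ofMat x hx).IsEquiv ρA := by
  obtain ⟨bbar, hb⟩ := hD
  obtain ⟨b, h⟩ := exists_basis_lift ψ ρbar bbar ρA e
  refine ⟨tupleOfBasis ρA b, isMatRep_tupleOfBasis ρA b, fun σ i j => ?_,
    isEquiv_symm (isEquiv_ofMat_tupleOfBasis ρA b)⟩
  rw [← residue_eq_zero_iff, map_sub, sub_eq_zero, ← hψ, hb]
  exact h σ i j

/-- (M6) -/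
theorem residual_ofMat_isEquiv {x : Idx → A} (hx : IsMatRep x) (lx : IsLiftOf D x) :
    (ofMat x hx).residual.IsEquiv (ρbar.baseChangeAlong ψ) := by
  obtain ⟨bbar, hb⟩ := hD
  refine residual_isEquiv_of_lift ψ ρbar bbar x hx fun σ i j => ?_
  have := lx σ i j
  rw [← residue_eq_zero_iff, map_sub, sub_eq_zero] at this
  rw [this, ← hb, hψ]

end residual

end Fermat.Agent.S53
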