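import Mathlib.RingTheory.Henselian
import Mathlib.LinearAlgebra.Matrix.NonsingularInverse
import Mathlib.LinearAlgebra.Matrix.Notation
import Mathlib.Tactic.LinearCombination
import Mathlib.Tactic.FinCases
import Mathlib.Tactic.Module

set_option autoImplicit false

/-!
# Normal forms of pairs of `2 × 2` matrices over a local ring (pure matrix lemmas for S53)
-/

namespace Fermat.Agent.S53

open Matrix IsLocalRing Polynomial

variable {A : Type*} [CommRing A]

section Unique

variable [IsLocalRing A] {G : Type*}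

/-- Rigidity of normalised families of matrices: an invertible intertwiner between two
families which are both normalised (first column of `r g0` is `e₂`, prescribed `(i,j)` entry of
`r g1`), congruent at `g1`, and such that the `(i,j)` entry of the commutator is a unit,
is a scalar, and the two families coincide. -/
theorem matNormalized_unique {g0 g1 : G} {i j : Fin 2} {c : A}
    {r r' : G → Matrix (Fin 2) (Fin 2) A}
    (h00 : r g0 0 0 = 0) (h10' : r g0 1 0 = 1) (hc : r g1 i j = c)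
    (h00' : r' g0 0 0 = 0) (h10'' : r' g0 1 0 = 1) (hc' : r' g1 i j = c)
    (hu : IsUnit ((r g0 * r g1 - r g1 * r g0) i j))
    (hdiff : ∀ x y, (r' g1 - r g1) x y ∈ maximalIdeal A)
    (U : Matrix (Fin 2) (Fin 2) A) (hU : IsUnit U)
    (hint : ∀ g, U * r g = r' g * U) :
    r = r' := by
  set C := r g0 with hC
  set C' := r' g0 with hC'
  set M := r g1 with hM
  set M' := r' g1 with hM'
  -- step 1 : shape of U
  have e0 := congrFun (congrFun (hint g0) 0) 0
  have e1 := congrFun (congrFun (hint g0) 1) 0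
  simp only [Matrix.mul_apply, Fin.sum_univ_two, ← hC, ← hC', h00, h10', h00', h10''] at e0 e1
  have hUshape : U = U 0 0 • (1 : Matrix (Fin 2) (Fin 2) A) + U 1 0 • C' := by
    ext x y
    fin_cases x <;> fin_cases y
    · simp [h00']
    · simp; linear_combination e0
    · simp [h10'']
    · simp; linear_combination e1
  -- step 2 : `C = C'`
  have hcomm : U * C' = C' * U := by
    rw [hUshape]
    simp [mul_add, add_mul]
  have hCC : C = C' := by
    have h1 : U * C = U * C' := by rw [hcomm]; exact hint g0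
    exact hU.mul_left_cancel h1
  -- step 3 : `U 1 0 = 0`
  have hMM : U 0 0 • (M - M') = U 1 0 • (M' * C - C * M) := by
    have h1 := hint g1
    rw [← hM, ← hM', hUshape, ← hCC] at h1
    simp only [add_mul, mul_add, Matrix.smul_mul, Matrix.mul_smul, one_mul, mul_one] at h1
    rw [smul_sub, smul_sub, sub_eq_sub_iff_add_eq_add]
    rw [h1]; abel
  have hunit2 : IsUnit ((M' * C - C * M) i j) := by
    have h5 : (M' * C - C * M) i j = - ((C * M - M * C) i j) + ((M' - M) * C) i j := by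
      simp only [Matrix.sub_apply, Matrix.sub_mul]
      ring
    rw [h5]
    have h6 : ((M' - M) * C) i j ∈ maximalIdeal A := by
      rw [Matrix.mul_apply]
      exact Submodule.sum_mem _ fun k _ => Ideal.mul_mem_right _ _ (hdiff i k)
    by_contra hn
    have h7 : - ((C * M - M * C) i j) + ((M' - M) * C) i j ∈ maximalIdeal A :=
      (mem_maximalIdeal _).mpr hn
    have h8 : (C * M - M * C) i j ∈ maximalIdeal A := by
      have := Ideal.sub_mem _ h6 h7
      simpa using this
    exact (mem_maximalIdeal _).mp h8 hu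
  have hb : U 1 0 = 0 := by
    have h2 := congrFun (congrFun hMM i) j
    simp only [Matrix.smul_apply, smul_eq_mul, Matrix.sub_apply (A := M) (B := M'), hc, hc', sub_self,
      mul_zero] at h2
    exact (hunit2.mul_left_eq_zero).mp h2.symm
  have hscal : U = Matrix.scalar (Fin 2) (U 0 0) := by
    conv_lhs => rw [hUshape, hb, zero_smul, add_zero]
    ext x y
    simp [Matrix.scalar_apply, Matrix.diagonal_apply, Matrix.one_apply]
  -- step 4 : `U 0 0` is a unit
  have hdet : IsUnit U.det := (Matrix.isUnit_iff_isUnit_det U).mp hU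
  have ha : IsUnit (U 0 0) := by
    rw [Matrix.det_fin_two, hb, mul_zero, sub_zero] at hdet
    exact isUnit_of_mul_isUnit_left hdet
  obtain ⟨a, haa⟩ := ha
  ext g x y
  have h2 := congrFun (congrFun (hint g) x) y
  rw [hscal] at h2
  simp only [Matrix.scalar_apply, Matrix.diagonal_mul, Matrix.mul_diagonal] at h2
  have h4 : (↑a⁻¹ : A) * U 0 0 = 1 := by rw [← haa]; exact Units.inv_mul a
  linear_combination (↑a⁻¹ : A) * h2 + (r' g x y - r g x y) * h4

end Unique

section Exists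

variable [IsLocalRing A]

/-- Entrywise congruence to `1` modulo the maximal ideal. -/
def IsOneMod (U : Matrix (Fin 2) (Fin 2) A) : Prop :=
  ∀ a b, (U - 1) a b ∈ maximalIdeal A

theorem isOneMod_iff (U : Matrix (Fin 2) (Fin 2) A) :
    IsOneMod U ↔ (Ideal.Quotient.mk (maximalIdeal A)).mapMatrix U = 1 := by
  constructor
  · intro h
    ext a b
    have := h a b
    rw [Matrix.sub_apply, ← Ideal.Quotient.eq] at this
    rw [RingHom.mapMatrix_apply, Matrix.map_apply, this]
    by_cases hab : a = b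
    · subst hab; simp
    · simp [hab]
  · intro h a b
    have := congrFun (congrFun h a) b
    rw [RingHom.mapMatrix_apply, Matrix.map_apply] at this
    rw [Matrix.sub_apply, ← Ideal.Quotient.eq, this]
    by_cases hab : a = b
    · subst hab; simp
    · simp [hab]

theorem entry_sub_mem_iff (X Y : Matrix (Fin 2) (Fin 2) A) :
    (∀ a b, X a b - Y a b ∈ maximalIdeal A) ↔
      (Ideal.Quotient.mk (maximalIdeal A)).mapMatrix X =
        (Ideal.Quotient.mk (maximalIdeal A)).mapMatrix Y := by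
  constructor
  · intro h
    ext a b
    rw [RingHom.mapMatrix_apply, RingHom.mapMatrix_apply, Matrix.map_apply, Matrix.map_apply]
    exact Ideal.Quotient.eq.mpr (h a b)
  · intro h a b
    have := congrFun (congrFun h a) b
    rw [RingHom.mapMatrix_apply, RingHom.mapMatrix_apply, Matrix.map_apply, Matrix.map_apply] at this
    exact Ideal.Quotient.eq.mp this

theorem conj_entry_sub_mem (U : (Matrix (Fin 2) (Fin 2) A)ˣ)
    (hU : IsOneMod (U : Matrix (Fin 2) (Fin 2) A)) (X : Matrix (Fin 2) (Fin 2) A) (a b : Fin 2) :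
    ((U : Matrix (Fin 2) (Fin 2) A) * X * ((U⁻¹ : (Matrix (Fin 2) (Fin 2) A)ˣ) :
      Matrix (Fin 2) (Fin 2) A)) a b - X a b ∈ maximalIdeal A := by
  revert a b
  rw [entry_sub_mem_iff]
  rw [isOneMod_iff] at hU
  have h2 : (Ideal.Quotient.mk (maximalIdeal A)).mapMatrix
      ((U⁻¹ : (Matrix (Fin 2) (Fin 2) A)ˣ) : Matrix (Fin 2) (Fin 2) A) = 1 := by
    have := congrArg (Ideal.Quotient.mk (maximalIdeal A)).mapMatrix (Units.mul_inv U)
    rwa [map_mul, hU, one_mul, map_one] at this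
  rw [map_mul, map_mul, hU, h2, one_mul, mul_one]

theorem IsOneMod.mul {U V : Matrix (Fin 2) (Fin 2) A} (hU : IsOneMod U) (hV : IsOneMod V) :
    IsOneMod (U * V) := by
  rw [isOneMod_iff] at *
  rw [map_mul, hU, hV, one_mul]

theorem isUnit_of_sub_mem {a b : A} (ha : IsUnit a) (h : b - a ∈ maximalIdeal A) : IsUnit b := by
  by_contra hn
  have h1 : b ∈ maximalIdeal A := (mem_maximalIdeal _).mpr hn
  have h2 : a ∈ maximalIdeal A := by
    have := Ideal.sub_mem _ h1 h
    simpa using this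
  exact (mem_maximalIdeal _).mp h2 ha

/-- Step 1: make the first column of `C` equal to `e₂`. -/
theorem exists_normalize_step1 (C : Matrix (Fin 2) (Fin 2) A)
    (h00 : C 0 0 ∈ maximalIdeal A) (h10 : C 1 0 - 1 ∈ maximalIdeal A) :
    ∃ U : (Matrix (Fin 2) (Fin 2) A)ˣ, IsOneMod (U : Matrix (Fin 2) (Fin 2) A) ∧
      ((U : Matrix (Fin 2) (Fin 2) A) * C * ((U⁻¹ : (Matrix (Fin 2) (Fin 2) A)ˣ) :
        Matrix (Fin 2) (Fin 2) A)) 0 0 = 0 ∧
      ((U : Matrix (Fin 2) (Fin 2) A) * C * ((U⁻¹ : (Matrix (Fin 2) (Fin 2) A)ˣ) :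
        Matrix (Fin 2) (Fin 2) A)) 1 0 = 1 := by
  have hunit : IsUnit (C 1 0) := isUnit_of_sub_mem isUnit_one h10
  obtain ⟨s, hs⟩ := hunit
  have hs1 : (↑s⁻¹ : A) * C 1 0 = 1 := by rw [← hs]; exact Units.inv_mul s
  generalize (↑s⁻¹ : A) = t at hs1
  have hUV : (!![1, - C 0 0 * t; 0, t] : Matrix (Fin 2) (Fin 2) A) * !![1, C 0 0; 0, C 1 0] = 1 := by
    ext a b
    fin_cases a <;> fin_cases b
    · simp [Matrix.mul_apply, Fin.sum_univ_two]
    · simp only [Matrix.mul_apply, Fin.sum_univ_two]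
      simp
      linear_combination (- C 0 0) * hs1
    · simp [Matrix.mul_apply, Fin.sum_univ_two]
    · simp only [Matrix.mul_apply, Fin.sum_univ_two]
      simp
      linear_combination hs1
  have hVU : (!![1, C 0 0; 0, C 1 0] : Matrix (Fin 2) (Fin 2) A) * !![1, - C 0 0 * t; 0, t] = 1 := by
    ext a b
    fin_cases a <;> fin_cases b
    · simp [Matrix.mul_apply, Fin.sum_univ_two]
    · simp only [Matrix.mul_apply, Fin.sum_univ_two]
      simp
    · simp [Matrix.mul_apply, Fin.sum_univ_two]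
    · simp only [Matrix.mul_apply, Fin.sum_univ_two]
      simp
      linear_combination hs1
  refine ⟨⟨_, _, hUV, hVU⟩, ?_, ?_, ?_⟩
  · intro a b
    have hsm : t - 1 ∈ maximalIdeal A := by
      have : t - 1 = - t * (C 1 0 - 1) := by linear_combination (1 : A) * hs1
      rw [this]
      exact Ideal.mul_mem_left _ _ h10
    fin_cases a <;> fin_cases b
    · simp only [Matrix.sub_apply]
      simp
    · simp only [Matrix.sub_apply]
      simpa using Ideal.mul_mem_right t _ h00
    · simp only [Matrix.sub_apply]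
      simp
    · simp only [Matrix.sub_apply]
      simpa using hsm
  · simp only [Units.inv_mk, Matrix.mul_apply, Fin.sum_univ_two]
    simp
    linear_combination (- C 0 0) * hs1
  · simp only [Units.inv_mk, Matrix.mul_apply, Fin.sum_univ_two]
    simp
    linear_combination hs1

/-- Step 2: with `C` in companion form, conjugate by an element `1 + b C` of its commutant to
prescribe the `(i,j)` entry of `M`. -/
theorem exists_normalize_step2 [HenselianRing A (maximalIdeal A)]
    (C M : Matrix (Fin 2) (Fin 2) A) (i j : Fin 2) (c : A)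
    (h00 : C 0 0 = 0) (h10 : C 1 0 = 1)
    (hu : IsUnit ((C * M - M * C) i j)) (hc : M i j - c ∈ maximalIdeal A) :
    ∃ U : (Matrix (Fin 2) (Fin 2) A)ˣ, IsOneMod (U : Matrix (Fin 2) (Fin 2) A) ∧
      (U : Matrix (Fin 2) (Fin 2) A) * C * ((U⁻¹ : (Matrix (Fin 2) (Fin 2) A)ˣ) :
        Matrix (Fin 2) (Fin 2) A) = C ∧
      ((U : Matrix (Fin 2) (Fin 2) A) * M * ((U⁻¹ : (Matrix (Fin 2) (Fin 2) A)ˣ) :
        Matrix (Fin 2) (Fin 2) A)) i j = c := by
  set τ := C 1 1 with hτ
  set β := C 0 1 with hβ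
  have hCC : C * C = τ • C + β • (1 : Matrix (Fin 2) (Fin 2) A) := by
    ext a b
    fin_cases a <;> fin_cases b
    · simp [Matrix.mul_apply, Fin.sum_univ_two, h00, h10, ← hβ]
    · simp [Matrix.mul_apply, Fin.sum_univ_two, h00, ← hτ, ← hβ]; ring
    · simp [Matrix.mul_apply, Fin.sum_univ_two, h00, h10, ← hτ]
    · simp [Matrix.mul_apply, Fin.sum_univ_two, h10, ← hτ, ← hβ]; ring
  set e0 := M i j - c with he0
  set e1 := τ * e0 + (C * M - M * C) i j with he1
  set e2 := τ * (C * M) i j - (C * M * C) i j + β * c with he2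
  have he1u : IsUnit e1 := by
    refine isUnit_of_sub_mem hu ?_
    have : e1 - (C * M - M * C) i j = τ * e0 := by rw [he1]; ring
    rw [this]
    exact Ideal.mul_mem_left _ _ hc
  -- Hensel
  obtain ⟨w, hw, hw1⟩ := HenselianRing.is_henselian (I := maximalIdeal A)
    (X ^ 2 - Polynomial.C e1 * X + Polynomial.C (e2 * e0)) (by monicity!) e1
    (by
      have : (X ^ 2 - Polynomial.C e1 * X + Polynomial.C (e2 * e0)).eval e1 = e2 * e0 := by
        simp; ring
      rw [this]
      exact Ideal.mul_mem_left _ _ hc)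
    (by
      have : (derivative (X ^ 2 - Polynomial.C e1 * X + Polynomial.C (e2 * e0))).eval e1 = e1 := by
        simp; ring
      rw [this]
      exact he1u.map _)
  have hroot : w ^ 2 - e1 * w + e2 * e0 = 0 := by
    have := hw
    simp only [IsRoot.def, eval_add, eval_sub, eval_pow, eval_X, eval_mul, eval_C] at this
    exact this
  have hwu : IsUnit w := isUnit_of_sub_mem he1u hw1
  obtain ⟨w', hw'⟩ := hwu
  have hwinv : (↑w'⁻¹ : A) * w = 1 := by rw [← hw']; exact Units.inv_mul w'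
  generalize (↑w'⁻¹ : A) = v at hwinv
  set b := - e0 * v with hb
  have hbm : b ∈ maximalIdeal A := by
    rw [hb, neg_mul]
    exact neg_mem (Ideal.mul_mem_right _ _ hc)
  have hquad : e0 + e1 * b + e2 * b ^ 2 = 0 := by
    rw [hb]
    linear_combination (e0 * v ^ 2) * hroot + (- e0 * (v * w + 1) + e0 * e1 * v) * hwinv
  set δ := 1 + b * τ - b ^ 2 * β with hδ
  have hδu : IsUnit δ := by
    refine isUnit_of_sub_mem isUnit_one ?_
    have : δ - 1 = b * (τ - b * β) := by rw [hδ]; ring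
    rw [this]
    exact Ideal.mul_mem_right _ _ hbm
  obtain ⟨δ', hδ'⟩ := hδu
  have hδinv : (↑δ'⁻¹ : A) * δ = 1 := by rw [← hδ']; exact Units.inv_mul δ'
  generalize (↑δ'⁻¹ : A) = d at hδinv
  set U0 : Matrix (Fin 2) (Fin 2) A := 1 + b • C with hU0
  set V0 : Matrix (Fin 2) (Fin 2) A := (1 + b * τ) • (1 : Matrix (Fin 2) (Fin 2) A) - b • C with hV0
  have hUV0 : U0 * V0 = δ • (1 : Matrix (Fin 2) (Fin 2) A) := by
    rw [hU0, hV0]
    simp only [add_mul, mul_sub, one_mul, Matrix.smul_mul, Matrix.mul_smul, mul_one, hCC]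
    rw [hδ]
    module
  have hVU0 : V0 * U0 = δ • (1 : Matrix (Fin 2) (Fin 2) A) := by
    rw [hU0, hV0]
    simp only [sub_mul, mul_add, one_mul, Matrix.smul_mul, Matrix.mul_smul, mul_one, hCC]
    rw [hδ]
    module
  have hUV : U0 * (d • V0) = 1 := by
    rw [Matrix.mul_smul, hUV0, smul_smul, hδinv, one_smul]
  have hVU : (d • V0) * U0 = 1 := by
    rw [Matrix.smul_mul, hVU0, smul_smul, hδinv, one_smul]
  refine ⟨⟨U0, d • V0, hUV, hVU⟩, ?_, ?_, ?_⟩
  · intro x y
    have : ((1 + b • C : Matrix (Fin 2) (Fin 2) A) - 1) x y = b * C x y := by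
      simp
    change ((1 + b • C : Matrix (Fin 2) (Fin 2) A) - 1) x y ∈ _
    rw [this]
    exact Ideal.mul_mem_right _ _ hbm
  · change U0 * C * (d • V0) = C
    have hcomm : U0 * C = C * U0 := by
      rw [hU0]
      simp [add_mul, mul_add]
    rw [hcomm, mul_assoc, hUV, mul_one]
  · change (U0 * M * (d • V0)) i j = c
    have hP : U0 * M * V0 = (1 + b * τ) • M - b • (M * C) + (b * (1 + b * τ)) • (C * M)
        - (b ^ 2) • (C * M * C) := by
      rw [hU0, hV0]
      simp only [add_mul, mul_sub, one_mul, Matrix.smul_mul, Matrix.mul_smul, mul_one]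
      module
    rw [Matrix.mul_smul, hP]
    simp only [Matrix.smul_apply, Matrix.sub_apply, Matrix.add_apply, smul_eq_mul]
    have hq := hquad
    rw [he0, he1, he2, he0] at hq
    simp only [Matrix.sub_apply] at hq
    have hd := hδinv
    rw [hδ] at hd
    linear_combination d * hq + c * hd

omit [IsLocalRing A] in
theorem conj_mul_units (U V : (Matrix (Fin 2) (Fin 2) A)ˣ) (X : Matrix (Fin 2) (Fin 2) A) :
    ((U * V : (Matrix (Fin 2) (Fin 2) A)ˣ) : Matrix (Fin 2) (Fin 2) A) * X *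
      (((U * V)⁻¹ : (Matrix (Fin 2) (Fin 2) A)ˣ) : Matrix (Fin 2) (Fin 2) A) =
    (U : Matrix (Fin 2) (Fin 2) A) * ((V : Matrix (Fin 2) (Fin 2) A) * X *
      ((V⁻¹ : (Matrix (Fin 2) (Fin 2) A)ˣ) : Matrix (Fin 2) (Fin 2) A)) *
      ((U⁻¹ : (Matrix (Fin 2) (Fin 2) A)ˣ) : Matrix (Fin 2) (Fin 2) A) := by
  rw [_root_.mul_inv_rev, Units.val_mul, Units.val_mul]
  simp only [mul_assoc]

omit [IsLocalRing A] in
theorem conj_mul_conj (U : (Matrix (Fin 2) (Fin 2) A)ˣ) (X Y : Matrix (Fin 2) (Fin 2) A) :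
    ((U : Matrix (Fin 2) (Fin 2) A) * X *
      ((U⁻¹ : (Matrix (Fin 2) (Fin 2) A)ˣ) : Matrix (Fin 2) (Fin 2) A)) *
    ((U : Matrix (Fin 2) (Fin 2) A) * Y *
      ((U⁻¹ : (Matrix (Fin 2) (Fin 2) A)ˣ) : Matrix (Fin 2) (Fin 2) A)) =
    (U : Matrix (Fin 2) (Fin 2) A) * (X * Y) *
      ((U⁻¹ : (Matrix (Fin 2) (Fin 2) A)ˣ) : Matrix (Fin 2) (Fin 2) A) := by
  have h1 : ((U⁻¹ : (Matrix (Fin 2) (Fin 2) A)ˣ) : Matrix (Fin 2) (Fin 2) A) *
      (U : Matrix (Fin 2) (Fin 2) A) = 1 := Units.inv_mul U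
  calc _ = (U : Matrix (Fin 2) (Fin 2) A) * X *
      (((U⁻¹ : (Matrix (Fin 2) (Fin 2) A)ˣ) : Matrix (Fin 2) (Fin 2) A) *
      (U : Matrix (Fin 2) (Fin 2) A)) * Y *
      ((U⁻¹ : (Matrix (Fin 2) (Fin 2) A)ˣ) : Matrix (Fin 2) (Fin 2) A) := by
        simp only [mul_assoc]
    _ = _ := by rw [h1, mul_one]; simp only [mul_assoc]

/-- Existence of the normal form of a pair `(C, M)` over a Henselian local ring. -/
theorem exists_matNormalize [HenselianRing A (maximalIdeal A)]
    (C M : Matrix (Fin 2) (Fin 2) A) (i j : Fin 2) (c : A)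
    (h00 : C 0 0 ∈ maximalIdeal A) (h10 : C 1 0 - 1 ∈ maximalIdeal A)
    (hu : IsUnit ((C * M - M * C) i j)) (hc : M i j - c ∈ maximalIdeal A) :
    ∃ U : (Matrix (Fin 2) (Fin 2) A)ˣ, IsOneMod (U : Matrix (Fin 2) (Fin 2) A) ∧
      ((U : Matrix (Fin 2) (Fin 2) A) * C * ((U⁻¹ : (Matrix (Fin 2) (Fin 2) A)ˣ) :
        Matrix (Fin 2) (Fin 2) A)) 0 0 = 0 ∧
      ((U : Matrix (Fin 2) (Fin 2) A) * C * ((U⁻¹ : (Matrix (Fin 2) (Fin 2) A)ˣ) :
        Matrix (Fin 2) (Fin 2) A)) 1 0 = 1 ∧
      ((U : Matrix (Fin 2) (Fin 2) A) * M * ((U⁻¹ : (Matrix (Fin 2) (Fin 2) A)ˣ) :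
        Matrix (Fin 2) (Fin 2) A)) i j = c := by
  obtain ⟨U1, hU1, a00, a10⟩ := exists_normalize_step1 C h00 h10
  set C1 := (U1 : Matrix (Fin 2) (Fin 2) A) * C * ((U1⁻¹ : (Matrix (Fin 2) (Fin 2) A)ˣ) :
        Matrix (Fin 2) (Fin 2) A) with hC1
  set M1 := (U1 : Matrix (Fin 2) (Fin 2) A) * M * ((U1⁻¹ : (Matrix (Fin 2) (Fin 2) A)ˣ) :
        Matrix (Fin 2) (Fin 2) A) with hM1
  have hcomm : C1 * M1 - M1 * C1 = (U1 : Matrix (Fin 2) (Fin 2) A) * (C * M - M * C) *
      ((U1⁻¹ : (Matrix (Fin 2) (Fin 2) A)ˣ) : Matrix (Fin 2) (Fin 2) A) := by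
    rw [hC1, hM1, conj_mul_conj, conj_mul_conj, mul_sub, sub_mul]
  have hu1 : IsUnit ((C1 * M1 - M1 * C1) i j) := by
    rw [hcomm]
    exact isUnit_of_sub_mem hu (conj_entry_sub_mem U1 hU1 _ i j)
  have hc1 : M1 i j - c ∈ maximalIdeal A := by
    have := Ideal.add_mem _ (conj_entry_sub_mem U1 hU1 M i j) hc
    rwa [sub_add_sub_cancel] at this
  obtain ⟨U2, hU2, b1, b2⟩ := exists_normalize_step2 C1 M1 i j c a00 a10 hu1 hc1
  refine ⟨U2 * U1, ?_, ?_, ?_, ?_⟩
  · rw [Units.val_mul]; exact hU2.mul hU1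
  · rw [conj_mul_units, ← hC1, b1]; exact a00
  · rw [conj_mul_units, ← hC1, b1]; exact a10
  · rw [conj_mul_units, ← hM1]; exact b2

end Exists

end Fermat.Agent.S53
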