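import Fermat.Agent.S53.MatDefs
import Fermat.Agent.S53.MatNormal

set_option autoImplicit false

namespace Fermat.Agent.S53

open IsLocalRing GaloisRep

variable {𝒪 : Type} [CommRing 𝒪] [IsLocalRing 𝒪] (D : RigidDatum 𝒪)
  {A : Type} [CommRing A] [IsLocalRing A] [Algebra 𝒪 A]

variable {D} in
lemma IsLiftOf.commutator_isUnit {x : Idx → A} (lx : IsLiftOf D x) :
    IsUnit ((mat x D.g0 * mat x D.g1 - mat x D.g1 * mat x D.g0) D.i0 D.j0) := by
  have h : ∀ σ, (Ideal.Quotient.mk (maximalIdeal A)).mapMatrix (mat x σ) =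
      (Ideal.Quotient.mk (maximalIdeal A)).mapMatrix ((algebraMap 𝒪 A).mapMatrix (D.Mt σ)) :=
    fun σ => (entry_sub_mem_iff _ _).mp (fun i j => lx σ i j)
  have h2 : (Ideal.Quotient.mk (maximalIdeal A)).mapMatrix
      (mat x D.g0 * mat x D.g1 - mat x D.g1 * mat x D.g0) =
      (Ideal.Quotient.mk (maximalIdeal A)).mapMatrix ((algebraMap 𝒪 A).mapMatrix
        (D.Mt D.g0 * D.Mt D.g1 - D.Mt D.g1 * D.Mt D.g0)) := by
    simp only [map_sub, map_mul, h]
  exact isUnit_of_sub_mem (D.hcomm.map (algebraMap 𝒪 A))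
    ((entry_sub_mem_iff _ _).mpr h2 D.i0 D.j0)

/-- (M4) rigidity: equivalent normalised lifts are equal. -/
theorem eq_of_isEquiv {x y : Idx → A} (hx : IsMatRep x) (hy : IsMatRep y)
    (lx : IsLiftOf D x) (ly : IsLiftOf D y) (nx : IsNormalized D x) (ny : IsNormalized D y)
    (e : (ofMat x hx).IsEquiv (ofMat y hy)) : x = y := by
  obtain ⟨e⟩ := e
  let f : (Fin 2 → A) ≃ₗ[A] (Fin 2 → A) := e.toLinearEquiv
  have hf : ∀ σ v, f ((mat x σ).mulVec v) = (mat y σ).mulVec (f v) := e.map_apply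
  have hU : IsUnit (LinearMap.toMatrixAlgEquiv' (f : (Fin 2 → A) →ₗ[A] (Fin 2 → A))) :=
    ((Module.End.isUnit_iff (f : (Fin 2 → A) →ₗ[A] (Fin 2 → A))).mpr f.bijective).map
      LinearMap.toMatrixAlgEquiv'
  have hint : ∀ σ, LinearMap.toMatrixAlgEquiv' (f : (Fin 2 → A) →ₗ[A] (Fin 2 → A)) * mat x σ =
      mat y σ * LinearMap.toMatrixAlgEquiv' (f : (Fin 2 → A) →ₗ[A] (Fin 2 → A)) := by
    intro σ
    apply Matrix.toLinAlgEquiv'.injective
    rw [map_mul, map_mul, Matrix.toLinAlgEquiv'_toMatrixAlgEquiv']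
    refine LinearMap.ext fun v => ?_
    exact hf σ v
  apply ext_of_mat
  have := matNormalized_unique (r := mat x) (r' := mat y) (g0 := D.g0) (g1 := D.g1)
    (i := D.i0) (j := D.j0) (c := algebraMap 𝒪 A (D.Mt D.g1 D.i0 D.j0))
    nx.n00 nx.n10 nx.n1 ny.n00 ny.n10 ny.n1 lx.commutator_isUnit
    (fun a b => by
      have := Ideal.sub_mem _ (ly D.g1 a b) (lx D.g1 a b)
      rwa [sub_sub_sub_cancel_right] at this) _ hU hint
  exact fun σ => congrFun this σ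

omit [IsLocalRing A] in
lemma mul_mul_entry_mem (I : Ideal A) (U W V : Matrix (Fin 2) (Fin 2) A)
    (hW : ∀ i j, W i j ∈ I) (i j : Fin 2) : (U * W * V) i j ∈ I := by
  rw [Matrix.mul_apply]
  refine Ideal.sum_mem _ fun k _ => Ideal.mul_mem_right _ _ ?_
  rw [Matrix.mul_apply]
  exact Ideal.sum_mem _ fun l _ => Ideal.mul_mem_left _ _ (hW l k)

/-- (M5b) existence of the normal form. -/
theorem exists_normalized [IsLocalHom (algebraMap 𝒪 A)] [IsAdicComplete (maximalIdeal A) A]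
    {x : Idx → A} (hx : IsMatRep x) (lx : IsLiftOf D x) :
    ∃ (y : Idx → A) (hy : IsMatRep y), IsLiftOf D y ∧ IsNormalized D y ∧
      (ofMat y hy).IsEquiv (ofMat x hx) := by
  have h00 : mat x D.g0 0 0 ∈ maximalIdeal A := by
    have h1 : algebraMap 𝒪 A (D.Mt D.g0 0 0) ∈ maximalIdeal A := map_nonunit _ _ D.h00
    have := Ideal.add_mem _ (lx D.g0 0 0) h1
    rwa [sub_add_cancel] at this
  have h10 : mat x D.g0 1 0 - 1 ∈ maximalIdeal A := by
    have h1 : algebraMap 𝒪 A (D.Mt D.g0 1 0 - 1) ∈ maximalIdeal A := map_nonunit _ _ D.h10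
    have := Ideal.add_mem _ (lx D.g0 1 0) h1
    rwa [map_sub, map_one, sub_add_sub_cancel] at this
  obtain ⟨U, hU, a00, a10, a1⟩ := exists_matNormalize (mat x D.g0) (mat x D.g1) D.i0 D.j0
    (algebraMap 𝒪 A (D.Mt D.g1 D.i0 D.j0)) h00 h10 lx.commutator_isUnit (lx D.g1 D.i0 D.j0)
  let y : Idx → A := fun p => ((U : Matrix (Fin 2) (Fin 2) A) * mat x p.1 *
    ((U⁻¹ : (Matrix (Fin 2) (Fin 2) A)ˣ) : Matrix (Fin 2) (Fin 2) A)) p.2.1 p.2.2
  have hy' : ∀ σ, mat y σ = (U : Matrix (Fin 2) (Fin 2) A) * mat x σ *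
    ((U⁻¹ : (Matrix (Fin 2) (Fin 2) A)ˣ) : Matrix (Fin 2) (Fin 2) A) := fun σ => rfl
  have hy : IsMatRep y :=
    { map_one := by rw [hy', hx.map_one, mul_one, Units.mul_inv]
      map_mul := fun σ τ => by rw [hy', hy', hy', conj_mul_conj, hx.map_mul]
      cont := fun n => by
        obtain ⟨L, hL, h⟩ := hx.cont n
        refine ⟨L, hL, fun σ hσ i j => ?_⟩
        have h1 : mat y σ - 1 = (U : Matrix (Fin 2) (Fin 2) A) * (mat x σ - 1) *
            ((U⁻¹ : (Matrix (Fin 2) (Fin 2) A)ˣ) : Matrix (Fin 2) (Fin 2) A) := by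
          rw [hy', mul_sub, sub_mul, mul_one, Units.mul_inv]
        rw [h1]
        exact mul_mul_entry_mem _ _ _ _ (h σ hσ) i j }
  refine ⟨y, hy, ?_, ⟨a00, a10, a1⟩, ⟨?_⟩⟩
  · intro σ i j
    have := Ideal.add_mem _ (conj_entry_sub_mem U hU (mat x σ) i j) (lx σ i j)
    rwa [mat_apply, sub_add_sub_cancel] at this
  · have key : ∀ (σ : Gal) (v : Fin 2 → A),
        ((U⁻¹ : (Matrix (Fin 2) (Fin 2) A)ˣ) : Matrix (Fin 2) (Fin 2) A).mulVec
          ((mat y σ).mulVec v) =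
        (mat x σ).mulVec
          (((U⁻¹ : (Matrix (Fin 2) (Fin 2) A)ˣ) : Matrix (Fin 2) (Fin 2) A).mulVec v) := by
      intro σ v
      rw [Matrix.mulVec_mulVec, Matrix.mulVec_mulVec, hy', ← mul_assoc, ← mul_assoc,
        Units.inv_mul, one_mul]
    exact ⟨Matrix.toLin'OfInv (Units.mul_inv U) (Units.inv_mul U), fun σ v => key σ v⟩

end Fermat.Agent.S53
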