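import Fermat.Agent.S53.TestAlg
import Fermat.Agent.S53.MatRep
import Fermat.Agent.S53.MatRes
import Fermat.Agent.S53.NormalForm
import Fermat.Agent.S53.FibreProduct

set_option autoImplicit false

namespace Fermat.Agent.S53

open IsLocalRing GaloisRep

variable {𝒪 : Type} [CommRing 𝒪] [IsLocalRing 𝒪] (D : RigidDatum 𝒪)
  {𝒟 : ∀ ⦃A : Type⦄ [CommRing A] [IsLocalRing A] [Algebra 𝒪 A], GaloisRepAdic A → Prop}

theorem defFunctor_isProRep [Finite (ResidueField 𝒪)] (h𝒟 : IsDeformationCondition 𝒪 𝒟) :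
    IsProRepFunctor 𝒪 (defFunctor D 𝒟) where
  map := by
    intro A B _ _ _ _ _ _ hA hB φ x hx
    obtain ⟨h, hl, hn, hd⟩ := hx
    have := hB.isLocalHom
    have hφ : IsLocalHom (φ : A →+* B) :=
      isLocalHom_of_algHom hA.residue_surjective hB.residue_surjective φ
    refine ⟨h.comp (φ : A →+* B) hφ, hl.comp φ hφ, hn.comp φ, ?_⟩
    exact h𝒟.of_isEquiv hB (ofMat_baseChangeAlong_isEquiv (φ : A →+* B) hφ x h _)
      (h𝒟.baseChangeAlong hA hB φ hφ hd)
  pair := by
    intro A B C _ _ _ _ _ _ _ _ _ hA hB hC pA pB hinj z hzA hzB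
    obtain ⟨hA1, hA2, hA3, hA4⟩ := hzA
    obtain ⟨hB1, hB2, hB3, hB4⟩ := hzB
    have := hA.isLocalHom
    have := hB.isLocalHom
    have hpA : IsLocalHom (pA : C →+* A) :=
      isLocalHom_of_algHom hC.residue_surjective hA.residue_surjective pA
    have hpB : IsLocalHom (pB : C →+* B) :=
      isLocalHom_of_algHom hC.residue_surjective hB.residue_surjective pB
    have hz : IsMatRep z :=
      IsMatRep.of_pair (exists_pow_maximalIdeal_eq_bot hA) (exists_pow_maximalIdeal_eq_bot hB)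
        (pA : C →+* A) (pB : C →+* B) hinj hA1 hB1
    refine ⟨hz, ?_, ?_, ?_⟩
    · intro σ i j
      by_contra hcon
      have hu : IsUnit (z (σ, i, j) - algebraMap 𝒪 C (D.Mt σ i j)) := by
        by_contra hnu
        exact hcon ((mem_maximalIdeal _).mpr hnu)
      have hu' : IsUnit (pA (z (σ, i, j) - algebraMap 𝒪 C (D.Mt σ i j))) := hu.map pA
      have := hA2 σ i j
      rw [mem_maximalIdeal] at this
      apply this
      simpa using hu'
    · refine ⟨hinj ?_, hinj ?_, hinj ?_⟩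
      · have h1 := hA3.n00
        have h2 := hB3.n00
        simp only [Function.comp_apply] at h1 h2
        simp [h1, h2]
      · have h1 := hA3.n10
        have h2 := hB3.n10
        simp only [Function.comp_apply] at h1 h2
        simp [h1, h2]
      · have h1 := hA3.n1
        have h2 := hB3.n1
        simp only [Function.comp_apply] at h1 h2
        simp [h1, h2]
    · refine condition_pair h𝒟 hA hB hC pA pB hpA hpB hinj (ofMat z hz) ?_ ?_
      · exact h𝒟.of_isEquiv hA
          (isEquiv_symm (ofMat_baseChangeAlong_isEquiv (pA : C →+* A) hpA z hz hA1)) hA4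
      · exact h𝒟.of_isEquiv hB
          (isEquiv_symm (ofMat_baseChangeAlong_isEquiv (pB : C →+* B) hpB z hz hB1)) hB4

theorem defFunctor_residue_nonempty (h𝒟 : IsDeformationCondition 𝒪 𝒟)
    (ρbar : ResidualGaloisRep (ResidueField 𝒪)) (hD : D.IsDatumFor ρbar)
    (hbar : 𝒟 (GaloisRepAdic.ofResidualGaloisRep ρbar)) :
    ∃ x, defFunctor D 𝒟 (ResidueField 𝒪) x := by
  obtain ⟨b, hb⟩ := hD
  set x : Idx → ResidueField 𝒪 := fun s => residue 𝒪 (D.Mt s.1 s.2.1 s.2.2) with hx
  have hmat : ∀ σ, mat x σ = LinearMap.toMatrix b b (ρbar.ρ σ) := by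
    intro σ
    ext i j
    exact hb σ i j
  have hrep : IsMatRep x := by
    refine ⟨?_, ?_, ?_⟩
    · rw [hmat, map_one]
      exact LinearMap.toMatrix_one b
    · intro σ τ
      rw [hmat, hmat, hmat, map_mul]
      exact LinearMap.toMatrix_mul b _ _
    · intro n
      obtain ⟨L, hL, h1⟩ := ρbar.factorsThroughFiniteLevel
      refine ⟨L, hL, fun σ hσ i j => ?_⟩
      have : mat x σ = 1 := by
        rw [hmat, h1 σ hσ]
        exact LinearMap.toMatrix_one b
      rw [this, sub_self]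
      exact Ideal.zero_mem _
  refine ⟨x, hrep, ?_, ?_, ?_⟩
  · intro σ i j
    have : x (σ, i, j) - algebraMap 𝒪 (ResidueField 𝒪) (D.Mt σ i j) = 0 := sub_self _
    rw [this]
    exact Ideal.zero_mem _
  · refine ⟨?_, ?_, rfl⟩
    · exact (residue_eq_zero_iff _).mpr D.h00
    · have := (residue_eq_zero_iff _).mpr D.h10
      rw [map_sub, map_one, sub_eq_zero] at this
      exact this
  · refine h𝒟.of_isEquiv isArtinianTestAlgebra_residueField ?_ hbar
    refine ⟨⟨b.equivFun, fun σ v => ?_⟩⟩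
    change b.equivFun (ρbar.ρ σ v) = (mat x σ).mulVec (b.equivFun v)
    rw [hmat]
    exact (LinearMap.toMatrix_mulVec_repr b b (ρbar.ρ σ) v).symm

theorem defFunctor_residue_unique (x y : Idx → ResidueField 𝒪)
    (hx : defFunctor D 𝒟 (ResidueField 𝒪) x) (hy : defFunctor D 𝒟 (ResidueField 𝒪) y) : x = y := by
  obtain ⟨-, hx, -, -⟩ := hx
  obtain ⟨-, hy, -, -⟩ := hy
  funext ⟨σ, i, j⟩
  have h1 := hx σ i j
  have h2 := hy σ i j
  rw [maximalIdeal_eq_bot, Ideal.mem_bot, sub_eq_zero] at h1 h2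
  rw [h1, h2]

theorem defFunctor_dual_finite (ρbar : ResidualGaloisRep (ResidueField 𝒪))
    (hD : D.IsDatumFor ρbar) (hfin : TangentFinite 𝒪 ρbar 𝒟) :
    Finite {x : Idx → DualNumber (ResidueField 𝒪) // @defFunctor 𝒪 _ _ D 𝒟 _ _ _ (dualAlg 𝒪) x} := by
  let _ := dualAlg 𝒪
  unfold TangentFinite at hfin
  set ψ : ResidueField 𝒪 →+* ResidueField (DualNumber (ResidueField 𝒪)) :=
    (IsLocalRing.residue (DualNumber (ResidueField 𝒪))).comp
      (algebraMap (ResidueField 𝒪) (DualNumber (ResidueField 𝒪))) with hψdef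
  have hψ : ∀ o, ψ (residue 𝒪 o) =
      residue (DualNumber (ResidueField 𝒪)) (algebraMap 𝒪 (DualNumber (ResidueField 𝒪)) o) :=
    fun o => rfl
  refine @Finite.of_injective _ _ hfin (fun x => Quotient.mk _
    ⟨ofMat x.1 x.2.choose, x.2.choose_spec.2.2,
      residual_ofMat_isEquiv D ρbar hD ψ hψ x.2.choose x.2.choose_spec.1⟩) ?_
  intro x y hxy
  have := Quotient.exact hxy
  apply Subtype.ext
  exact eq_of_isEquiv D x.2.choose y.2.choose x.2.choose_spec.1 y.2.choose_spec.1
    x.2.choose_spec.2.1 y.2.choose_spec.2.1 this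

lemma eq_of_forall_mk_pow_eq {R : Type} [CommRing R] [IsLocalRing R] [IsNoetherianRing R]
    {a b : R}
    (h : ∀ n : ℕ, Ideal.Quotient.mk (maximalIdeal R ^ (n + 1)) a =
      Ideal.Quotient.mk (maximalIdeal R ^ (n + 1)) b) : a = b := by
  rw [← sub_eq_zero, ← Ideal.mem_bot,
    ← Ideal.iInf_pow_eq_bot_of_isLocalRing (maximalIdeal R) (Ideal.IsPrime.ne_top inferInstance)]
  rw [Ideal.mem_iInf]
  intro n
  have := (Ideal.Quotient.eq).mp (h n)
  exact Ideal.pow_le_pow_right (Nat.le_succ n) this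

lemma maximalIdeal_quotient_pow_eq_bot {R : Type} [CommRing R] [IsLocalRing R] (n : ℕ)
    [IsLocalRing (R ⧸ maximalIdeal R ^ n)] :
    maximalIdeal (R ⧸ maximalIdeal R ^ n) ^ n = ⊥ := by
  have hle : maximalIdeal (R ⧸ maximalIdeal R ^ n) ≤
      (maximalIdeal R).map (Ideal.Quotient.mk (maximalIdeal R ^ n)) := by
    intro b hb
    obtain ⟨r, rfl⟩ := Ideal.Quotient.mk_surjective b
    refine Ideal.mem_map_of_mem _ ?_
    rw [mem_maximalIdeal] at hb ⊢
    exact fun hu => hb (hu.map _)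
  rw [eq_bot_iff]
  refine (Ideal.pow_right_mono hle n).trans ?_
  rw [← Ideal.map_pow, Ideal.map_quotient_self]

/-- descent of the matrix conditions from all Artinian quotients -/
theorem matConditions_of_forall_test {R : Type} [CommRing R] [IsLocalRing R] [IsNoetherianRing R]
    [Algebra 𝒪 R] [IsLocalHom (algebraMap 𝒪 R)]
    (hsurj : Function.Surjective (residue R ∘ algebraMap 𝒪 R)) (x : Idx → R)
    (h : ∀ (B : Type) [CommRing B] [IsLocalRing B] [Algebra 𝒪 B], IsArtinianTestAlgebra 𝒪 B →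
      ∀ q : R →ₐ[𝒪] B, Function.Surjective q →
        IsMatRep (q ∘ x) ∧ IsLiftOf D (q ∘ x) ∧ IsNormalized D (q ∘ x)) :
    IsMatRep x ∧ IsLiftOf D x ∧ IsNormalized D x := by
  have key : ∀ n : ℕ, ∃ (_ : IsLocalRing (R ⧸ maximalIdeal R ^ (n + 1))),
      IsMatRep (Ideal.Quotient.mk (maximalIdeal R ^ (n + 1)) ∘ x) ∧
      IsLiftOf D (Ideal.Quotient.mk (maximalIdeal R ^ (n + 1)) ∘ x) ∧
      IsNormalized D (Ideal.Quotient.mk (maximalIdeal R ^ (n + 1)) ∘ x) := by
    intro n
    obtain ⟨hloc, htest⟩ := quotient_pow_isArtinianTestAlgebra (𝒪 := 𝒪) R hsurj n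
    exact ⟨hloc, h _ htest (Ideal.Quotient.mkₐ 𝒪 (maximalIdeal R ^ (n + 1)))
      (Ideal.Quotient.mkₐ_surjective 𝒪 _)⟩
  refine ⟨⟨?_, ?_, ?_⟩, ?_, ⟨?_, ?_, ?_⟩⟩
  · ext i j
    refine eq_of_forall_mk_pow_eq fun n => ?_
    obtain ⟨_, h1, -, -⟩ := key n
    have := congrFun (congrFun h1.map_one i) j
    rw [mat_apply, Function.comp_apply] at this
    rw [mat_apply, this, Matrix.one_apply, Matrix.one_apply]
    split_ifs <;> simp
  · intro σ τ
    ext i j
    refine eq_of_forall_mk_pow_eq fun n => ?_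
    obtain ⟨_, h1, -, -⟩ := key n
    have := congrFun (congrFun (h1.map_mul σ τ) i) j
    rw [mat_apply, Function.comp_apply] at this
    rw [mat_apply, this, Matrix.mul_apply, Matrix.mul_apply, map_sum]
    simp
  · intro n
    rcases n with _ | n
    · exact ⟨⊥, inferInstance, fun σ _ i j => by simp⟩
    · obtain ⟨_, h1, -, -⟩ := key n
      obtain ⟨L, hL, hσ⟩ := h1.cont (n + 1)
      refine ⟨L, hL, fun σ hs i j => ?_⟩
      have := hσ σ hs i j
      rw [maximalIdeal_quotient_pow_eq_bot, Ideal.mem_bot] at this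
      rw [← Ideal.Quotient.eq_zero_iff_mem]
      rw [Matrix.sub_apply, mat_apply, Function.comp_apply, Matrix.one_apply] at this
      rw [Matrix.sub_apply, mat_apply, Matrix.one_apply, map_sub, ← this]
      split_ifs <;> simp
  · intro σ i j
    obtain ⟨_, -, h2, -⟩ := key 0
    have := h2 σ i j
    rw [mem_maximalIdeal] at this ⊢
    intro hu
    apply this
    have hu' := hu.map (Ideal.Quotient.mk (maximalIdeal R ^ (0 + 1)))
    rw [map_sub] at hu'
    exact hu'
  · refine eq_of_forall_mk_pow_eq fun n => ?_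
    obtain ⟨_, -, -, h3⟩ := key n
    have := h3.n00
    rw [Function.comp_apply] at this
    rw [this, map_zero]
  · refine eq_of_forall_mk_pow_eq fun n => ?_
    obtain ⟨_, -, -, h3⟩ := key n
    have := h3.n10
    rw [Function.comp_apply] at this
    rw [this, map_one]
  · refine eq_of_forall_mk_pow_eq fun n => ?_
    obtain ⟨_, -, -, h3⟩ := key n
    have := h3.n1
    rw [Function.comp_apply] at this
    rw [this]
    rfl

/-- `𝒟` is invariant under equivalence also over complete Noetherian local `𝒪`-algebras. -/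
theorem condition_of_isEquiv (h𝒟 : IsDeformationCondition 𝒪 𝒟)
    {A : Type} [CommRing A] [IsLocalRing A] [IsNoetherianRing A]
    [IsAdicComplete (maximalIdeal A) A] [Algebra 𝒪 A] [IsLocalHom (algebraMap 𝒪 A)]
    (hsurj : Function.Surjective (residue A ∘ algebraMap 𝒪 A))
    {ρ ρ' : GaloisRepAdic A} (e : ρ.IsEquiv ρ') (h : 𝒟 ρ) : 𝒟 ρ' := by
  rw [h𝒟.iff_forall_surjective inferInstance hsurj] at h ⊢
  intro B _ _ _ hB q hq hqs
  exact h𝒟.of_isEquiv hB (isEquiv_baseChangeAlong (q : A →+* B) hq e) (h hB q hq hqs)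

end Fermat.Agent.S53
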