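import Fermat.Agent.S53.MatDefs

set_option autoImplicit false

namespace Fermat.Agent.S53

open IsLocalRing GaloisRep TensorProduct

section Field

variable {k : Type} [Field k] (ρ : ResidualGaloisRep k)

theorem baseChange_ρ_apply (K : Type) [Field K] [Algebra k K] (σ : Gal) :
    (ρ.baseChange K).ρ σ = (ρ.ρ σ).baseChange K := rfl

theorem one_tmul_ne_zero (K : Type) [Field K] [Algebra k K] {V : Type} [AddCommGroup V]
    [Module k V] {v : V} (hv : v ≠ 0) : (1 : K) ⊗ₜ[k] v ≠ 0 := by
  intro h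
  have hinj := Module.FaithfullyFlat.tensorProduct_mk_injective (A := k) (B := K) V
  apply hv
  apply hinj
  simpa using h

/-- Every nonzero vector of an absolutely irreducible representation is cyclic. -/
theorem exists_linearIndependent_pair (habs : ρ.IsAbsolutelyIrreducible) {v : ρ.V} (hv : v ≠ 0) :
    ∃ g0 : Gal, LinearIndependent k ![v, ρ.ρ g0 v] := by
  by_contra hcon
  push Not at hcon
  have hex : ∀ g : Gal, ∃ a : k, a • v = ρ.ρ g v := by
    intro g
    have := hcon g
    rw [LinearIndependent.pair_iff' hv] at this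
    push Not at this
    exact this
  let K := AlgebraicClosure k
  let W : Submodule K (K ⊗[k] ρ.V) := Submodule.span K {(1 : K) ⊗ₜ[k] v}
  have hne : (1 : K) ⊗ₜ[k] v ≠ 0 := one_tmul_ne_zero K hv
  have hstable : ∀ σ : Gal, ∀ x ∈ W, (ρ.baseChange K).ρ σ x ∈ W := by
    intro σ x hx
    obtain ⟨c, rfl⟩ := Submodule.mem_span_singleton.mp hx
    obtain ⟨a, ha⟩ := hex σ
    rw [baseChange_ρ_apply, map_smul, LinearMap.baseChange_tmul, ← ha, TensorProduct.tmul_smul]
    exact W.smul_mem _ (W.smul_of_tower_mem a (Submodule.mem_span_singleton_self _))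
  rcases habs W hstable with h | h
  · exact hne ((Submodule.span_singleton_eq_bot).mp h)
  · have h1 : Module.finrank K W = 1 := finrank_span_singleton hne
    have h2 : Module.finrank K (K ⊗[k] ρ.V) = 2 := by
      rw [Module.finrank_baseChange, ρ.finrank_eq]
    rw [h, finrank_top, h2] at h1
    omega

/-- An element with a cyclic vector does not commute with the whole image. -/
theorem exists_not_commute (habs : ρ.IsAbsolutelyIrreducible) {v : ρ.V} {g0 : Gal}
    (hli : LinearIndependent k ![v, ρ.ρ g0 v]) :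
    ∃ g1 : Gal, ρ.ρ g0 * ρ.ρ g1 ≠ ρ.ρ g1 * ρ.ρ g0 := by
  by_contra hcon
  push Not at hcon
  let K := AlgebraicClosure k
  have hfr : Module.finrank K (K ⊗[k] ρ.V) = 2 := by
    rw [Module.finrank_baseChange, ρ.finrank_eq]
  have : Nontrivial (K ⊗[k] ρ.V) := Module.nontrivial_of_finrank_pos (R := K) (by omega)
  have : FiniteDimensional K (K ⊗[k] ρ.V) := Module.finite_of_finrank_pos (by omega)
  let T : Module.End K (K ⊗[k] ρ.V) := (ρ.ρ g0).baseChange K
  obtain ⟨μ, hμ⟩ := Module.End.exists_eigenvalue T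
  have hstable : ∀ σ : Gal, ∀ x ∈ T.eigenspace μ, (ρ.baseChange K).ρ σ x ∈ T.eigenspace μ := by
    intro σ x hx
    rw [Module.End.mem_eigenspace_iff] at hx ⊢
    rw [baseChange_ρ_apply]
    have hc : T * (ρ.ρ σ).baseChange K = (ρ.ρ σ).baseChange K * T := by
      simp only [T]
      rw [← LinearMap.baseChange_mul, ← LinearMap.baseChange_mul, hcon σ]
    have := congrArg (fun f : Module.End K (K ⊗[k] ρ.V) => f x) hc
    simp only [Module.End.mul_apply] at this
    rw [this, hx, map_smul]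
  rcases habs _ hstable with h | h
  · exact hμ h
  · have h1 : (1 : K) ⊗ₜ[k] v ∈ T.eigenspace μ := by rw [h]; trivial
    rw [Module.End.mem_eigenspace_iff] at h1
    simp only [T, LinearMap.baseChange_tmul] at h1
    have hliK : LinearIndependent K (fun i => (1 : K) ⊗ₜ[k] (![v, ρ.ρ g0 v] i)) :=
      Module.Flat.linearIndependent_one_tmul hli
    have hv : v ≠ 0 := by simpa using hli.ne_zero 0
    have h2 : (fun i => (1 : K) ⊗ₜ[k] (![v, ρ.ρ g0 v] i)) =
        ![(1 : K) ⊗ₜ[k] v, (1 : K) ⊗ₜ[k] (ρ.ρ g0 v)] := by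
      funext i
      fin_cases i <;> rfl
    rw [h2, LinearIndependent.pair_iff' (one_tmul_ne_zero K hv)] at hliK
    exact hliK μ h1.symm

end Field

/-- (M7) -/
theorem exists_rigidDatum {𝒪 : Type} [CommRing 𝒪] [IsLocalRing 𝒪]
    (ρbar : ResidualGaloisRep (ResidueField 𝒪)) (habs : ρbar.IsAbsolutelyIrreducible) :
    ∃ D : RigidDatum 𝒪, D.IsDatumFor ρbar := by
  have : Nontrivial ρbar.V :=
    Module.nontrivial_of_finrank_pos (R := ResidueField 𝒪) (by rw [ρbar.finrank_eq]; omega)
  obtain ⟨v, hv⟩ := exists_ne (0 : ρbar.V)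
  obtain ⟨g0, hli⟩ := exists_linearIndependent_pair ρbar habs hv
  obtain ⟨g1, hg1⟩ := exists_not_commute ρbar habs hli
  let b : Module.Basis (Fin 2) (ResidueField 𝒪) ρbar.V :=
    basisOfLinearIndependentOfCardEqFinrank hli (by rw [ρbar.finrank_eq]; simp)
  have hb : ∀ i, b i = ![v, ρbar.ρ g0 v] i := fun i => by
    simp only [b, coe_basisOfLinearIndependentOfCardEqFinrank]
  let R : Gal → Matrix (Fin 2) (Fin 2) (ResidueField 𝒪) := fun σ =>
    LinearMap.toMatrix b b (ρbar.ρ σ)
  have hRcol : ∀ i, R g0 i 0 = (1 : Matrix (Fin 2) (Fin 2) (ResidueField 𝒪)) i 1 := by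
    intro i
    have h1 : ρbar.ρ g0 (b 0) = b 1 := by rw [hb 0, hb 1]; rfl
    simp only [R, LinearMap.toMatrix_apply, h1, Module.Basis.repr_self, Finsupp.single_apply,
      Matrix.one_apply]
    congr 1
    exact propext eq_comm
  have hne : R g0 * R g1 - R g1 * R g0 ≠ 0 := by
    intro h
    apply hg1
    rw [sub_eq_zero] at h
    simp only [R] at h
    rw [← LinearMap.toMatrix_mul, ← LinearMap.toMatrix_mul] at h
    exact (LinearMap.toMatrix b b).injective h
  obtain ⟨i0, j0, hij⟩ : ∃ i0 j0, (R g0 * R g1 - R g1 * R g0) i0 j0 ≠ 0 := by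
    by_contra hcon
    push Not at hcon
    exact hne (Matrix.ext hcon)
  let Mt : Gal → Matrix (Fin 2) (Fin 2) 𝒪 := fun σ =>
    Matrix.of fun i j => Function.surjInv (residue_surjective (R := 𝒪)) (R σ i j)
  have hMt : ∀ σ i j, residue 𝒪 (Mt σ i j) = R σ i j := fun σ i j =>
    Function.surjInv_eq (residue_surjective (R := 𝒪)) (R σ i j)
  have hMt' : ∀ σ, (Mt σ).map (residue 𝒪) = R σ := fun σ => Matrix.ext fun i j => hMt σ i j
  refine ⟨⟨Mt, g0, g1, i0, j0, ?_, ?_, ?_⟩, b, hMt⟩
  · rw [← residue_eq_zero_iff, hMt, hRcol]; simp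
  · rw [← residue_eq_zero_iff, map_sub, hMt, hRcol]; simp
  · apply (isUnit_map_iff (residue 𝒪) _).mp
    have h1 : (Mt g0 * Mt g1 - Mt g1 * Mt g0).map (residue 𝒪) = R g0 * R g1 - R g1 * R g0 := by
      rw [Matrix.map_sub (f := residue 𝒪) (map_sub _), Matrix.map_mul, Matrix.map_mul, hMt', hMt']
    have h2 := congrFun (congrFun h1 i0) j0
    simp only [Matrix.map_apply] at h2
    rw [h2]
    exact hij.isUnit

end Fermat.Agent.S53
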