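import Mathlib

set_option autoImplicit false

namespace Fermat.Agent.S53

/-- In an adically complete ring, a chain of ideals with `K n = K (n+1) ⊔ 𝔪^(n+1)` satisfies
`K n = (⨅ j, K j) ⊔ 𝔪^(n+1)`. -/
theorem chain_eq_iInf_sup {Λ : Type*} [CommRing Λ] (𝔪 : Ideal Λ) [IsAdicComplete 𝔪 Λ]
    (K : ℕ → Ideal Λ) (hK : ∀ n, K n = K (n + 1) ⊔ 𝔪 ^ (n + 1)) (n : ℕ) :
    K n = (⨅ j, K j) ⊔ 𝔪 ^ (n + 1) := by
  have hanti : Antitone K := antitone_nat_of_succ_le fun n => by
    rw [hK n]; exact le_sup_left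
  have hpow : ∀ n, 𝔪 ^ (n + 1) ≤ K n := fun n => by
    rw [hK n]; exact le_sup_right
  apply le_antisymm
  · intro x hx
    have step : ∀ j (a : K (n + j)), ∃ a' : K (n + (j + 1)),
        (a : Λ) - (a' : Λ) ∈ 𝔪 ^ (n + j + 1) := by
      intro j a
      have ha : (a : Λ) ∈ K (n + j + 1) ⊔ 𝔪 ^ (n + j + 1) := (hK (n + j)).le a.2
      obtain ⟨y, hy, z, hz, hyz⟩ := Submodule.mem_sup.mp ha
      refine ⟨⟨y, hy⟩, ?_⟩
      have : (a : Λ) - y = z := by rw [← hyz]; ring
      rw [this]
      exact hz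
    choose nxt hnxt using step
    let a : (j : ℕ) → K (n + j) := fun j => Nat.rec ⟨x, hx⟩ (fun j a => nxt j a) j
    have ha0 : (a 0).1 = x := by
      rfl
    have hasucc : ∀ j, (a j).1 - (a (j + 1)).1 ∈
        𝔪 ^ (n + j + 1) := fun j => hnxt j (a j)
    have hcauchy : ∀ i j, i ≤ j → (a i).1 - (a j).1 ∈
        𝔪 ^ (n + i + 1) := by
      intro i j hij
      induction hij with
      | refl => simp
      | step hij ih =>
        rename_i j
        have hij' : i ≤ j := hij
        have : (a i).1 - (a (j + 1)).1 =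
            ((a i).1 - (a j).1) +
            ((a j).1 - (a (j + 1)).1) := by ring
        rw [this]
        exact Ideal.add_mem _ ih (Ideal.pow_le_pow_right (by omega) (hasucc j))
    obtain ⟨z, hz⟩ := IsPrecomplete.prec (I := 𝔪) (M := Λ) inferInstance
      (f := fun j => (a j).1) (by
        intro i j hij
        rw [SModEq.sub_mem, smul_eq_mul, Ideal.mul_top]
        exact Ideal.pow_le_pow_right (by omega) (hcauchy i j hij))
    have hz' : ∀ j, (a j).1 - z ∈ 𝔪 ^ j := by
      intro j
      have := hz j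
      rwa [SModEq.sub_mem, smul_eq_mul, Ideal.mul_top] at this
    have hzJ : z ∈ ⨅ j, K j := by
      rw [Ideal.mem_iInf]
      intro j
      have h1 : (a (j + 1)).1 ∈ K j :=
        hanti (by omega) (a (j + 1)).2
      have h2 := hpow j (hz' (j + 1))
      have : z = (a (j + 1)).1 - ((a (j + 1)).1 - z) := by
        ring
      rw [this]
      exact Ideal.sub_mem _ h1 h2
    have hxz : x - z ∈ 𝔪 ^ (n + 1) := by
      have h1 := hcauchy 0 (n + 1) (Nat.zero_le _)
      rw [ha0] at h1
      have h2 := hz' (n + 1)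
      have : x - z = (x - (a (n + 1)).1) +
          ((a (n + 1)).1 - z) := by ring
      rw [this]
      exact Ideal.add_mem _ (by simpa using h1) h2
    have : x = z + (x - z) := by ring
    rw [this]
    exact Ideal.add_mem _ (Ideal.mem_sup_left hzJ) (Ideal.mem_sup_right hxz)
  · exact sup_le (iInf_le K n) (hpow n)

end Fermat.Agent.S53
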