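import Mathlib
import Fermat.Prelude.Def_GaloisRep_DeformationRingData
import Fermat.Prelude.Def_GaloisRep_DeformationCondition

set_option autoImplicit false

namespace Fermat.Agent.S53

open IsLocalRing GaloisRep

/-- A family of predicates on `ι`-tuples, one for each local `𝒪`-algebra. -/
abbrev TupleFunctor (𝒪 : Type) [CommRing 𝒪] (ι : Type) : Type 1 :=
  ∀ (A : Type) [CommRing A] [IsLocalRing A] [Algebra 𝒪 A], (ι → A) → Prop

/-- Closure properties (on Artinian test algebras) that make a subfunctor of `A ↦ (ι → A)`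
pro-representable. -/
structure IsProRepFunctor (𝒪 : Type) [CommRing 𝒪] [IsLocalRing 𝒪] {ι : Type}
    (F : TupleFunctor 𝒪 ι) : Prop where
  map : ∀ {A B : Type} [CommRing A] [IsLocalRing A] [Algebra 𝒪 A]
    [CommRing B] [IsLocalRing B] [Algebra 𝒪 B],
    IsArtinianTestAlgebra 𝒪 A → IsArtinianTestAlgebra 𝒪 B →
    ∀ (φ : A →ₐ[𝒪] B) (x : ι → A), F A x → F B (φ ∘ x)
  pair : ∀ {A B C : Type} [CommRing A] [IsLocalRing A] [Algebra 𝒪 A]
    [CommRing B] [IsLocalRing B] [Algebra 𝒪 B] [CommRing C] [IsLocalRing C] [Algebra 𝒪 C],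
    IsArtinianTestAlgebra 𝒪 A → IsArtinianTestAlgebra 𝒪 B → IsArtinianTestAlgebra 𝒪 C →
    ∀ (pA : C →ₐ[𝒪] A) (pB : C →ₐ[𝒪] B), Function.Injective (fun c => (pA c, pB c)) →
    ∀ (z : ι → C), F A (pA ∘ z) → F B (pB ∘ z) → F C z

/-- The `𝒪`-algebra structure on `k[ε]` used in `GaloisRep.TangentFinite`. -/
@[reducible] noncomputable def dualAlg (𝒪 : Type) [CommRing 𝒪] [IsLocalRing 𝒪] :
    Algebra 𝒪 (DualNumber (ResidueField 𝒪)) :=
  ((algebraMap (ResidueField 𝒪) (DualNumber (ResidueField 𝒪))).comp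
      (algebraMap 𝒪 (ResidueField 𝒪))).toAlgebra

/-- The conclusion of the abstract pro-representability theorem. -/
def ProRepresentable (𝒪 : Type) [CommRing 𝒪] [IsLocalRing 𝒪] {ι : Type}
    (F : TupleFunctor 𝒪 ι) : Prop :=
  ∃ (R : Type) (_ : CommRing R) (_ : IsLocalRing R) (_ : IsNoetherianRing R)
    (_ : IsAdicComplete (maximalIdeal R) R) (_ : Algebra 𝒪 R) (_ : IsLocalHom (algebraMap 𝒪 R)),
    Function.Surjective (residue R ∘ algebraMap 𝒪 R) ∧
    ∃ xu : ι → R,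
      (∀ (B : Type) [CommRing B] [IsLocalRing B] [Algebra 𝒪 B], IsArtinianTestAlgebra 𝒪 B →
          ∀ q : R →ₐ[𝒪] B, F B (q ∘ xu)) ∧
      (∀ (A : Type) [CommRing A] [IsLocalRing A] [IsNoetherianRing A]
          [IsAdicComplete (maximalIdeal A) A] [Algebra 𝒪 A] [IsLocalHom (algebraMap 𝒪 A)],
          Function.Surjective (residue A ∘ algebraMap 𝒪 A) →
          ∀ y : ι → A,
            (∀ (B : Type) [CommRing B] [IsLocalRing B] [Algebra 𝒪 B], IsArtinianTestAlgebra 𝒪 B →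
              ∀ q : A →ₐ[𝒪] B, Function.Surjective q → F B (q ∘ y)) →
            ∃! φ : R →ₐ[𝒪] A, φ ∘ xu = y)

end Fermat.Agent.S53
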