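import Fermat.Agent.S53.TestAlg

set_option autoImplicit false
set_option linter.unusedSectionVars false

namespace Fermat.Agent.S53

open IsLocalRing GaloisRep

variable {𝒪 : Type} [CommRing 𝒪] [IsLocalRing 𝒪] {ι : Type}

/-- An ideal `I` of the big polynomial ring is good if the quotient is an Artinian test algebra
and the tautological tuple is an `F`-point. -/
def Good (F : TupleFunctor 𝒪 ι) (I : Ideal (MvPolynomial ι 𝒪)) : Prop :=
  ∃ (_ : IsLocalRing (MvPolynomial ι 𝒪 ⧸ I)), IsArtinianTestAlgebra 𝒪 (MvPolynomial ι 𝒪 ⧸ I) ∧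
    F (MvPolynomial ι 𝒪 ⧸ I) (fun i => Ideal.Quotient.mk I (MvPolynomial.X i))

/-- The maximal ideal of the big polynomial ring given by the unique `k`-point. -/
noncomputable def baseIdeal (x0 : ι → ResidueField 𝒪) : Ideal (MvPolynomial ι 𝒪) :=
  RingHom.ker (MvPolynomial.aeval x0 : MvPolynomial ι 𝒪 →ₐ[𝒪] ResidueField 𝒪)

theorem mem_baseIdeal_iff (x0 : ι → ResidueField 𝒪) (p : MvPolynomial ι 𝒪) :
    p ∈ baseIdeal x0 ↔ MvPolynomial.aeval x0 p = 0 := Iff.rfl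

variable [Finite (ResidueField 𝒪)] {F : TupleFunctor 𝒪 ι} (hF : IsProRepFunctor 𝒪 F)
  {x0 : ι → ResidueField 𝒪} (hx0 : F (ResidueField 𝒪) x0)
  (huniq : ∀ x y, F (ResidueField 𝒪) x → F (ResidueField 𝒪) y → x = y)

omit [Finite (ResidueField 𝒪)] in
theorem exists_sub_algebraMap_mem_baseIdeal (x0 : ι → ResidueField 𝒪) (p : MvPolynomial ι 𝒪) :
    ∃ o : 𝒪, p - algebraMap 𝒪 _ o ∈ baseIdeal x0 := by
  obtain ⟨o, ho⟩ := residue_surjective (MvPolynomial.aeval x0 p)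
  refine ⟨o, ?_⟩
  rw [mem_baseIdeal_iff, map_sub, AlgHom.commutes, ← ho]
  exact sub_self _

omit [Finite (ResidueField 𝒪)] in
theorem algebraMap_mem_baseIdeal_iff (x0 : ι → ResidueField 𝒪) (o : 𝒪) :
    algebraMap 𝒪 (MvPolynomial ι 𝒪) o ∈ baseIdeal x0 ↔ o ∈ maximalIdeal 𝒪 := by
  rw [mem_baseIdeal_iff, AlgHom.commutes]
  exact residue_eq_zero_iff o

include hF in
/-- General criterion: the quotient embeds into a product of two test algebras. -/
theorem good_of_pair {I : Ideal (MvPolynomial ι 𝒪)}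
    {A B : Type} [CommRing A] [IsLocalRing A] [Algebra 𝒪 A]
    [CommRing B] [IsLocalRing B] [Algebra 𝒪 B]
    (hA : IsArtinianTestAlgebra 𝒪 A) (hB : IsArtinianTestAlgebra 𝒪 B)
    (jA : MvPolynomial ι 𝒪 ⧸ I →ₐ[𝒪] A) (jB : MvPolynomial ι 𝒪 ⧸ I →ₐ[𝒪] B)
    (hinj : Function.Injective (fun c => (jA c, jB c)))
    (hres : ∀ c, jA c ∈ maximalIdeal A → jB c ∈ maximalIdeal B)
    (hyA : F A (fun i => jA (Ideal.Quotient.mk I (MvPolynomial.X i))))
    (hyB : F B (fun i => jB (Ideal.Quotient.mk I (MvPolynomial.X i)))) : Good F I := by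
  have := finite_of_isArtinianTestAlgebra hA
  have := finite_of_isArtinianTestAlgebra hB
  have hfin : Finite (MvPolynomial ι 𝒪 ⧸ I) := Finite.of_injective _ hinj
  have := hA.isLocalHom
  obtain ⟨f, hf⟩ := exists_resHom (𝒪 := 𝒪) (A := A) hA.residue_surjective
  obtain ⟨n, hn⟩ := exists_pow_maximalIdeal_eq_bot hA
  obtain ⟨m, hm⟩ := exists_pow_maximalIdeal_eq_bot hB
  obtain ⟨hloc, hC⟩ := isArtinianTestAlgebra_of_nilpotent_ker (𝒪 := 𝒪) (f.comp jA) (by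
    intro c hc
    have h1 : jA c ∈ maximalIdeal A := by
      rw [← hf]
      exact hc
    have h2 := hres c h1
    refine ⟨n + m, hinj ?_⟩
    have h3 : jA c ^ n = 0 := by
      have := Ideal.pow_mem_pow h1 n
      rwa [hn] at this
    have h4 : jB c ^ m = 0 := by
      have := Ideal.pow_mem_pow h2 m
      rwa [hm] at this
    simp [pow_add, h3, h4])
  exact ⟨hloc, hC, hF.pair hA hB hC jA jB hinj _ hyA hyB⟩

include hF in
theorem good_ker_aeval {B : Type} [CommRing B] [IsLocalRing B] [Algebra 𝒪 B]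
    (hB : IsArtinianTestAlgebra 𝒪 B) (y : ι → B) (hy : F B y) :
    Good F (RingHom.ker (MvPolynomial.aeval y : MvPolynomial ι 𝒪 →ₐ[𝒪] B)) := by
  have hinj := Ideal.kerLiftAlg_injective (MvPolynomial.aeval y : MvPolynomial ι 𝒪 →ₐ[𝒪] B)
  have hy' : F B (fun i => Ideal.kerLiftAlg (MvPolynomial.aeval y : MvPolynomial ι 𝒪 →ₐ[𝒪] B)
      (Ideal.Quotient.mk _ (MvPolynomial.X i))) := by
    have : (fun i => Ideal.kerLiftAlg (MvPolynomial.aeval y : MvPolynomial ι 𝒪 →ₐ[𝒪] B)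
      (Ideal.Quotient.mk _ (MvPolynomial.X i))) = y := by
      funext i
      simp
    rwa [this]
  refine good_of_pair hF hB hB (Ideal.kerLiftAlg _) (Ideal.kerLiftAlg _) ?_ (fun _ h => h) hy' hy'
  intro a b hab
  exact hinj (Prod.ext_iff.mp hab).1

include hF hx0 huniq in
/-- `aeval y` maps the base ideal into the maximal ideal, and conversely. -/
theorem aeval_mem_maximalIdeal_iff {B : Type} [CommRing B] [IsLocalRing B] [Algebra 𝒪 B]
    (hB : IsArtinianTestAlgebra 𝒪 B) (y : ι → B) (hy : F B y) (p : MvPolynomial ι 𝒪) :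
    MvPolynomial.aeval y p ∈ maximalIdeal B ↔ p ∈ baseIdeal x0 := by
  have := hB.isLocalHom
  obtain ⟨f, hf⟩ := exists_resHom (𝒪 := 𝒪) (A := B) hB.residue_surjective
  have h1 : (f ∘ y) = x0 :=
    huniq _ _ (hF.map hB isArtinianTestAlgebra_residueField f y hy) hx0
  have h2 : f (MvPolynomial.aeval y p) = MvPolynomial.aeval x0 p := by
    rw [← h1]
    exact MvPolynomial.comp_aeval_apply (R := 𝒪) y f p
  rw [← hf, mem_baseIdeal_iff, ← h2]
  exact Iff.rfl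

include hF hx0 huniq in
/-- `aeval y` maps the base ideal into the maximal ideal. -/
theorem aeval_mem_maximalIdeal {B : Type} [CommRing B] [IsLocalRing B] [Algebra 𝒪 B]
    (hB : IsArtinianTestAlgebra 𝒪 B) (y : ι → B) (hy : F B y) {p : MvPolynomial ι 𝒪}
    (hp : p ∈ baseIdeal x0) : MvPolynomial.aeval y p ∈ maximalIdeal B :=
  (aeval_mem_maximalIdeal_iff hF hx0 huniq hB y hy p).mpr hp

omit [IsLocalRing 𝒪] in
theorem aeval_mk_X (I : Ideal (MvPolynomial ι 𝒪)) (p : MvPolynomial ι 𝒪) :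
    MvPolynomial.aeval (fun i => Ideal.Quotient.mk I (MvPolynomial.X i)) p
      = Ideal.Quotient.mk I p := by
  have h : (MvPolynomial.aeval (fun i => Ideal.Quotient.mk I (MvPolynomial.X i)) :
      MvPolynomial ι 𝒪 →ₐ[𝒪] MvPolynomial ι 𝒪 ⧸ I) = Ideal.Quotient.mkₐ 𝒪 I := by
    apply MvPolynomial.algHom_ext
    intro i
    simp
  rw [h]
  rfl

include hF hx0 huniq in
theorem mk_mem_maximalIdeal_iff {I : Ideal (MvPolynomial ι 𝒪)}
    [IsLocalRing (MvPolynomial ι 𝒪 ⧸ I)] (hT : IsArtinianTestAlgebra 𝒪 (MvPolynomial ι 𝒪 ⧸ I))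
    (hFI : F (MvPolynomial ι 𝒪 ⧸ I) (fun i => Ideal.Quotient.mk I (MvPolynomial.X i)))
    (p : MvPolynomial ι 𝒪) :
    Ideal.Quotient.mk I p ∈ maximalIdeal (MvPolynomial ι 𝒪 ⧸ I) ↔ p ∈ baseIdeal x0 := by
  rw [← aeval_mem_maximalIdeal_iff hF hx0 huniq hT _ hFI p, aeval_mk_X]

include hF hx0 huniq in
theorem Good.le_baseIdeal {I : Ideal (MvPolynomial ι 𝒪)} (hI : Good F I) : I ≤ baseIdeal x0 := by
  obtain ⟨_, hT, hFI⟩ := hI
  intro p hp
  rw [← mk_mem_maximalIdeal_iff hF hx0 huniq hT hFI p, Ideal.Quotient.eq_zero_iff_mem.mpr hp]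
  exact zero_mem _

include hF hx0 huniq in
theorem Good.exists_pow_le {I : Ideal (MvPolynomial ι 𝒪)} (hI : Good F I) :
    ∃ n, baseIdeal x0 ^ n ≤ I := by
  obtain ⟨_, hT, hFI⟩ := hI
  obtain ⟨n, hn⟩ := exists_pow_maximalIdeal_eq_bot hT
  refine ⟨n, ?_⟩
  have h1 : baseIdeal x0 ≤ (maximalIdeal (MvPolynomial ι 𝒪 ⧸ I)).comap (Ideal.Quotient.mk I) :=
    fun p hp => (mk_mem_maximalIdeal_iff hF hx0 huniq hT hFI p).mpr hp
  intro p hp
  have h2 := (Ideal.pow_right_mono h1 n).trans (Ideal.le_comap_pow _ _) hp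
  rw [hn] at h2
  exact Ideal.Quotient.eq_zero_iff_mem.mp h2

include hF hx0 huniq in
theorem Good.inf {I J : Ideal (MvPolynomial ι 𝒪)} (hI : Good F I) (hJ : Good F J) :
    Good F (I ⊓ J) := by
  obtain ⟨_, hTI, hFI⟩ := hI
  obtain ⟨_, hTJ, hFJ⟩ := hJ
  refine good_of_pair hF hTI hTJ (Ideal.Quotient.factorₐ 𝒪 inf_le_left)
    (Ideal.Quotient.factorₐ 𝒪 inf_le_right) ?_ ?_ hFI hFJ
  · intro a b hab
    obtain ⟨a, rfl⟩ := Ideal.Quotient.mk_surjective a
    obtain ⟨b, rfl⟩ := Ideal.Quotient.mk_surjective b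
    obtain ⟨h1, h2⟩ := Prod.ext_iff.mp hab
    have h1' : Ideal.Quotient.mk I a = Ideal.Quotient.mk I b := h1
    have h2' : Ideal.Quotient.mk J a = Ideal.Quotient.mk J b := h2
    rw [Ideal.Quotient.eq] at h1' h2' ⊢
    exact ⟨h1', h2'⟩
  · intro c hc
    obtain ⟨c, rfl⟩ := Ideal.Quotient.mk_surjective c
    have h1 : Ideal.Quotient.mk I c ∈ maximalIdeal (MvPolynomial ι 𝒪 ⧸ I) := hc
    rw [mk_mem_maximalIdeal_iff hF hx0 huniq hTI hFI] at h1
    exact (mk_mem_maximalIdeal_iff hF hx0 huniq hTJ hFJ c).mpr h1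

include hF hx0 huniq in
theorem Good.of_le {I J : Ideal (MvPolynomial ι 𝒪)} (hI : Good F I) (hIJ : I ≤ J)
    (hJ : J ≤ baseIdeal x0) : Good F J := by
  obtain ⟨n, hn⟩ := hI.exists_pow_le hF hx0 huniq
  obtain ⟨_, hT, hFI⟩ := hI
  have := finite_of_isArtinianTestAlgebra hT
  have hfin : Finite (MvPolynomial ι 𝒪 ⧸ J) :=
    Finite.of_surjective _ (Ideal.Quotient.factor_surjective hIJ)
  obtain ⟨hloc, hC⟩ := isArtinianTestAlgebra_of_nilpotent_ker (𝒪 := 𝒪)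
    (Ideal.Quotient.liftₐ J (MvPolynomial.aeval x0 : MvPolynomial ι 𝒪 →ₐ[𝒪] ResidueField 𝒪)
      (fun a ha => hJ ha)) (by
    intro c hc
    obtain ⟨c, rfl⟩ := Ideal.Quotient.mk_surjective c
    have h1 : c ∈ baseIdeal x0 := by
      rw [mem_baseIdeal_iff]
      exact hc
    refine ⟨n, ?_⟩
    rw [← map_pow, Ideal.Quotient.eq_zero_iff_mem]
    exact hIJ (hn (Ideal.pow_mem_pow h1 n)))
  exact ⟨hloc, hC, hF.map hT hC (Ideal.Quotient.factorₐ 𝒪 hIJ) _ hFI⟩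

include hF hx0 in
theorem good_baseIdeal : Good F (baseIdeal x0) :=
  good_ker_aeval hF isArtinianTestAlgebra_residueField x0 hx0

theorem Good.finite {I : Ideal (MvPolynomial ι 𝒪)} (hI : Good F I) :
    Finite (MvPolynomial ι 𝒪 ⧸ I) := by
  obtain ⟨_, h, -⟩ := hI
  exact finite_of_isArtinianTestAlgebra h

end Fermat.Agent.S53
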