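import Mathlib

set_option autoImplicit false

namespace Fermat.Agent.S53

/-- Construction of an algebra hom into an adically complete ring from compatible
"approximation relations" `E n`. -/
theorem exists_algHom_of_approx {𝒪 X A : Type*} [CommRing 𝒪] [CommRing X] [Algebra 𝒪 X]
    [CommRing A] [Algebra 𝒪 A] (𝔞 : Ideal A) [IsAdicComplete 𝔞 A]
    (E : ℕ → X → A → Prop)
    (e0 : ∀ n x, ∃ a, E n x a)
    (e1 : ∀ n x a a', E n x a → E n x a' → a - a' ∈ 𝔞 ^ (n + 1))
    (e2 : ∀ n x a, E (n + 1) x a → E n x a)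
    (eadd : ∀ n x x' a a', E n x a → E n x' a' → E n (x + x') (a + a'))
    (emul : ∀ n x x' a a', E n x a → E n x' a' → E n (x * x') (a * a'))
    (ealg : ∀ n (o : 𝒪), E n (algebraMap 𝒪 X o) (algebraMap 𝒪 A o)) :
    ∃ φ : X →ₐ[𝒪] A, ∀ n x a, E n x a → φ x - a ∈ 𝔞 ^ (n + 1) := by
  classical
  have e2' : ∀ m n x a, m ≤ n → E n x a → E m x a := by
    intro m n x a hmn
    induction hmn with
    | refl => exact id
    | step _ ih => exact fun h => ih (e2 _ x a h)
  choose c hc using e0
  -- the limit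
  have hlim : ∀ x, ∃ L : A, ∀ n a, E n x a → L - a ∈ 𝔞 ^ (n + 1) := by
    intro x
    obtain ⟨L, hL⟩ := IsPrecomplete.prec (I := 𝔞) (M := A) inferInstance (f := fun n => c n x) (by
      intro m n hmn
      rw [SModEq.sub_mem, smul_eq_mul, Ideal.mul_top]
      exact Ideal.pow_le_pow_right (Nat.le_succ m)
        (e1 m x _ _ (hc m x) (e2' m n x _ hmn (hc n x))))
    refine ⟨L, fun n a ha => ?_⟩
    have h1 := hL (n + 1)
    rw [SModEq.sub_mem, smul_eq_mul, Ideal.mul_top] at h1
    have h2 := e1 n x _ _ (e2 n x _ (hc (n + 1) x)) ha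
    have : L - a = -(c (n + 1) x - L) + (c (n + 1) x - a) := by ring
    rw [this]
    exact Ideal.add_mem _ (Ideal.neg_mem_iff _ |>.mpr h1) h2
  choose φ hφ using hlim
  have huniq : ∀ x (L : A), (∀ n, ∃ a, E n x a ∧ L - a ∈ 𝔞 ^ (n + 1)) → φ x = L := by
    intro x L hL
    rw [← sub_eq_zero]
    refine IsHausdorff.haus (I := 𝔞) (M := A) inferInstance _ fun n => ?_
    rw [SModEq.zero, smul_eq_mul, Ideal.mul_top]
    obtain ⟨a, ha, hLa⟩ := hL n
    have h1 := hφ x n a ha
    have : φ x - L = (φ x - a) - (L - a) := by ring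
    rw [this]
    exact Ideal.pow_le_pow_right (Nat.le_succ n) (Ideal.sub_mem _ h1 hLa)
  have halg : ∀ o : 𝒪, φ (algebraMap 𝒪 X o) = algebraMap 𝒪 A o := by
    intro o
    exact huniq _ _ fun n => ⟨_, ealg n o, by simp⟩
  have hadd : ∀ x y, φ (x + y) = φ x + φ y := by
    intro x y
    refine huniq _ _ fun n => ⟨_, eadd n x y _ _ (hc n x) (hc n y), ?_⟩
    have : φ x + φ y - (c n x + c n y) = (φ x - c n x) + (φ y - c n y) := by ring
    rw [this]
    exact Ideal.add_mem _ (hφ x n _ (hc n x)) (hφ y n _ (hc n y))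
  have hmul : ∀ x y, φ (x * y) = φ x * φ y := by
    intro x y
    refine huniq _ _ fun n => ⟨_, emul n x y _ _ (hc n x) (hc n y), ?_⟩
    have : φ x * φ y - (c n x * c n y) = (φ x - c n x) * φ y + c n x * (φ y - c n y) := by ring
    rw [this]
    exact Ideal.add_mem _ (Ideal.mul_mem_right _ _ (hφ x n _ (hc n x)))
      (Ideal.mul_mem_left _ _ (hφ y n _ (hc n y)))
  refine ⟨{ toFun := φ
            map_one' := by simpa using halg 1
            map_mul' := hmul
            map_zero' := by simpa using halg 0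
            map_add' := hadd
            commutes' := halg }, fun n x a ha => hφ x n a ha⟩

end Fermat.Agent.S53
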