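import Fermat.Agent.S53.PowerSeriesComplete
import Fermat.Agent.S53.GraphLift
import Fermat.Agent.S53.Chain
import Fermat.Prelude.Thm_IsLocalRing_isAdicComplete_of_module_finite

set_option autoImplicit false

namespace Fermat.Agent.S53

open IsLocalRing

/-- A proper quotient of a complete Noetherian local ring is again one. -/
theorem quotient_complete {Λ : Type} [CommRing Λ] [IsLocalRing Λ] [IsNoetherianRing Λ]
    [IsAdicComplete (maximalIdeal Λ) Λ] (J : Ideal Λ) (hJ : J ≠ ⊤) :
    ∃ (_ : IsLocalRing (Λ ⧸ J)), IsAdicComplete (maximalIdeal (Λ ⧸ J)) (Λ ⧸ J) ∧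
      maximalIdeal (Λ ⧸ J) = (maximalIdeal Λ).map (Ideal.Quotient.mk J) := by
  have : Nontrivial (Λ ⧸ J) := Ideal.Quotient.nontrivial_iff.mpr hJ
  have hloc := IsLocalRing.of_surjective' (Ideal.Quotient.mk J) Ideal.Quotient.mk_surjective
  have : IsLocalHom (algebraMap Λ (Λ ⧸ J)) :=
    IsLocalHom.of_surjective (Ideal.Quotient.mk J) Ideal.Quotient.mk_surjective
  refine ⟨hloc, IsLocalRing.isAdicComplete_of_module_finite (𝒪 := Λ), ?_⟩
  exact (map_maximalIdeal_of_surjective (Ideal.Quotient.mk J) Ideal.Quotient.mk_surjective).symm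

section
variable {σ : Type*} [Finite σ] {R : Type*} [CommRing R] [IsLocalRing R]

open MvPowerSeries in
lemma maximalIdeal_mvPowerSeries_le :
    maximalIdeal (MvPowerSeries σ R) ≤
      (maximalIdeal R).map (algebraMap R (MvPowerSeries σ R)) ⊔ Ideal.span (Set.range X) := by
  intro f hf
  have hc : constantCoeff f ∈ maximalIdeal R := (mem_maximalIdeal_mvPowerSeries_iff f).mp hf
  have hsplit : f = algebraMap R (MvPowerSeries σ R) (constantCoeff f) +
      (f - algebraMap R (MvPowerSeries σ R) (constantCoeff f)) := by ring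
  rw [hsplit]
  refine Ideal.add_mem _ (Ideal.mem_sup_left (Ideal.mem_map_of_mem _ hc)) (Ideal.mem_sup_right ?_)
  have := mem_span_X_pow_of_coeff_eq_zero (n := 1)
    (f - algebraMap R (MvPowerSeries σ R) (constantCoeff f)) (fun x hx => by
      have hx0 : x = 0 := by
        have : Finsupp.degree x = 0 := by omega
        simpa [Finsupp.degree_eq_zero_iff] using this
      subst hx0
      rw [map_sub, ← c_eq_algebraMap]
      simp)
  simpa using this

open MvPowerSeries in
lemma maximalIdeal_mvPowerSeries_le_comap {B : Type*} [CommRing B] [Algebra R B]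
    (π : MvPowerSeries σ R →ₐ[R] B) (N : Ideal B)
    (h1 : ∀ o ∈ maximalIdeal R, algebraMap R B o ∈ N) (h2 : ∀ i, π (X i) ∈ N) :
    maximalIdeal (MvPowerSeries σ R) ≤ N.comap π := by
  refine le_trans maximalIdeal_mvPowerSeries_le (sup_le ?_ ?_)
  · rw [Ideal.map_le_iff_le_comap]
    intro o ho
    rw [Ideal.mem_comap, Ideal.mem_comap, AlgHom.commutes]
    exact h1 o ho
  · rw [Ideal.span_le]
    rintro _ ⟨i, rfl⟩
    exact h2 i

end

end Fermat.Agent.S53
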