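import Fermat.Agent.S53.Defs

set_option autoImplicit false

namespace Fermat.Agent.S53

open IsLocalRing GaloisRep

/-- The absolute Galois group of `ℚ`. -/
abbrev Gal : Type := AlgebraicClosure ℚ ≃ₐ[ℚ] AlgebraicClosure ℚ

/-- Index set of matrix entries of a 2-dimensional matrix representation of `Gal`. -/
abbrev Idx : Type := Gal × Fin 2 × Fin 2

/-- The matrix-valued function attached to a tuple. -/
def mat {A : Type} (x : Idx → A) (σ : Gal) : Matrix (Fin 2) (Fin 2) A :=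
  Matrix.of fun i j => x (σ, i, j)

@[simp] lemma mat_apply {A : Type} (x : Idx → A) (σ : Gal) (i j : Fin 2) :
    mat x σ i j = x (σ, i, j) := rfl

lemma mat_comp {A B : Type} (f : A → B) (x : Idx → A) (σ : Gal) :
    mat (f ∘ x) σ = (mat x σ).map f := rfl

lemma ext_of_mat {A : Type} {x y : Idx → A} (h : ∀ σ, mat x σ = mat y σ) : x = y := by
  funext ⟨σ, i, j⟩
  exact congrFun (congrFun (h σ) i) j

/-- Rigidification datum: set-theoretic lift `Mt` to `𝒪` of the residual matrices, two group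
elements `g0`, `g1` and an entry `(i0, j0)`. -/
structure RigidDatum (𝒪 : Type) [CommRing 𝒪] [IsLocalRing 𝒪] where
  Mt : Gal → Matrix (Fin 2) (Fin 2) 𝒪
  g0 : Gal
  g1 : Gal
  i0 : Fin 2
  j0 : Fin 2
  h00 : Mt g0 0 0 ∈ maximalIdeal 𝒪
  h10 : Mt g0 1 0 - 1 ∈ maximalIdeal 𝒪
  hcomm : IsUnit ((Mt g0 * Mt g1 - Mt g1 * Mt g0) i0 j0)

/-- `x` is (the tuple of entries of) an adically continuous matrix representation. -/
structure IsMatRep {A : Type} [CommRing A] [IsLocalRing A] (x : Idx → A) : Prop where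
  map_one : mat x 1 = 1
  map_mul : ∀ σ τ, mat x (σ * τ) = mat x σ * mat x τ
  cont : ∀ n : ℕ, ∃ L : IntermediateField ℚ (AlgebraicClosure ℚ), FiniteDimensional ℚ L ∧
    ∀ σ : Gal, (∀ a ∈ L, σ a = a) → ∀ i j, (mat x σ - 1) i j ∈ maximalIdeal A ^ n

/-- `x` reduces to the residual matrices. -/
def IsLiftOf {𝒪 : Type} [CommRing 𝒪] [IsLocalRing 𝒪] (D : RigidDatum 𝒪)
    {A : Type} [CommRing A] [IsLocalRing A] [Algebra 𝒪 A] (x : Idx → A) : Prop :=
  ∀ σ i j, x (σ, i, j) - algebraMap 𝒪 A (D.Mt σ i j) ∈ maximalIdeal A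

/-- Normalisation conditions killing the conjugation ambiguity. -/
structure IsNormalized {𝒪 : Type} [CommRing 𝒪] [IsLocalRing 𝒪] (D : RigidDatum 𝒪)
    {A : Type} [CommRing A] [Algebra 𝒪 A] (x : Idx → A) : Prop where
  n00 : x (D.g0, 0, 0) = 0
  n10 : x (D.g0, 1, 0) = 1
  n1 : x (D.g1, D.i0, D.j0) = algebraMap 𝒪 A (D.Mt D.g1 D.i0 D.j0)

lemma mulVec_mem_smul_top {A : Type} [CommRing A] (I : Ideal A) (W : Matrix (Fin 2) (Fin 2) A)
    (hW : ∀ i j, W i j ∈ I) (v : Fin 2 → A) :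
    W.mulVec v ∈ I • (⊤ : Submodule A (Fin 2 → A)) := by
  have h2 : W.mulVec v = ∑ i, (W.mulVec v i) • (Pi.single i (1 : A) : Fin 2 → A) := by
    funext k
    simp [Finset.sum_apply, Pi.single_apply]
  rw [h2]
  refine Submodule.sum_mem _ fun i _ => Submodule.smul_mem_smul ?_ Submodule.mem_top
  change ∑ j, W i j * v j ∈ I
  exact Ideal.sum_mem _ fun j _ => Ideal.mul_mem_right _ _ (hW i j)

/-- The `GaloisRepAdic` on `A²` attached to a matrix representation. -/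
noncomputable def ofMat {A : Type} [CommRing A] [IsLocalRing A] (x : Idx → A) (h : IsMatRep x) :
    GaloisRepAdic A where
  V := Fin 2 → A
  finrank_eq := by simp
  ρ :=
    { toFun := fun σ => Matrix.mulVecLin (mat x σ)
      map_one' := by rw [h.map_one, Matrix.mulVecLin_one]; rfl
      map_mul' := fun σ τ => by rw [h.map_mul, Matrix.mulVecLin_mul]; rfl }
  isAdicContinuous := by
    intro n
    obtain ⟨L, hL, hσ⟩ := h.cont n
    refine ⟨L, hL, fun σ hs v => ?_⟩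
    have key : (Matrix.mulVecLin (mat x σ)) v - v = (mat x σ - 1).mulVec v := by
      rw [Matrix.sub_mulVec, Matrix.one_mulVec]; rfl
    change (Matrix.mulVecLin (mat x σ)) v - v ∈ _
    rw [key]
    exact mulVec_mem_smul_top _ _ (hσ σ hs) v

@[simp] lemma ofMat_ρ_apply {A : Type} [CommRing A] [IsLocalRing A] (x : Idx → A) (h : IsMatRep x)
    (σ : Gal) (v : Fin 2 → A) : (ofMat x h).ρ σ v = (mat x σ).mulVec v := rfl

/-- `D` is a rigidification datum for `ρbar`: the reductions of `D.Mt σ` are the matrices of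
`ρbar σ` in some basis. -/
def RigidDatum.IsDatumFor {𝒪 : Type} [CommRing 𝒪] [IsLocalRing 𝒪] (D : RigidDatum 𝒪)
    (ρbar : ResidualGaloisRep (ResidueField 𝒪)) : Prop :=
  ∃ b : Module.Basis (Fin 2) (ResidueField 𝒪) ρbar.V,
    ∀ σ i j, residue 𝒪 (D.Mt σ i j) = LinearMap.toMatrix b b (ρbar.ρ σ) i j

/-- The functor of normalised matrix lifts of type `𝒟`. -/
def defFunctor {𝒪 : Type} [CommRing 𝒪] [IsLocalRing 𝒪] (D : RigidDatum 𝒪)
    (𝒟 : ∀ ⦃A : Type⦄ [CommRing A] [IsLocalRing A] [Algebra 𝒪 A], GaloisRepAdic A → Prop) :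
    TupleFunctor 𝒪 Idx :=
  fun _ _ _ _ x => ∃ h : IsMatRep x, IsLiftOf D x ∧ IsNormalized D x ∧ 𝒟 (ofMat x h)

lemma isEquiv_symm {A : Type} [CommRing A] [IsLocalRing A] {ρ ρ' : GaloisRepAdic A}
    (h : ρ.IsEquiv ρ') : ρ'.IsEquiv ρ := h.elim fun e => ⟨e.symm⟩

lemma isEquiv_trans {A : Type} [CommRing A] [IsLocalRing A] {ρ ρ' ρ'' : GaloisRepAdic A}
    (h : ρ.IsEquiv ρ') (h' : ρ'.IsEquiv ρ'') : ρ.IsEquiv ρ'' :=
  h.elim fun e => h'.elim fun e' => ⟨e.trans e'⟩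

lemma isEquiv_baseChangeAlong {A B : Type} [CommRing A] [IsLocalRing A] [CommRing B]
    [IsLocalRing B] (φ : A →+* B) (hφ : IsLocalHom φ) {ρ ρ' : GaloisRepAdic A}
    (h : ρ.IsEquiv ρ') : (ρ.baseChangeAlong φ hφ).IsEquiv (ρ'.baseChangeAlong φ hφ) :=
  h.elim fun e => ⟨e.baseChangeAlong φ hφ⟩

lemma IsLiftOf.comp {𝒪 : Type} [CommRing 𝒪] [IsLocalRing 𝒪] {D : RigidDatum 𝒪}
    {A B : Type} [CommRing A] [IsLocalRing A] [Algebra 𝒪 A] [CommRing B] [IsLocalRing B]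
    [Algebra 𝒪 B] (φ : A →ₐ[𝒪] B) (hφ : IsLocalHom (φ : A →+* B)) {x : Idx → A}
    (h : IsLiftOf D x) : IsLiftOf D (φ ∘ x) := by
  intro σ i j
  have h1 := h σ i j
  have h2 : (φ : A →+* B) (x (σ, i, j) - algebraMap 𝒪 A (D.Mt σ i j)) ∈ maximalIdeal B :=
    map_nonunit (φ : A →+* B) _ h1
  simpa using h2

lemma IsNormalized.comp {𝒪 : Type} [CommRing 𝒪] [IsLocalRing 𝒪] {D : RigidDatum 𝒪}
    {A B : Type} [CommRing A] [Algebra 𝒪 A] [CommRing B] [Algebra 𝒪 B] (φ : A →ₐ[𝒪] B)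
    {x : Idx → A} (h : IsNormalized D x) : IsNormalized D (φ ∘ x) where
  n00 := by simp [h.n00]
  n10 := by simp [h.n10]
  n1 := by simp [h.n1]

end Fermat.Agent.S53
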