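import Mathlib

set_option autoImplicit false

namespace Fermat.Agent.S53

open IsLocalRing MvPowerSeries Finsupp

section Complete

variable {σ : Type*} [Finite σ] {R : Type*} [CommRing R] [IsLocalRing R]

omit [Finite σ] in
/-- membership in the maximal ideal of a power series ring -/
lemma mem_maximalIdeal_mvPowerSeries_iff (f : MvPowerSeries σ R) :
    f ∈ maximalIdeal (MvPowerSeries σ R) ↔ constantCoeff f ∈ maximalIdeal R := by
  rw [mem_maximalIdeal, mem_maximalIdeal, mem_nonunits_iff, mem_nonunits_iff,
    MvPowerSeries.isUnit_iff_constantCoeff]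

/-- the coefficient filtration -/
def coeffFilt (σ : Type*) (R : Type*) [CommRing R] [IsLocalRing R] (n : ℕ) :
    Ideal (MvPowerSeries σ R) where
  carrier := {f | ∀ x : σ →₀ ℕ, coeff x f ∈ maximalIdeal R ^ (n - degree x)}
  add_mem' := by
    intro f g hf hg x
    rw [map_add]
    exact Ideal.add_mem _ (hf x) (hg x)
  zero_mem' := by
    intro x
    simp
  smul_mem' := by
    classical
    intro c f hf x
    rw [smul_eq_mul, coeff_mul]
    refine Ideal.sum_mem _ fun p hp => ?_
    have hp' : p.1 + p.2 = x := by simpa using hp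
    have hle : n - degree x ≤ n - degree p.2 := by
      have : degree p.2 ≤ degree x := by
        rw [← hp', map_add]; omega
      omega
    exact Ideal.mul_mem_left _ _ (Ideal.pow_le_pow_right hle (hf p.2))

omit [Finite σ] in
lemma mem_coeffFilt {n : ℕ} {f : MvPowerSeries σ R} :
    f ∈ coeffFilt σ R n ↔ ∀ x : σ →₀ ℕ, coeff x f ∈ maximalIdeal R ^ (n - degree x) := Iff.rfl

omit [Finite σ] in
lemma coeffFilt_mul_le (a b : ℕ) :
    coeffFilt σ R a * coeffFilt σ R b ≤ coeffFilt σ R (a + b) := by
  classical
  rw [Ideal.mul_le]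
  intro f hf g hg x
  rw [coeff_mul]
  refine Ideal.sum_mem _ fun p hp => ?_
  have hp' : p.1 + p.2 = x := by simpa using hp
  have hdeg : degree x = degree p.1 + degree p.2 := by rw [← hp', map_add]
  have hle : a + b - degree x ≤ (a - degree p.1) + (b - degree p.2) := by omega
  refine Ideal.pow_le_pow_right hle ?_
  rw [pow_add]
  exact Ideal.mul_mem_mul (hf p.1) (hg p.2)

omit [Finite σ] in
lemma maximalIdeal_pow_le_coeffFilt (n : ℕ) :
    maximalIdeal (MvPowerSeries σ R) ^ n ≤ coeffFilt σ R n := by
  induction n with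
  | zero =>
    intro f _ x
    simp
  | succ n ih =>
    rw [pow_succ]
    refine le_trans (Ideal.mul_mono ih ?_) (coeffFilt_mul_le n 1)
    intro f hf x
    by_cases hx : x = 0
    · subst hx
      have : constantCoeff f ∈ maximalIdeal R := by
        rw [mem_maximalIdeal, mem_nonunits_iff] at hf ⊢
        rwa [MvPowerSeries.isUnit_iff_constantCoeff] at hf
      simpa using this
    · have : 1 - degree x = 0 := by
        have : degree x ≠ 0 := by
          simpa [Finsupp.degree_eq_zero_iff] using hx
        omega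
      rw [this]
      simp

omit [IsLocalRing R] in
lemma mem_span_X_pow_of_coeff_eq_zero {n : ℕ} (g : MvPowerSeries σ R)
    (hg : ∀ x : σ →₀ ℕ, degree x < n → coeff x g = 0) :
    g ∈ (Ideal.span (Set.range X) : Ideal (MvPowerSeries σ R)) ^ n := by
  have h1 : toAdicCompletionAlgEquiv σ R g ∈
      (AdicCompletion.eval (MvPolynomial.idealOfVars σ R) (MvPolynomial σ R) n).ker := by
    rw [LinearMap.mem_ker]
    change (toAdicCompletion σ R g).val n = 0
    rw [toAdicCompletion_apply_eq_mk_truncTotal]
    have : truncTotal n g = 0 := by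
      ext x
      rw [coeff_truncTotal_eq_ite]
      split_ifs with h
      · simpa using hg x h
      · simp
    rw [this]
    simp
  rw [← AdicCompletion.pow_smul_top_eq_ker_eval (MvPolynomial.idealOfVars_fg σ R)] at h1
  have h2 : g ∈ MvPolynomial.idealOfVars σ R ^ n •
      (⊤ : Submodule (MvPolynomial σ R) (MvPowerSeries σ R)) := by
    have := Submodule.mem_map_of_mem (f := (toAdicCompletionAlgEquiv σ R).symm.toLinearMap) h1
    rw [Submodule.map_smul''] at this
    have h3 : (toAdicCompletionAlgEquiv σ R).symm.toLinearMap (toAdicCompletionAlgEquiv σ R g) = g :=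
      (toAdicCompletionAlgEquiv σ R).symm_apply_apply g
    rw [h3] at this
    exact Submodule.smul_mono le_rfl le_top this
  have hmap : (MvPolynomial.idealOfVars σ R ^ n).map
      (algebraMap (MvPolynomial σ R) (MvPowerSeries σ R)) ≤
      (Ideal.span (Set.range X) : Ideal (MvPowerSeries σ R)) ^ n := by
    rw [Ideal.map_pow]
    refine Ideal.pow_right_mono ?_ n
    rw [Ideal.map_span, Ideal.span_le]
    rintro _ ⟨_, ⟨i, rfl⟩, rfl⟩
    refine Ideal.subset_span ⟨i, ?_⟩
    exact (MvPolynomial.coe_X i).symm
  refine Submodule.smul_induction_on h2 ?_ ?_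
  · intro p hp x _
    rw [Algebra.smul_def]
    exact Ideal.mul_mem_right _ _ (hmap (Ideal.mem_map_of_mem _ hp))
  · intro x y hx hy
    exact Ideal.add_mem _ hx hy

omit [Finite σ] in
lemma X_mem_maximalIdeal (i : σ) : (X i : MvPowerSeries σ R) ∈ maximalIdeal (MvPowerSeries σ R) := by
  rw [mem_maximalIdeal_mvPowerSeries_iff]
  simp

omit [Finite σ] in
lemma monomial_one_mem (x : σ →₀ ℕ) :
    monomial x (1 : R) ∈ maximalIdeal (MvPowerSeries σ R) ^ (degree x) := by
  induction x using Finsupp.induction_linear with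
  | zero => simp
  | add x y hx hy =>
    rw [map_add, pow_add]
    have : monomial (x + y) (1 : R) = monomial x 1 * monomial y 1 := by
      rw [monomial_mul_monomial, one_mul]
    rw [this]
    exact Ideal.mul_mem_mul hx hy
  | single i k =>
    rw [← X_pow_eq, Finsupp.degree_single]
    exact Ideal.pow_mem_pow (X_mem_maximalIdeal i) k

omit [Finite σ] in
lemma C_mem_of_mem {k : ℕ} {a : R} (ha : a ∈ maximalIdeal R ^ k) :
    (C a : MvPowerSeries σ R) ∈ maximalIdeal (MvPowerSeries σ R) ^ k := by
  have hle : (maximalIdeal R).map (C : R →+* MvPowerSeries σ R) ≤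
      maximalIdeal (MvPowerSeries σ R) := by
    rw [Ideal.map_le_iff_le_comap]
    intro b hb
    rw [Ideal.mem_comap, mem_maximalIdeal_mvPowerSeries_iff]
    simpa using hb
  have := Ideal.mem_map_of_mem (C : R →+* MvPowerSeries σ R) ha
  rw [Ideal.map_pow] at this
  exact Ideal.pow_right_mono hle k this

omit [Finite σ] in
lemma monomial_mem {k : ℕ} {a : R} (x : σ →₀ ℕ) (ha : a ∈ maximalIdeal R ^ k) :
    monomial x a ∈ maximalIdeal (MvPowerSeries σ R) ^ (k + degree x) := by
  have : monomial x a = C a * monomial x (1 : R) := by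
    rw [← monomial_zero_eq_C_apply, monomial_mul_monomial, zero_add, mul_one]
  rw [this, pow_add]
  exact Ideal.mul_mem_mul (C_mem_of_mem ha) (monomial_one_mem x)

lemma coeffFilt_le_maximalIdeal_pow (n : ℕ) :
    coeffFilt σ R n ≤ maximalIdeal (MvPowerSeries σ R) ^ n := by
  intro f hf
  have hsplit : f = (truncTotal n f : MvPowerSeries σ R) + (f - (truncTotal n f : MvPowerSeries σ R)) := by
    ring
  rw [hsplit]
  refine Ideal.add_mem _ ?_ ?_
  · rw [← MvPolynomial.support_sum_monomial_coeff (truncTotal n f),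
      ← MvPolynomial.coeToMvPowerSeries.ringHom_apply, map_sum]
    refine Ideal.sum_mem _ fun x _ => ?_
    rw [MvPolynomial.coeToMvPowerSeries.ringHom_apply, MvPolynomial.coe_monomial,
      coeff_truncTotal_eq_ite]
    split_ifs with h
    · have := monomial_mem x (hf x)
      rwa [Nat.sub_add_cancel h.le] at this
    · simp
  · have hle : (Ideal.span (Set.range X) : Ideal (MvPowerSeries σ R)) ≤
        maximalIdeal (MvPowerSeries σ R) := by
      rw [Ideal.span_le]
      rintro _ ⟨i, rfl⟩
      exact X_mem_maximalIdeal i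
    refine Ideal.pow_right_mono hle n (mem_span_X_pow_of_coeff_eq_zero _ fun x hx => ?_)
    rw [map_sub, MvPolynomial.coeff_coe, coeff_truncTotal _ hx, sub_self]

lemma maximalIdeal_pow_eq_coeffFilt (n : ℕ) :
    maximalIdeal (MvPowerSeries σ R) ^ n = coeffFilt σ R n :=
  le_antisymm (maximalIdeal_pow_le_coeffFilt n) (coeffFilt_le_maximalIdeal_pow n)

instance isAdicComplete_mvPowerSeries [IsAdicComplete (maximalIdeal R) R] :
    IsAdicComplete (maximalIdeal (MvPowerSeries σ R)) (MvPowerSeries σ R) where
  haus' := by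
    intro f hf
    ext x
    rw [map_zero]
    refine IsHausdorff.haus (I := maximalIdeal R) inferInstance _ fun n => ?_
    have h := hf (n + degree x)
    rw [SModEq.zero, smul_eq_mul, Ideal.mul_top, maximalIdeal_pow_eq_coeffFilt] at h
    have := h x
    rw [Nat.add_sub_cancel] at this
    rw [SModEq.zero, smul_eq_mul, Ideal.mul_top]
    exact this
  prec' := by
    intro f hf
    have hcoef : ∀ x : σ →₀ ℕ, ∃ L : R, ∀ n : ℕ,
        coeff x (f (n + degree x)) ≡ L [SMOD (maximalIdeal R ^ n • ⊤ : Submodule R R)] := by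
      intro x
      refine IsPrecomplete.prec (I := maximalIdeal R) inferInstance (f := fun n => coeff x (f (n + degree x))) ?_
      intro m n hmn
      have h := hf (m := m + degree x) (n := n + degree x) (by omega)
      rw [SModEq.sub_mem, smul_eq_mul, Ideal.mul_top, maximalIdeal_pow_eq_coeffFilt] at h
      have := h x
      rw [Nat.add_sub_cancel, map_sub] at this
      rw [SModEq.sub_mem, smul_eq_mul, Ideal.mul_top]
      exact this
    choose L hL using hcoef
    refine ⟨(show MvPowerSeries σ R from fun x => L x), fun n => ?_⟩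
    rw [SModEq.sub_mem, smul_eq_mul, Ideal.mul_top, maximalIdeal_pow_eq_coeffFilt]
    intro x
    by_cases hx : degree x ≤ n
    · have h := hL x (n - degree x)
      rw [Nat.sub_add_cancel hx, SModEq.sub_mem, smul_eq_mul, Ideal.mul_top] at h
      rw [map_sub]
      exact h
    · have : n - degree x = 0 := by omega
      rw [this]
      simp

end Complete

section Eval

variable {σ : Type*} [Finite σ] {R : Type*} [CommRing R]
variable {B : Type*} [CommRing B] [Algebra R B]

lemma idealOfVars_pow_le_ker_aeval (b : σ → B) {n : ℕ}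
    (hb : (Ideal.span (Set.range b)) ^ n = ⊥) :
    ∀ p ∈ MvPolynomial.idealOfVars σ R ^ n, MvPolynomial.aeval b p = 0 := by
  intro p hp
  have h1 := Ideal.mem_map_of_mem (MvPolynomial.aeval (R := R) b).toRingHom hp
  rw [Ideal.map_pow, Ideal.map_span, ← Set.range_comp] at h1
  have h2 : ((MvPolynomial.aeval (R := R) b).toRingHom ∘ MvPolynomial.X) = b := by
    funext i
    simp
  rw [h2, hb] at h1
  simpa using h1

/-- evaluation of power series at a nilpotent family -/
noncomputable def evalNilp (b : σ → B) {n : ℕ} (hb : (Ideal.span (Set.range b)) ^ n = ⊥) :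
    MvPowerSeries σ R →ₐ[R] B :=
  (Ideal.Quotient.liftₐ (MvPolynomial.idealOfVars σ R ^ n) (MvPolynomial.aeval (R := R) b)
    (idealOfVars_pow_le_ker_aeval b hb)).comp
    ((truncTotalAlgHom σ R n).restrictScalars R)

lemma evalNilp_coe (b : σ → B) {n : ℕ} (hb : (Ideal.span (Set.range b)) ^ n = ⊥)
    (p : MvPolynomial σ R) :
    evalNilp (R := R) b hb (p : MvPowerSeries σ R) = MvPolynomial.aeval b p := by
  have h : truncTotalAlgHom σ R n (p : MvPowerSeries σ R) =
      Ideal.Quotient.mk (MvPolynomial.idealOfVars σ R ^ n) p :=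
    (truncTotalAlgHom σ R n).commutes p
  simp only [evalNilp, AlgHom.comp_apply, AlgHom.restrictScalars_apply]
  rw [h]
  exact Ideal.Quotient.liftₐ_apply _ _ _ _

lemma evalNilp_X (b : σ → B) {n : ℕ} (hb : (Ideal.span (Set.range b)) ^ n = ⊥) (i : σ) :
    evalNilp (R := R) b hb (X i) = b i := by
  rw [← MvPolynomial.coe_X, evalNilp_coe, MvPolynomial.aeval_X]

/-- two algebra homs out of a power series ring agreeing on the variables agree, when
the images of the variables generate a nilpotent ideal -/
lemma algHom_ext_of_nilp (f f' : MvPowerSeries σ R →ₐ[R] B) {n : ℕ}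
    (hb : (Ideal.span (Set.range fun i => f (X i))) ^ n = ⊥)
    (h : ∀ i, f (X i) = f' (X i)) : f = f' := by
  have hkill : ∀ (φ : MvPowerSeries σ R →ₐ[R] B), (∀ i, f (X i) = φ (X i)) →
      ∀ g ∈ (Ideal.span (Set.range X) : Ideal (MvPowerSeries σ R)) ^ n, φ g = 0 := by
    intro φ hφ g hg
    have h1 := Ideal.mem_map_of_mem φ.toRingHom hg
    rw [Ideal.map_pow, Ideal.map_span, ← Set.range_comp] at h1
    have h2 : (φ.toRingHom ∘ X) = fun i => f (X i) := by
      funext i
      simp [hφ i]
    rw [h2, hb] at h1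
    simpa using h1
  have hpoly : ∀ p : MvPolynomial σ R, f (p : MvPowerSeries σ R) = f' (p : MvPowerSeries σ R) := by
    intro p
    have e1 : (f.comp (MvPolynomial.coeToMvPowerSeries.algHom (R := R) (σ := σ) R)) =
        (f'.comp (MvPolynomial.coeToMvPowerSeries.algHom (R := R) (σ := σ) R)) := by
      apply MvPolynomial.algHom_ext
      intro i
      simpa using h i
    simpa using congrArg (fun φ => φ p) e1
  ext g
  have hsplit : g = (truncTotal n g : MvPowerSeries σ R) + (g - (truncTotal n g : MvPowerSeries σ R)) := by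
    ring
  have hmem : g - (truncTotal n g : MvPowerSeries σ R) ∈
      (Ideal.span (Set.range X) : Ideal (MvPowerSeries σ R)) ^ n :=
    mem_span_X_pow_of_coeff_eq_zero _ fun x hx => by
      rw [map_sub, MvPolynomial.coeff_coe, coeff_truncTotal _ hx, sub_self]
  rw [hsplit, map_add, map_add, hpoly, hkill f (fun _ => rfl) _ hmem, hkill f' h _ hmem]

end Eval

end Fermat.Agent.S53
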