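import Fermat.Agent.S53.Good

set_option autoImplicit false
set_option linter.style.haveILetI false

namespace Fermat.Agent.S53

open IsLocalRing GaloisRep

variable {𝒪 : Type} [CommRing 𝒪] [IsLocalRing 𝒪] {ι : Type}

/-- (T3) Enough maps to the dual numbers: a test algebra with `m² = 0` and `m_𝒪 A = 0`. -/
theorem exists_algHom_dualNumber_ne_zero {A : Type} [CommRing A] [IsLocalRing A] [Algebra 𝒪 A]
    (hA : IsArtinianTestAlgebra 𝒪 A) (hsq : ∀ a ∈ maximalIdeal A, ∀ b ∈ maximalIdeal A, a * b = 0)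
    (hO : ∀ o ∈ maximalIdeal 𝒪, algebraMap 𝒪 A o = 0) (a : A) (ha : a ≠ 0) :
    letI := dualAlg 𝒪
    ∃ h : A →ₐ[𝒪] DualNumber (ResidueField 𝒪), h a ≠ 0 := by
  letI := dualAlg 𝒪
  have := hA.isLocalHom
  obtain ⟨f, hf⟩ := exists_resHom (𝒪 := 𝒪) (A := A) hA.residue_surjective
  let s : ResidueField 𝒪 →+* A := Ideal.Quotient.lift (maximalIdeal 𝒪) (algebraMap 𝒪 A) hO
  have hs : ∀ o : 𝒪, s (residue 𝒪 o) = algebraMap 𝒪 A o := fun o => rfl
  have hfs : ∀ c, f (s c) = c := by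
    intro c
    obtain ⟨o, rfl⟩ := residue_surjective c
    rw [hs, AlgHom.commutes]; rfl
  have hmem : ∀ x : A, x - s (f x) ∈ maximalIdeal A := by
    intro x
    rw [← hf, RingHom.mem_ker]
    simp [hfs]
  letI : Module (ResidueField 𝒪) A := Module.compHom A s
  have hsmul : ∀ (c : ResidueField 𝒪) (x : A), c • x = s c * x := fun c x => rfl
  obtain ⟨l, hl⟩ : ∃ l : Module.Dual (ResidueField 𝒪) A, l a ≠ 0 := by
    by_contra hcon
    push Not at hcon
    exact ha ((Module.forall_dual_apply_eq_zero_iff (ResidueField 𝒪) a).mp hcon)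
  let h0 : A →+* DualNumber (ResidueField 𝒪) :=
    { toFun := fun x => TrivSqZeroExt.inl (f x) + TrivSqZeroExt.inr (l (x - s (f x)))
      map_one' := by
        apply TrivSqZeroExt.ext
        · simp
        · simp
      map_zero' := by
        apply TrivSqZeroExt.ext
        · simp
        · simp
      map_add' := by
        intro x y
        apply TrivSqZeroExt.ext
        · simp
        · have : x + y - s (f (x + y)) = (x - s (f x)) + (y - s (f y)) := by
            rw [map_add, map_add]; ring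
          rw [this, map_add]
          simp
      map_mul' := by
        intro x y
        apply TrivSqZeroExt.ext
        · simp
        · have h1 : x * y - s (f (x * y))
              = f x • (y - s (f y)) + f y • (x - s (f x)) := by
            have h2 := hsq _ (hmem x) _ (hmem y)
            rw [hsmul, hsmul, map_mul, map_mul]
            linear_combination h2
          rw [h1, map_add, map_smul, map_smul]
          simp [mul_comm] }
  refine ⟨{ h0 with
            commutes' := ?_ }, ?_⟩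
  · intro o
    apply TrivSqZeroExt.ext
    · change (TrivSqZeroExt.inl (f (algebraMap 𝒪 A o)) + TrivSqZeroExt.inr
        (l (algebraMap 𝒪 A o - s (f (algebraMap 𝒪 A o)))) : DualNumber (ResidueField 𝒪)).fst = _
      rw [AlgHom.commutes]; simp; rfl
    · change (TrivSqZeroExt.inl (f (algebraMap 𝒪 A o)) + TrivSqZeroExt.inr
        (l (algebraMap 𝒪 A o - s (f (algebraMap 𝒪 A o)))) : DualNumber (ResidueField 𝒪)).snd = _
      rw [AlgHom.commutes]
      have : s (algebraMap 𝒪 (ResidueField 𝒪) o) = algebraMap 𝒪 A o := rfl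
      rw [this, sub_self, map_zero]; simp; rfl
  · intro hcon
    have hcon' : (TrivSqZeroExt.inl (f a) + TrivSqZeroExt.inr (l (a - s (f a))) :
        DualNumber (ResidueField 𝒪)) = 0 := hcon
    have h1 : f a = 0 := by simpa using congrArg TrivSqZeroExt.fst hcon'
    have h2 : l (a - s (f a)) = 0 := by simpa using congrArg TrivSqZeroExt.snd hcon'
    rw [h1, map_zero, sub_zero] at h2
    exact hl h2

variable [Finite (ResidueField 𝒪)] {F : TupleFunctor 𝒪 ι} (hF : IsProRepFunctor 𝒪 F)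
  {x0 : ι → ResidueField 𝒪} (hx0 : F (ResidueField 𝒪) x0)
  (huniq : ∀ x y, F (ResidueField 𝒪) x → F (ResidueField 𝒪) y → x = y)
  (hfin : Finite {x : ι → DualNumber (ResidueField 𝒪) // @F _ _ _ (dualAlg 𝒪) x})

omit [IsLocalRing 𝒪] [Finite (ResidueField 𝒪)] in
lemma aeval_mk_X_tg (J : Ideal (MvPolynomial ι 𝒪)) (p : MvPolynomial ι 𝒪) :
    MvPolynomial.aeval (fun i => Ideal.Quotient.mk J (MvPolynomial.X i : MvPolynomial ι 𝒪)) p
      = Ideal.Quotient.mk J p := by
  have := MvPolynomial.aeval_unique (Ideal.Quotient.mkₐ 𝒪 J)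
  exact (congrArg (fun φ => φ p) this).symm

include hF hx0 huniq in
lemma mk_mem_maximalIdeal_iff_tg {J : Ideal (MvPolynomial ι 𝒪)} [IsLocalRing (MvPolynomial ι 𝒪 ⧸ J)]
    (hT : IsArtinianTestAlgebra 𝒪 (MvPolynomial ι 𝒪 ⧸ J))
    (hFJ : F (MvPolynomial ι 𝒪 ⧸ J) (fun i => Ideal.Quotient.mk J (MvPolynomial.X i)))
    (p : MvPolynomial ι 𝒪) :
    Ideal.Quotient.mk J p ∈ maximalIdeal (MvPolynomial ι 𝒪 ⧸ J) ↔ p ∈ baseIdeal x0 := by
  have key : ∀ q ∈ baseIdeal x0, Ideal.Quotient.mk J q ∈ maximalIdeal (MvPolynomial ι 𝒪 ⧸ J) := by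
    intro q hq
    have := aeval_mem_maximalIdeal hF hx0 huniq hT _ hFJ hq
    rwa [aeval_mk_X_tg] at this
  refine ⟨fun h => ?_, key p⟩
  obtain ⟨o, ho⟩ := exists_sub_algebraMap_mem_baseIdeal x0 p
  by_cases hom : o ∈ maximalIdeal 𝒪
  · have h1 := (algebraMap_mem_baseIdeal_iff x0 o).mpr hom
    have h2 := Ideal.add_mem _ ho h1
    simpa using h2
  · exfalso
    have hu : IsUnit o := by
      by_contra hn
      exact hom ((mem_maximalIdeal _).mpr hn)
    have h1 := key _ ho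
    have h2 : Ideal.Quotient.mk J (algebraMap 𝒪 _ o) ∈ maximalIdeal (MvPolynomial ι 𝒪 ⧸ J) := by
      have := Ideal.sub_mem _ h h1
      simpa using this
    exact ((mem_maximalIdeal _).mp h2) ((hu.map (algebraMap 𝒪 (MvPolynomial ι 𝒪))).map _)

include hF hx0 huniq in
lemma good_inf_finset {T : Type} (K : T → Ideal (MvPolynomial ι 𝒪)) (hK : ∀ t, Good F (K t))
    (s : Finset T) : Good F (baseIdeal x0 ⊓ s.inf K) := by
  classical
  induction s using Finset.induction_on with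
  | empty => simpa using good_baseIdeal hF hx0
  | insert a s _ ih =>
    rw [Finset.inf_insert, ← inf_assoc, inf_comm (baseIdeal x0), inf_assoc]
    exact Good.inf hF hx0 huniq (hK a) ih

include hF hx0 huniq hfin in
theorem exists_good_tangent :
    ∃ I2 : Ideal (MvPolynomial ι 𝒪), Good F I2 ∧
      ∀ J, Good F J → baseIdeal x0 ^ 2 ≤ J →
        (maximalIdeal 𝒪).map (algebraMap 𝒪 (MvPolynomial ι 𝒪)) ≤ J → I2 ≤ J := by
  classical
  letI := dualAlg 𝒪
  have hE : IsArtinianTestAlgebra 𝒪 (DualNumber (ResidueField 𝒪)) :=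
    isArtinianTestAlgebra_dualNumber
  letI := Fintype.ofFinite {x : ι → DualNumber (ResidueField 𝒪) // F _ x}
  let K : {x : ι → DualNumber (ResidueField 𝒪) // F _ x} → Ideal (MvPolynomial ι 𝒪) :=
    fun y => RingHom.ker
      (MvPolynomial.aeval y.1 : MvPolynomial ι 𝒪 →ₐ[𝒪] DualNumber (ResidueField 𝒪))
  refine ⟨baseIdeal x0 ⊓ Finset.univ.inf K,
    good_inf_finset hF hx0 huniq K (fun y => good_ker_aeval hF hE y.1 y.2) _, ?_⟩
  intro J hJ hJ2 hJO p hp
  obtain ⟨_, hT, hFJ⟩ := hJ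
  by_contra hpJ
  have ha : Ideal.Quotient.mk J p ≠ 0 := by
    rwa [Ne, Ideal.Quotient.eq_zero_iff_mem]
  have hsq : ∀ a ∈ maximalIdeal (MvPolynomial ι 𝒪 ⧸ J),
      ∀ b ∈ maximalIdeal (MvPolynomial ι 𝒪 ⧸ J), a * b = 0 := by
    intro a ha b hb
    obtain ⟨q, rfl⟩ := Ideal.Quotient.mk_surjective a
    obtain ⟨r, rfl⟩ := Ideal.Quotient.mk_surjective b
    rw [mk_mem_maximalIdeal_iff_tg hF hx0 huniq hT hFJ] at ha hb
    rw [← map_mul, Ideal.Quotient.eq_zero_iff_mem]
    apply hJ2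
    rw [pow_two]
    exact Ideal.mul_mem_mul ha hb
  have hO : ∀ o ∈ maximalIdeal 𝒪, algebraMap 𝒪 (MvPolynomial ι 𝒪 ⧸ J) o = 0 := by
    intro o ho
    change Ideal.Quotient.mk J (algebraMap 𝒪 _ o) = 0
    rw [Ideal.Quotient.eq_zero_iff_mem]
    exact hJO (Ideal.mem_map_of_mem _ ho)
  obtain ⟨h, hh⟩ := exists_algHom_dualNumber_ne_zero hT hsq hO _ ha
  have hy := hF.map hT hE h _ hFJ
  have h0 : Finset.univ.inf K ≤ K ⟨_, hy⟩ := Finset.inf_le (Finset.mem_univ _)
  have h1 : p ∈ K ⟨_, hy⟩ := h0 hp.2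
  have h2 : MvPolynomial.aeval (⇑h ∘ fun i => Ideal.Quotient.mk J (MvPolynomial.X i)) p
      = h (Ideal.Quotient.mk J p) := by
    have := MvPolynomial.aeval_unique (h.comp (Ideal.Quotient.mkₐ 𝒪 J))
    exact (congrArg (fun φ => φ p) this).symm
  exact hh (h2 ▸ h1)

include hF hx0 huniq hfin in
theorem exists_generators :
    ∃ (d : ℕ) (t : Fin d → MvPolynomial ι 𝒪), (∀ i, t i ∈ baseIdeal x0) ∧
      ∀ I, Good F I → baseIdeal x0 ≤ Ideal.span (Set.range t) ⊔ baseIdeal x0 ^ 2 ⊔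
        (maximalIdeal 𝒪).map (algebraMap 𝒪 (MvPolynomial ι 𝒪)) ⊔ I := by
  obtain ⟨I2, hI2, hmin⟩ := exists_good_tangent hF hx0 huniq hfin
  have := hI2.finite
  let T := {c : MvPolynomial ι 𝒪 ⧸ I2 // ∃ q ∈ baseIdeal x0, Ideal.Quotient.mk I2 q = c}
  let e : T ≃ Fin (Nat.card T) := Finite.equivFin T
  let t : Fin (Nat.card T) → MvPolynomial ι 𝒪 := fun i => (e.symm i).2.choose
  have ht : ∀ i, t i ∈ baseIdeal x0 ∧ Ideal.Quotient.mk I2 (t i) = (e.symm i).1 :=
    fun i => (e.symm i).2.choose_spec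
  have hM : baseIdeal x0 ≤ Ideal.span (Set.range t) ⊔ I2 := by
    intro p hp
    let c : T := ⟨Ideal.Quotient.mk I2 p, p, hp, rfl⟩
    have h1 : Ideal.Quotient.mk I2 (t (e c)) = Ideal.Quotient.mk I2 p := by
      rw [(ht (e c)).2, Equiv.symm_apply_apply]
    have h2 : p - t (e c) ∈ I2 := by
      rw [← Ideal.Quotient.eq_zero_iff_mem, map_sub, h1, sub_self]
    have h3 : p = t (e c) + (p - t (e c)) := by ring
    rw [h3]
    exact Ideal.add_mem _ (Ideal.mem_sup_left (Ideal.subset_span ⟨_, rfl⟩)) (Ideal.mem_sup_right h2)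
  have hOM : (maximalIdeal 𝒪).map (algebraMap 𝒪 (MvPolynomial ι 𝒪)) ≤ baseIdeal x0 := by
    rw [Ideal.map_le_iff_le_comap]
    intro o ho
    exact (algebraMap_mem_baseIdeal_iff x0 o).mpr ho
  refine ⟨_, t, fun i => (ht i).1, fun I hI => ?_⟩
  have hIM := hI.le_baseIdeal hF hx0 huniq
  have hJ : Good F (baseIdeal x0 ^ 2 ⊔
      (maximalIdeal 𝒪).map (algebraMap 𝒪 (MvPolynomial ι 𝒪)) ⊔ I) :=
    hI.of_le hF hx0 huniq le_sup_right
      (sup_le (sup_le (Ideal.pow_le_self two_ne_zero) hOM) hIM)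
  have h4 := hmin _ hJ (le_sup_of_le_left le_sup_left) (le_sup_of_le_left le_sup_right)
  calc baseIdeal x0 ≤ Ideal.span (Set.range t) ⊔ I2 := hM
    _ ≤ Ideal.span (Set.range t) ⊔ (baseIdeal x0 ^ 2 ⊔
      (maximalIdeal 𝒪).map (algebraMap 𝒪 (MvPolynomial ι 𝒪)) ⊔ I) := sup_le_sup_left h4 _
    _ = _ := by simp only [sup_assoc]

end Fermat.Agent.S53
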