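import Fermat.Agent.S53.Defs

set_option autoImplicit false
set_option linter.style.haveILetI false
set_option linter.unusedSectionVars false
set_option linter.unusedVariables false

namespace Fermat.Agent.S53

open IsLocalRing GaloisRep

variable {𝒪 : Type} [CommRing 𝒪] [IsLocalRing 𝒪]

section basic
variable {A : Type} [CommRing A] [IsLocalRing A] [Algebra 𝒪 A]
variable {B : Type} [CommRing B] [IsLocalRing B] [Algebra 𝒪 B]

theorem exists_pow_maximalIdeal_eq_bot (hA : IsArtinianTestAlgebra 𝒪 A) :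
    ∃ n, maximalIdeal A ^ n = ⊥ := by
  haveI := hA.isArtinian
  obtain ⟨n, hn⟩ := (isArtinianRing_iff_isNilpotent_maximalIdeal A).mp inferInstance
  exact ⟨n, hn⟩

theorem exists_algebraMap_sub_mem
    (hA : Function.Surjective (residue A ∘ algebraMap 𝒪 A)) (a : A) :
    ∃ o : 𝒪, a - algebraMap 𝒪 A o ∈ maximalIdeal A := by
  obtain ⟨o, ho⟩ := hA (residue A a)
  refine ⟨o, ?_⟩
  rw [← residue_eq_zero_iff, map_sub, sub_eq_zero]
  exact ho.symm

/-- Any `𝒪`-algebra hom between local `𝒪`-algebras with residue field `k` is local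
(no finiteness needed). -/
theorem isLocalHom_of_algHom [IsLocalHom (algebraMap 𝒪 B)]
    (hA : Function.Surjective (residue A ∘ algebraMap 𝒪 A))
    (hB : Function.Surjective (residue B ∘ algebraMap 𝒪 B))
    (φ : A →ₐ[𝒪] B) : IsLocalHom (φ : A →+* B) := by
  have hsurj : Function.Surjective ((residue B).comp (φ : A →+* B)) := by
    intro y
    obtain ⟨o, ho⟩ := hB y
    refine ⟨algebraMap 𝒪 A o, ?_⟩
    simpa using ho
  have hmax := RingHom.ker_isMaximal_of_surjective _ hsurj
  have hker := eq_maximalIdeal hmax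
  refine ⟨fun a ha => ?_⟩
  by_contra hna
  have h1 : a ∈ maximalIdeal A := hna
  rw [← hker, RingHom.mem_ker] at h1
  have h2 : (φ : A →+* B) a ∈ maximalIdeal B := (residue_eq_zero_iff _).mp h1
  exact h2 ha

theorem residueField_map_surjective [IsLocalHom (algebraMap 𝒪 A)]
    (hA : Function.Surjective (residue A ∘ algebraMap 𝒪 A)) :
    Function.Surjective (ResidueField.map (algebraMap 𝒪 A)) := by
  intro y
  obtain ⟨o, ho⟩ := hA y
  exact ⟨residue 𝒪 o, by rw [ResidueField.map_residue]; exact ho⟩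

theorem residueField_map_bijective [IsLocalHom (algebraMap 𝒪 A)]
    (hA : Function.Surjective (residue A ∘ algebraMap 𝒪 A)) :
    Function.Bijective (ResidueField.map (algebraMap 𝒪 A)) :=
  ⟨(ResidueField.map (algebraMap 𝒪 A)).injective, residueField_map_surjective hA⟩

theorem finite_of_isArtinianTestAlgebra [Finite (ResidueField 𝒪)]
    (hA : IsArtinianTestAlgebra 𝒪 A) : Finite A := by
  haveI := hA.isArtinian
  haveI := hA.isLocalHom
  obtain ⟨n, hn⟩ := exists_pow_maximalIdeal_eq_bot hA
  haveI : Finite (A ⧸ maximalIdeal A) :=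
    Finite.of_surjective _ (residueField_map_surjective hA.residue_surjective)
  haveI : Finite (A ⧸ maximalIdeal A ^ n) :=
    Ideal.finite_quotient_pow (IsNoetherian.noetherian _) n
  rw [hn] at this
  exact Finite.of_equiv _ (RingEquiv.quotientBot A).toEquiv

theorem isArtinianTestAlgebra_residueField : IsArtinianTestAlgebra 𝒪 (ResidueField 𝒪) where
  isLocalHom := by
    rw [ResidueField.algebraMap_eq]
    infer_instance
  residue_surjective := by
    refine (residue_surjective).comp ?_
    rw [ResidueField.algebraMap_eq]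
    exact residue_surjective
  isArtinian := inferInstance

theorem isArtinianTestAlgebra_dualNumber :
    letI := dualAlg 𝒪
    IsArtinianTestAlgebra 𝒪 (DualNumber (ResidueField 𝒪)) := by
  letI := dualAlg 𝒪
  have hmap : ∀ o : 𝒪, algebraMap 𝒪 (DualNumber (ResidueField 𝒪)) o =
      algebraMap (ResidueField 𝒪) (DualNumber (ResidueField 𝒪)) (residue 𝒪 o) := fun _ => rfl
  refine ⟨⟨fun o ho => ?_⟩, ?_, ?_⟩
  · rw [hmap] at ho
    have h1 : IsUnit (TrivSqZeroExt.fstHom (ResidueField 𝒪) (ResidueField 𝒪) (ResidueField 𝒪)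
        (algebraMap (ResidueField 𝒪) (DualNumber (ResidueField 𝒪)) (residue 𝒪 o))) :=
      ho.map _
    have h2 : IsUnit (residue 𝒪 o) := by simpa using h1
    exact (isUnit_map_iff (residue 𝒪) o).mp h2
  · intro y
    obtain ⟨x, rfl⟩ := residue_surjective y
    obtain ⟨o, ho⟩ := residue_surjective (R := 𝒪) x.fst
    refine ⟨o, ?_⟩
    change residue _ (algebraMap 𝒪 (DualNumber (ResidueField 𝒪)) o) = residue _ x
    rw [← sub_eq_zero, ← map_sub, residue_eq_zero_iff, hmap, ho]
    intro hu
    have h1 := hu.map (TrivSqZeroExt.fstHom (ResidueField 𝒪) (ResidueField 𝒪) (ResidueField 𝒪))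
    simp [TrivSqZeroExt.algebraMap_eq_inl] at h1
  · haveI : Module.Finite (ResidueField 𝒪) (DualNumber (ResidueField 𝒪)) :=
      inferInstanceAs (Module.Finite (ResidueField 𝒪) (ResidueField 𝒪 × ResidueField 𝒪))
    exact IsArtinianRing.of_finite (ResidueField 𝒪) _

/-- The canonical `𝒪`-algebra map of a local `𝒪`-algebra with residue field `k` onto `k`. -/
theorem exists_resHom [IsLocalHom (algebraMap 𝒪 A)]
    (hA : Function.Surjective (residue A ∘ algebraMap 𝒪 A)) :
    ∃ f : A →ₐ[𝒪] ResidueField 𝒪, RingHom.ker (f : A →+* ResidueField 𝒪) = maximalIdeal A := by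
  let e : ResidueField 𝒪 ≃+* ResidueField A :=
    RingEquiv.ofBijective _ (residueField_map_bijective hA)
  have he : ∀ o, e (residue 𝒪 o) = residue A (algebraMap 𝒪 A o) := fun o =>
    ResidueField.map_residue _ _
  let f : A →ₐ[𝒪] ResidueField 𝒪 :=
    { (e.symm : ResidueField A →+* ResidueField 𝒪).comp (residue A) with
      commutes' := fun o => by
        change e.symm (residue A (algebraMap 𝒪 A o)) = residue 𝒪 o
        rw [← he, RingEquiv.symm_apply_apply] }
  refine ⟨f, ?_⟩
  ext a
  rw [RingHom.mem_ker]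
  change e.symm (residue A a) = 0 ↔ _
  rw [map_eq_zero_iff _ e.symm.injective, residue_eq_zero_iff]

end basic

/-- Criterion: an `𝒪`-algebra with an `𝒪`-algebra map to `k` with nilpotent kernel, finite as a
set, is an Artinian test algebra. -/
theorem isArtinianTestAlgebra_of_nilpotent_ker {C : Type} [CommRing C] [Algebra 𝒪 C] [Finite C]
    (f : C →ₐ[𝒪] ResidueField 𝒪) (hnil : ∀ c, f c = 0 → IsNilpotent c) :
    ∃ (_ : IsLocalRing C), IsArtinianTestAlgebra 𝒪 C := by
  have hfo : ∀ o, f (algebraMap 𝒪 C o) = residue 𝒪 o := fun o => f.commutes o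
  have hfsurj : Function.Surjective f := fun y => by
    obtain ⟨o, rfl⟩ := residue_surjective y
    exact ⟨_, hfo o⟩
  haveI : Nontrivial C := f.toRingHom.domain_nontrivial
  have hunit : ∀ c, IsUnit c ↔ f c ≠ 0 := by
    intro c
    constructor
    · intro hc
      exact (hc.map f).ne_zero
    · intro hc
      obtain ⟨d, hd⟩ := hfsurj (f c)⁻¹
      have h0 : f (c * d - 1) = 0 := by
        rw [map_sub, map_mul, hd, map_one, mul_inv_cancel₀ hc, sub_self]
      have h1 : IsUnit (c * d) := by
        have := (hnil _ h0).isUnit_add_one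
        simpa using this
      exact isUnit_of_mul_isUnit_left h1
  have hloc : IsLocalRing C := IsLocalRing.of_nonunits_add (by
    intro a b ha hb
    rw [mem_nonunits_iff, hunit, not_not] at ha hb ⊢
    rw [map_add, ha, hb, add_zero])
  refine ⟨hloc, ⟨fun o ho => ?_⟩, ?_, inferInstance⟩
  · have h1 : IsUnit (residue 𝒪 o) := by
      rw [← hfo]; exact ho.map f
    exact (isUnit_map_iff (residue 𝒪) o).mp h1
  · intro y
    obtain ⟨c, rfl⟩ := residue_surjective y
    obtain ⟨o, ho⟩ := residue_surjective (R := 𝒪) (f c)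
    refine ⟨o, ?_⟩
    change residue C (algebraMap 𝒪 C o) = residue C c
    rw [← sub_eq_zero, ← map_sub, residue_eq_zero_iff, mem_maximalIdeal, mem_nonunits_iff, hunit,
      not_not, map_sub, hfo, ho, sub_self]

/-- Quotients of a complete (or any) Noetherian local `𝒪`-algebra with residue field `k` by powers
of the maximal ideal are Artinian test algebras. -/
theorem quotient_pow_isArtinianTestAlgebra (R : Type) [CommRing R] [IsLocalRing R]
    [IsNoetherianRing R] [Algebra 𝒪 R] [IsLocalHom (algebraMap 𝒪 R)]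
    (hsurj : Function.Surjective (residue R ∘ algebraMap 𝒪 R)) (n : ℕ) :
    ∃ (_ : IsLocalRing (R ⧸ maximalIdeal R ^ (n + 1))),
      IsArtinianTestAlgebra 𝒪 (R ⧸ maximalIdeal R ^ (n + 1)) := by
  have hle : maximalIdeal R ^ (n + 1) ≤ maximalIdeal R := Ideal.pow_le_self (Nat.succ_ne_zero n)
  haveI : Nontrivial (R ⧸ maximalIdeal R ^ (n + 1)) :=
    Ideal.Quotient.nontrivial_iff.mpr (fun h => (maximalIdeal.isMaximal R).ne_top
      (top_le_iff.mp (h ▸ hle)))
  have hloc : IsLocalRing (R ⧸ maximalIdeal R ^ (n + 1)) :=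
    IsLocalRing.of_surjective' (Ideal.Quotient.mk _) Ideal.Quotient.mk_surjective
  have hmkloc : IsLocalHom (Ideal.Quotient.mk (maximalIdeal R ^ (n + 1))) := by
    refine ⟨fun a ha => ?_⟩
    by_contra hna
    have h1 : a ∈ maximalIdeal R := hna
    have h2 : Ideal.Quotient.mk (maximalIdeal R ^ (n + 1)) a ^ (n + 1) = 0 := by
      rw [← map_pow, Ideal.Quotient.eq_zero_iff_mem]
      exact Ideal.pow_mem_pow h1 _
    exact (ha.pow (n + 1)).ne_zero h2
  have hmax : maximalIdeal (R ⧸ maximalIdeal R ^ (n + 1)) =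
      (maximalIdeal R).map (Ideal.Quotient.mk _) := by
    apply le_antisymm
    · intro y hy
      obtain ⟨a, rfl⟩ := Ideal.Quotient.mk_surjective y
      refine Ideal.mem_map_of_mem _ ?_
      intro ha
      exact hy (ha.map _)
    · rw [Ideal.map_le_iff_le_comap]
      intro a ha
      exact fun hu => ha (hmkloc.map_nonunit a hu)
  refine ⟨hloc, ⟨fun o ho => ?_⟩, ?_, ?_⟩
  · have h1 : IsUnit (algebraMap 𝒪 R o) := hmkloc.map_nonunit _ ho
    exact (isUnit_map_iff (algebraMap 𝒪 R) o).mp h1
  · intro y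
    obtain ⟨c, rfl⟩ := residue_surjective y
    obtain ⟨a, rfl⟩ := Ideal.Quotient.mk_surjective c
    obtain ⟨o, ho⟩ := exists_algebraMap_sub_mem hsurj a
    refine ⟨o, ?_⟩
    change residue _ (Ideal.Quotient.mk _ (algebraMap 𝒪 R o)) = residue _ (Ideal.Quotient.mk _ a)
    rw [eq_comm, ← sub_eq_zero, ← map_sub, ← map_sub, residue_eq_zero_iff, hmax]
    exact Ideal.mem_map_of_mem _ ho
  · rw [isArtinianRing_iff_isNilpotent_maximalIdeal]
    refine ⟨n + 1, ?_⟩
    rw [hmax, ← Ideal.map_pow, Ideal.map_quotient_self]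
    rfl

end Fermat.Agent.S53
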